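import Fermat.Agent.X0Analytic.Degree
import Mathlib.Algebra.Polynomial.Eval.Coeff

/-!
# Series of modular functions

The series at `∞` of a modular function of level `Γ₀(N)` lies in the function field over `ℂ`.
-/

set_option autoImplicit false

noncomputable section

open UpperHalfPlane CongruenceSubgroup Polynomial
open scoped MatrixGroups

namespace Fermat.Agent.J0Torsion

open X0Analytic (modFun perMero conj conj_smul_apply conj_mk_apply mem_perMero_one IsPer jFun jMod
  ser FLevel algGen algToField toModFun ser_toModFun)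
open Gamma0Count (CosetSpace)

variable {N : ℕ} [NeZero N]

/-- `τ ↦ Q(τ)` evaluation of a periodic function. -/
def evalPer (τ : ℍ) : ↥(perMero N) →+* ℂ :=
  (Pi.evalRingHom (fun _ : ℍ => ℂ) τ).comp (perMero N).val.toRingHom

/-- Lagrange interpolation at the conjugates of `α`. -/
def lagPoly (α G : ↥(modFun N)) : (↥(perMero N))[X] :=
  open scoped Classical in
  ∑ x : CosetSpace N, C (conj x G) * ∏ y ∈ Finset.univ.erase x, (Polynomial.X - C (conj y α))

lemma map_lagPoly [DecidableEq (CosetSpace N)] (α G : ↥(modFun N)) (τ : ℍ) :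
    (lagPoly α G).map (evalPer τ) = ∑ x : CosetSpace N, C ((conj x G : ℍ → ℂ) τ) *
      ∏ y ∈ Finset.univ.erase x, (Polynomial.X - C ((conj y α : ℍ → ℂ) τ)) := by
  simp only [lagPoly, Polynomial.map_sum, Polynomial.map_mul, Polynomial.map_prod,
    Polynomial.map_sub, Polynomial.map_X, Polynomial.map_C]
  refine Finset.sum_congr rfl fun x _ => ?_
  congr 1
  exact Finset.prod_congr (by ext; simp) fun _ _ => rfl

lemma natDegree_lagPoly_lt (α G : ↥(modFun N)) :
    (lagPoly α G).natDegree < Fintype.card (CosetSpace N) := by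
  classical
  have hpos : 0 < Fintype.card (CosetSpace N) := Fintype.card_pos
  have h : (lagPoly α G).natDegree ≤ Fintype.card (CosetSpace N) - 1 := by
    refine natDegree_sum_le_of_forall_le _ _ fun x _ => (natDegree_C_mul_le _ _).trans ?_
    refine (natDegree_prod_le _ _).trans ((Finset.sum_le_sum fun y _ =>
      natDegree_X_sub_C_le (conj y α)).trans ?_)
    simp
  omega

theorem exists_mul_eq_poly (G : ↥(modFun N)) {α : ↥(modFun N)}
    (hα : Function.Injective fun x : CosetSpace N => conj x α) :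
    ∃ (p q : ℕ → ℂ[X]),
      (∑ i ∈ Finset.range (Fintype.card (CosetSpace N)), aeval (jMod N) (q i) * α ^ i) ≠ 0 ∧
      G * (∑ i ∈ Finset.range (Fintype.card (CosetSpace N)), aeval (jMod N) (q i) * α ^ i) =
        ∑ i ∈ Finset.range (Fintype.card (CosetSpace N)), aeval (jMod N) (p i) * α ^ i := by
  classical
  set n := Fintype.card (CosetSpace N)
  set x₁ : CosetSpace N := ((1 : SL(2, ℤ)) : CosetSpace N)
  -- level one coefficients
  have main : ∀ H : ↥(modFun N), ∃ p : ℕ → ℂ[X], ∀ τ : ℍ,
      (∑ i ∈ Finset.range n, (p i).eval (jFun τ) * (α : ℍ → ℂ) τ ^ i)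
        = (H : ℍ → ℂ) τ *
          ∏ y ∈ Finset.univ.erase x₁, ((α : ℍ → ℂ) τ - (conj y α : ℍ → ℂ) τ) := by
    intro H
    have hinv : ∀ (δ : SL(2, ℤ)) (τ : ℍ),
        (lagPoly α H).map (evalPer (δ • τ)) = (lagPoly α H).map (evalPer τ) := by
      intro δ τ
      rw [map_lagPoly, map_lagPoly]
      refine Fintype.sum_equiv (MulAction.toPerm δ⁻¹) _ _ fun x => ?_
      simp only [MulAction.toPerm_apply, conj_smul_apply, inv_inv]
      congr 1
      refine Finset.prod_equiv (MulAction.toPerm δ⁻¹) (fun y => ?_) fun y _ => ?_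
      · simp
      · simp only [MulAction.toPerm_apply, conj_smul_apply, inv_inv]
    have hcinv : ∀ (i : ℕ) (δ : SL(2, ℤ)) (τ : ℍ),
        (((lagPoly α H).coeff i : ↥(perMero N)) : ℍ → ℂ) (δ • τ)
          = (((lagPoly α H).coeff i : ↥(perMero N)) : ℍ → ℂ) τ := by
      intro i δ τ
      have h := congrArg (fun p : ℂ[X] => p.coeff i) (hinv δ τ)
      simp only [Polynomial.coeff_map] at h
      exact h
    have hc1 : ∀ i, (((lagPoly α H).coeff i : ↥(perMero N)) : ℍ → ℂ) ∈ perMero 1 := fun i =>
      mem_perMero_one ((lagPoly α H).coeff i).2 fun τ => by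
        rw [Nat.cast_one, ← UpperHalfPlane.modular_T_smul]
        exact hcinv i _ τ
    choose p hp using fun i => X0Analytic.exists_polynomial_of_levelOne (hc1 i) (hcinv i)
    refine ⟨p, fun τ => ?_⟩
    have h0 : ((lagPoly α H).map (evalPer τ)).eval ((α : ℍ → ℂ) τ)
        = (H : ℍ → ℂ) τ *
          ∏ y ∈ Finset.univ.erase x₁, ((α : ℍ → ℂ) τ - (conj y α : ℍ → ℂ) τ) := by
      have hx1 : ∀ F : ↥(modFun N), (conj x₁ F : ℍ → ℂ) τ = (F : ℍ → ℂ) τ := fun F => by
        rw [conj_mk_apply, inv_one, one_smul]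
      rw [map_lagPoly, eval_finsetSum, Finset.sum_eq_single x₁]
      · simp only [eval_mul, eval_C, eval_prod, eval_sub, eval_X, hx1]
      · intro x _ hx
        rw [eval_mul, eval_prod]
        refine mul_eq_zero_of_right _ (Finset.prod_eq_zero
          (Finset.mem_erase.mpr ⟨Ne.symm hx, Finset.mem_univ _⟩) ?_)
        rw [eval_sub, eval_X, eval_C, hx1, sub_self]
      · simp
    rw [← h0, eval_map, eval₂_eq_sum_range' _ (natDegree_lagPoly_lt α H)]
    exact Finset.sum_congr rfl fun i _ => by rw [← hp i τ]; rfl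
  have hev : ∀ (p : ℕ → ℂ[X]) (τ : ℍ),
      ((∑ i ∈ Finset.range n, aeval (jMod N) (p i) * α ^ i : ↥(modFun N)) : ℍ → ℂ) τ
        = ∑ i ∈ Finset.range n, (p i).eval (jFun τ) * (α : ℍ → ℂ) τ ^ i := by
    intro p τ
    let ev : ↥(modFun N) →ₐ[ℂ] ℂ :=
      (Pi.evalAlgHom ℂ (fun _ : ℍ => ℂ) τ).comp (modFun N).val
    show ev (∑ i ∈ Finset.range n, aeval (jMod N) (p i) * α ^ i) = _
    simp only [map_sum, map_mul, map_pow, ← aeval_algHom_apply]
    rfl
  obtain ⟨p, hp⟩ := main G
  obtain ⟨q, hq⟩ := main 1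
  refine ⟨p, q, fun h0 => ?_, Subtype.ext (funext fun τ => ?_)⟩
  · -- the product of differences is not identically zero
    let g : CosetSpace N → X0Analytic.Hol := fun y =>
      (⟨(α : ℍ → ℂ), α.2.1⟩ : X0Analytic.Hol) - ⟨(conj y α : ℍ → ℂ), (conj y α).2.1⟩
    have hg : ∏ y ∈ Finset.univ.erase x₁, g y ≠ 0 := by
      refine Finset.prod_ne_zero_iff.mpr fun y hy h => (Finset.mem_erase.mp hy).1 (hα ?_).symm
      refine Subtype.ext (funext fun τ => ?_)
      have := congrFun (congrArg Subtype.val h) τ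
      simp only [g, AddSubgroupClass.coe_sub, Pi.sub_apply, ZeroMemClass.coe_zero,
        Pi.zero_apply, sub_eq_zero] at this
      rw [conj_mk_apply, inv_one, one_smul]
      exact this
    refine hg (Subtype.ext (funext fun τ => ?_))
    have := hq τ
    rw [← hev, h0] at this
    let ev : X0Analytic.Hol →+* ℂ :=
      (Pi.evalRingHom (fun _ : ℍ => ℂ) τ).comp X0Analytic.holFun.val.toRingHom
    show ev _ = 0
    rw [map_prod]
    simpa [g, ev] using this.symm
  · simp only [MulMemClass.coe_mul, Pi.mul_apply, hev, hp, hq]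
    simp

/-- **Descent**: the series of a modular function is in the function field over `ℂ`. -/
theorem ser_mem_FLevel (G : ↥(modFun N)) : ser N G ∈ FLevel ℂ N := by
  set α : ↥(modFun N) := ⟨X0Analytic.scaledJ N, X0Analytic.scaledJ_mem dvd_rfl⟩
  have hα : Function.Injective fun x : CosetSpace N => conj x α := fun x y h =>
    X0Analytic.conj_scaledJ_injective h
  obtain ⟨p, q, hne, heq⟩ := exists_mul_eq_poly G hα
  have hαser : ser N α ∈ FLevel ℂ N := by
    rw [X0Analytic.ser_scaledJ_eq (RingHom.id ℂ) dvd_rfl, ModularCurve.coeffMap_id]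
    exact X0Analytic.algGen_le ℂ N (Algebra.subset_adjoin ⟨N, inferInstance, dvd_rfl, rfl⟩)
  have hj : ser N (jMod N) ∈ FLevel ℂ N := by
    rw [X0Analytic.ser_jMod, ← X0Analytic.coeffMap_jAlg (N := N) (RingHom.id ℂ),
      ModularCurve.coeffMap_id]
    exact X0Analytic.algGen_le ℂ N (X0Analytic.jAlg ℂ N).2
  have hpoly : ∀ r : ℕ → ℂ[X], ser N (∑ i ∈ Finset.range (Fintype.card (CosetSpace N)),
      aeval (jMod N) (r i) * α ^ i) ∈ FLevel ℂ N := by
    intro r
    rw [map_sum]
    refine sum_mem fun i _ => ?_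
    rw [map_mul, map_pow]
    refine mul_mem ?_ (pow_mem hαser i)
    induction r i using Polynomial.induction_on' with
    | add a b ha hb => rw [map_add, map_add]; exact add_mem ha hb
    | monomial k c =>
      rw [aeval_monomial, map_mul, map_pow, X0Analytic.ser_algebraMap,
        ← ModularCurve.algebraMap_laurentSeries_eq_single]
      exact mul_mem (IntermediateField.algebraMap_mem _ c) (pow_mem hj k)
  have h := congrArg (ser N) heq
  rw [map_mul] at h
  rw [show ser N G = ser N (∑ i ∈ Finset.range (Fintype.card (CosetSpace N)),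
      aeval (jMod N) (p i) * α ^ i) / ser N (∑ i ∈ Finset.range (Fintype.card (CosetSpace N)),
      aeval (jMod N) (q i) * α ^ i) from
    (eq_div_iff ((map_ne_zero_iff _ X0Analytic.ser_injective).mpr hne)).mpr h]
  exact div_mem (hpoly p) (hpoly q)

end Fermat.Agent.J0Torsion

end
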