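import Mathlib.GroupTheory.Coset.Card
import Mathlib.Data.ZMod.QuotientGroup
import Fermat.Agent.EichlerShimura.DimBound

/-!
# Good homomorphisms and their number

Homomorphisms `Γ₀(N) → A` killing the elements with `trace ^ 2 ≤ 4`, and the counting bound
`#A ^ (2g)` for finite `A`.
-/

set_option autoImplicit false
set_option linter.style.haveILetI false

open CongruenceSubgroup Matrix
open scoped MatrixGroups

namespace Fermat.Agent.J0Torsion

open Gamma0Count
open EichlerShimura (rep mk_rep transfer transfer_mul elU S_mul_S ST_cube neg_one_smul_coset)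

variable {N : ℕ} {A : Type*} [AddCommGroup A]

/-- Homomorphisms killing the parabolic and elliptic elements (and `±1`). -/
def goodHoms (N : ℕ) (A : Type*) [AddCommGroup A] : AddSubgroup (Additive (Gamma0 N) →+ A) where
  carrier := {φ | ∀ γ : Gamma0 N, ((γ : SL(2, ℤ)) : Matrix (Fin 2) (Fin 2) ℤ).trace ^ 2 ≤ 4 →
    φ (Additive.ofMul γ) = 0}
  zero_mem' := fun _ _ => rfl
  add_mem' := fun {φ ψ} hφ hψ γ hγ => by
    rw [AddMonoidHom.add_apply, hφ γ hγ, hψ γ hγ, add_zero]
  neg_mem' := fun {φ} hφ γ hγ => by rw [AddMonoidHom.neg_apply, hφ γ hγ, neg_zero]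

/-- Shapiro's cocycle of `φ`, shifted by the coboundary of `u`. -/
noncomputable def cocy (g : SL(2, ℤ)) :
    (Additive (Gamma0 N) →+ A) × (CosetSpace N → A) →+ (CosetSpace N → A) where
  toFun p x := p.1 (Additive.ofMul (transfer g x)) + (p.2 (g • x) - p.2 x)
  map_zero' := by funext x; simp
  map_add' p q := by
    funext x
    simp only [Prod.fst_add, Prod.snd_add, AddMonoidHom.add_apply, Pi.add_apply]
    abel

lemma cocy_apply (g : SL(2, ℤ)) (φ : Additive (Gamma0 N) →+ A) (u : CosetSpace N → A)
    (x : CosetSpace N) :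
    cocy g (φ, u) x = φ (Additive.ofMul (transfer g x)) + (u (g • x) - u x) := rfl

lemma cocy_mul (g h : SL(2, ℤ)) (p : (Additive (Gamma0 N) →+ A) × (CosetSpace N → A))
    (x : CosetSpace N) : cocy (g * h) p x = cocy g p (h • x) + cocy h p x := by
  obtain ⟨φ, u⟩ := p
  rw [cocy_apply, cocy_apply, cocy_apply, transfer_mul, ofMul_mul, map_add, mul_smul]
  abel

lemma cocy_eq_zero {φ : Additive (Gamma0 N) →+ A} {u : CosetSpace N → A}
    (hS : cocy ModularGroup.S (φ, u) = 0) (hU : cocy elU (φ, u) = 0) :
    φ = 0 ∧ ∀ x y, u x = u y := by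
  have h1 : ∀ x, cocy 1 (φ, u) x = 0 := fun x => by
    have := cocy_mul 1 1 (φ, u) x
    rw [one_smul, mul_one] at this
    exact left_eq_add.mp this
  let K : Subgroup SL(2, ℤ) :=
    { carrier := {g | cocy g (φ, u) = 0}
      one_mem' := funext h1
      mul_mem' := fun {g h} hg hh => funext fun x => by
        rw [cocy_mul, hg, hh]; simp
      inv_mem' := fun {g} hg => funext fun x => by
        have := cocy_mul g g⁻¹ (φ, u) x
        rw [mul_inv_cancel, h1, hg] at this
        simpa using this.symm }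
  have hK : K = ⊤ := by
    rw [eq_top_iff, ← _root_.SpecialLinearGroup.SL2Z_generators, Subgroup.closure_le]
    have hS' : ModularGroup.S ∈ K := hS
    rintro g (rfl | rfl)
    · exact hS'
    · have := K.mul_mem (K.inv_mem hS') (show elU ∈ K from hU)
      rwa [elU, inv_mul_cancel_left] at this
  have h : ∀ g, cocy g (φ, u) = 0 := fun g => (hK.symm ▸ Subgroup.mem_top g : g ∈ K)
  have hφ : φ = 0 := by
    refine AddMonoidHom.ext fun γ => ?_
    set s : SL(2, ℤ) := rep ((1 : SL(2, ℤ)) : CosetSpace N) with hs_def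
    have hs : s ∈ Gamma0 N := by
      have := (QuotientGroup.eq).mp (mk_rep ((1 : SL(2, ℤ)) : CosetSpace N))
      rwa [mul_one, Subgroup.inv_mem_iff] at this
    set g : SL(2, ℤ) := s * (Additive.toMul γ : Gamma0 N) * s⁻¹
    have hg : g ∈ Gamma0 N := mul_mem (mul_mem hs (Additive.toMul γ).2) (inv_mem hs)
    have hx : g • ((1 : SL(2, ℤ)) : CosetSpace N) = ((1 : SL(2, ℤ)) : CosetSpace N) := by
      rw [MulAction.Quotient.smul_coe, smul_eq_mul, mul_one, QuotientGroup.eq, mul_one]
      exact inv_mem hg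
    have := congrFun (h g) ((1 : SL(2, ℤ)) : CosetSpace N)
    simp only [cocy_apply, hx, sub_self, add_zero, Pi.zero_apply] at this
    have ht : transfer g ((1 : SL(2, ℤ)) : CosetSpace N) = Additive.toMul γ := by
      apply Subtype.ext
      simp only [transfer, hx, ← hs_def, g]
      group
    rwa [ht] at this
  refine ⟨hφ, fun x y => ?_⟩
  subst hφ
  obtain ⟨g, rfl⟩ := MulAction.exists_smul_eq SL(2, ℤ) x y
  have := congrFun (h g) x
  simp only [cocy_apply, AddMonoidHom.zero_apply, zero_add, Pi.zero_apply] at this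
  exact (sub_eq_zero.mp this).symm

lemma cocy_eq_zero_of_smul_eq {φ : Additive (Gamma0 N) →+ A} (hφ : φ ∈ goodHoms N A)
    (u : CosetSpace N → A) {g : SL(2, ℤ)} {x : CosetSpace N} (hx : g • x = x)
    (hg : (g : Matrix (Fin 2) (Fin 2) ℤ).trace ^ 2 ≤ 4) : cocy g (φ, u) x = 0 := by
  rw [cocy_apply, hx, sub_self, add_zero]
  refine hφ _ ?_
  show ((rep (g • x))⁻¹ * (g * rep x) : SL(2, ℤ)).1.trace ^ 2 ≤ 4
  rw [hx, Matrix.SpecialLinearGroup.coe_mul, Matrix.trace_mul_comm,
    ← Matrix.SpecialLinearGroup.coe_mul, mul_assoc, mul_inv_cancel, mul_one]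
  exact hg

/-- The orbits of `g` on the coset space. -/
abbrev OrbSpace (N : ℕ) (g : SL(2, ℤ)) : Type :=
  MulAction.orbitRel.Quotient (Subgroup.zpowers g) (CosetSpace N)

/-- The orbit of a coset. -/
def toOrb (g : SL(2, ℤ)) (x : CosetSpace N) : OrbSpace N g := Quotient.mk'' x

lemma toOrb_eq_iff {g : SL(2, ℤ)} (x y : CosetSpace N) :
    toOrb g x = toOrb g y ↔ ∃ k : ℤ, g ^ k • y = x := by
  rw [toOrb, toOrb, Quotient.eq'', MulAction.orbitRel_apply, MulAction.mem_orbit_iff]
  constructor
  · rintro ⟨⟨t, k, rfl⟩, h⟩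
    exact ⟨k, h⟩
  · rintro ⟨k, h⟩
    exact ⟨⟨_, k, rfl⟩, h⟩

variable [NeZero N]

/-- Sums over the orbits of `g`. -/
noncomputable def orbSum (N : ℕ) [NeZero N] (g : SL(2, ℤ)) (A : Type*) [AddCommGroup A] :
    (CosetSpace N → A) →+ (OrbSpace N g → A) :=
  open scoped Classical in
  { toFun := fun G o => ∑ x ∈ Finset.univ.filter (fun x => toOrb g x = o), G x
    map_zero' := by funext o; simp
    map_add' := fun G H => by funext o; simp [Finset.sum_add_distrib] }

lemma orbSum_apply {g : SL(2, ℤ)} [DecidableEq (OrbSpace N g)] (G : CosetSpace N → A)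
    (o : OrbSpace N g) :
    orbSum N g A G o = ∑ x ∈ Finset.univ.filter (fun x => toOrb g x = o), G x := by
  simp only [orbSum, AddMonoidHom.coe_mk, ZeroHom.coe_mk]
  congr 1
  exact Finset.filter_congr_decidable _ _ _

lemma orbSum_single [DecidableEq (CosetSpace N)] {g : SL(2, ℤ)}
    [DecidableEq (OrbSpace N g)] (x : CosetSpace N) (a : A) :
    orbSum N g A (Pi.single x a) = Pi.single (toOrb g x) a := by
  funext o
  rw [orbSum_apply, Finset.sum_pi_single']
  simp [Pi.single_apply, eq_comm]

lemma orbSum_surjective (g : SL(2, ℤ)) :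
    Function.Surjective (orbSum N g A) := by
  classical
  intro w
  haveI : Fintype (OrbSpace N g) := Fintype.ofFinite _
  refine ⟨∑ o, Pi.single o.out (w o), ?_⟩
  rw [map_sum]
  simp only [orbSum_single]
  have : ∀ o : OrbSpace N g, toOrb g o.out = o := fun o => Quotient.out_eq' o
  simp only [this, Finset.univ_sum_single]

lemma orbSum_cocy {φ : Additive (Gamma0 N) →+ A} (hφ : φ ∈ goodHoms N A) (u : CosetSpace N → A)
    {g : SL(2, ℤ)} (hg : ∀ m : ℕ, ((g ^ m : SL(2, ℤ)) : Matrix (Fin 2) (Fin 2) ℤ).trace ^ 2 ≤ 4) :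
    orbSum N g A (cocy g (φ, u)) = 0 := by
  classical
  funext o
  obtain ⟨x, rfl⟩ : ∃ x, toOrb g x = o := ⟨o.out, Quotient.out_eq' o⟩
  set m := Function.minimalPeriod (g • ·) x with hm
  have hmpos : 0 < m := by
    have : x ∈ Function.periodicPts (g • ·) :=
      (MulAction.injective g).mem_periodicPts x
    exact Function.minimalPeriod_pos_of_mem_periodicPts this
  have hper : g ^ m • x = x := by
    have h := Function.isPeriodicPt_minimalPeriod (g • ·) x
    rwa [← hm, Function.IsPeriodicPt, Function.IsFixedPt, smul_iterate] at h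
  have hfib : Finset.univ.filter (fun y => toOrb g y = toOrb g x)
      = (Finset.range m).image (fun i : ℕ => g ^ i • x) := by
    ext y
    simp only [Finset.mem_filter, Finset.mem_univ, true_and, Finset.mem_image, Finset.mem_range,
      toOrb_eq_iff]
    constructor
    · rintro ⟨k, rfl⟩
      refine ⟨(k % (m : ℤ)).toNat, ?_, ?_⟩
      · have := Int.emod_lt_of_pos k (b := (m : ℤ)) (by exact_mod_cast hmpos)
        omega
      · rw [← zpow_natCast, Int.toNat_of_nonneg (Int.emod_nonneg _ (by omega)), hm,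
          MulAction.zpow_smul_mod_minimalPeriod]
    · rintro ⟨i, -, rfl⟩
      exact ⟨i, by rw [zpow_natCast]⟩
  have hinj : Set.InjOn (fun i : ℕ => g ^ i • x) (Finset.range m : Set ℕ) := by
    intro i hi j hj hij
    have := Function.iterate_injOn_Iio_minimalPeriod (f := (g • ·)) (x := x)
    refine this (by simpa using hi) (by simpa using hj) ?_
    simpa [smul_iterate] using hij
  have hsum : ∀ i : ℕ, cocy (g ^ i) (φ, u) x
      = ∑ j ∈ Finset.range i, cocy g (φ, u) (g ^ j • x) := by
    intro i
    induction i with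
    | zero =>
      rw [pow_zero, Finset.sum_range_zero]
      have := cocy_mul 1 1 (φ, u) x
      rw [one_smul, mul_one] at this
      exact left_eq_add.mp this
    | succ i ih => rw [Finset.sum_range_succ, ← ih, pow_succ', cocy_mul, add_comm]
  rw [orbSum_apply, hfib, Finset.sum_image hinj, ← hsum, Pi.zero_apply]
  exact cocy_eq_zero_of_smul_eq hφ u hper (hg m)

lemma card_orbSpace {g : SL(2, ℤ)} {p : ℕ} (hp : p.Prime)
    (hg : ∀ x : CosetSpace N, g ^ p • x = x) :
    p * Nat.card (OrbSpace N g) =
      Nat.card (CosetSpace N) + (p - 1) * Nat.card {x : CosetSpace N // g • x = x} := by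
  classical
  haveI : Fintype (OrbSpace N g) := Fintype.ofFinite _
  haveI := Fact.mk hp
  set fib : OrbSpace N g → Finset (CosetSpace N) :=
    fun o => Finset.univ.filter (fun x => toOrb g x = o) with hfib
  have key : ∀ o, p = (fib o).card + (p - 1) * ((fib o).filter (fun x => g • x = x)).card := by
    intro o
    obtain ⟨x, rfl⟩ : ∃ x, toOrb g x = o := ⟨o.out, Quotient.out_eq' o⟩
    by_cases hx : g • x = x
    · have : fib (toOrb g x) = {x} := by
        ext y
        simp only [hfib, Finset.mem_filter, Finset.mem_univ, true_and, Finset.mem_singleton,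
          toOrb_eq_iff]
        constructor
        · rintro ⟨k, rfl⟩
          exact MulAction.mem_stabilizer_iff.mp
            (zpow_mem (MulAction.mem_stabilizer_iff.mpr hx) k)
        · rintro rfl
          exact ⟨0, by simp⟩
      rw [this, Finset.filter_singleton, if_pos hx]
      simp only [Finset.card_singleton, mul_one]
      have := hp.pos
      omega
    · have hm : Function.minimalPeriod (g • ·) x = p := by
        refine Function.minimalPeriod_eq_prime ?_ ?_
        · show Function.IsFixedPt _ x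
          rw [smul_iterate]
          exact hg x
        · exact hx
      have hcard : (fib (toOrb g x)).card = p := by
        have hcard' := MulAction.minimalPeriod_eq_card (a := g) (b := x)
        rw [hm, ← Nat.card_eq_fintype_card] at hcard'
        refine Eq.trans ?_ hcard'.symm
        rw [← Nat.card_eq_finsetCard]
        refine Nat.card_congr (Equiv.subtypeEquivRight fun y => ?_)
        simp only [hfib, Finset.mem_filter, Finset.mem_univ, true_and]
        rw [toOrb, toOrb, Quotient.eq'', MulAction.orbitRel_apply]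
        rfl
      have hnone : (fib (toOrb g x)).filter (fun y => g • y = y) = ∅ := by
        rw [Finset.filter_eq_empty_iff]
        intro y hy hy'
        simp only [hfib, Finset.mem_filter, Finset.mem_univ, true_and, toOrb_eq_iff] at hy
        obtain ⟨k, rfl⟩ := hy
        refine hx ?_
        rw [smul_smul, (Commute.self_zpow g k).eq, mul_smul] at hy'
        exact smul_left_cancel _ hy'
      simp [hnone, hcard]
  have h1 : ∑ o, (fib o).card = Nat.card (CosetSpace N) := by
    rw [Nat.card_eq_fintype_card, ← Finset.card_univ]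
    exact (Finset.card_eq_sum_card_fiberwise (fun _ _ => Finset.mem_univ _)).symm
  have h2 : ∑ o, ((fib o).filter (fun x => g • x = x)).card
      = Nat.card {x : CosetSpace N // g • x = x} := by
    rw [Nat.card_eq_fintype_card, Fintype.card_subtype,
      Finset.card_eq_sum_card_fiberwise (f := toOrb g) (t := Finset.univ)
        (fun _ _ => Finset.mem_univ _)]
    refine Finset.sum_congr rfl fun o _ => ?_
    simp only [hfib, Finset.filter_filter, and_comm]
  calc p * Nat.card (OrbSpace N g)
      = ∑ _o : OrbSpace N g, p := by simp [Nat.card_eq_fintype_card, mul_comm]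
    _ = ∑ o, ((fib o).card + (p - 1) * ((fib o).filter (fun x => g • x = x)).card) :=
        Finset.sum_congr rfl fun o _ => key o
    _ = _ := by rw [Finset.sum_add_distrib, h1, ← Finset.mul_sum, h2]

omit [NeZero N] in
lemma trace_sq_S_pow (m : ℕ) :
    ((ModularGroup.S ^ m : SL(2, ℤ)) : Matrix (Fin 2) (Fin 2) ℤ).trace ^ 2 ≤ 4 := by
  have h4 : ModularGroup.S ^ 4 = 1 := by decide
  rw [pow_eq_pow_mod m h4]
  have := Nat.mod_lt m (show 4 > 0 by norm_num)
  interval_cases m % 4 <;> decide

omit [NeZero N] in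
lemma trace_sq_elU_pow (m : ℕ) :
    ((elU ^ m : SL(2, ℤ)) : Matrix (Fin 2) (Fin 2) ℤ).trace ^ 2 ≤ 4 := by
  have h6 : elU ^ 6 = 1 := by decide
  rw [pow_eq_pow_mod m h6]
  have := Nat.mod_lt m (show 6 > 0 by norm_num)
  interval_cases m % 6 <;> decide

omit [NeZero N] in
lemma trace_sq_T_pow (m : ℕ) :
    ((ModularGroup.T ^ m : SL(2, ℤ)) : Matrix (Fin 2) (Fin 2) ℤ).trace ^ 2 ≤ 4 := by
  rw [← zpow_natCast, ModularGroup.coe_T_zpow, Matrix.trace_fin_two_of]
  norm_num

omit [NeZero N] in
lemma smul_sq_S (x : CosetSpace N) : ModularGroup.S ^ 2 • x = x := by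
  rw [sq, S_mul_S, neg_one_smul_coset]

omit [NeZero N] in
lemma smul_cube_elU (x : CosetSpace N) : elU ^ 3 • x = x := by
  rw [pow_succ, sq, elU, ST_cube, neg_one_smul_coset]

/-- `(a, b) ↦ a(U x) + b(x)`, the value at `T`. -/
noncomputable def tComb (N : ℕ) [NeZero N] (A : Type*) [AddCommGroup A] :
    (orbSum N ModularGroup.S A).ker × (orbSum N elU A).ker →+ (CosetSpace N → A) where
  toFun p x := (p.1 : CosetSpace N → A) (elU • x) + (p.2 : CosetSpace N → A) x
  map_zero' := by funext x; simp
  map_add' p q := by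
    funext x
    simp only [Prod.fst_add, Prod.snd_add, AddSubgroup.coe_add, Pi.add_apply]
    abel

lemma single_sub_single_mem_range [DecidableEq (CosetSpace N)] (g : SL(2, ℤ)) (x : CosetSpace N)
    (a : A) : Pi.single (g • x) a - Pi.single x a ∈ (tComb N A).range := by
  classical
  set R := (tComb N A).range
  have hU : ∀ x, Pi.single (elU • x) a - Pi.single x a ∈ R := fun x => by
    refine ⟨(0, ⟨Pi.single (elU • x) a - Pi.single x a, ?_⟩), ?_⟩
    · rw [AddMonoidHom.mem_ker, map_sub, orbSum_single, orbSum_single,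
        (toOrb_eq_iff (elU • x) x).mpr ⟨1, by rw [zpow_one]⟩, sub_self]
    · funext y; simp [tComb]
  have hS : ∀ x, Pi.single (elU⁻¹ • ModularGroup.S • x) a - Pi.single (elU⁻¹ • x) a ∈ R :=
    fun x => by
    refine ⟨(⟨Pi.single (ModularGroup.S • x) a - Pi.single x a, ?_⟩, 0), ?_⟩
    · rw [AddMonoidHom.mem_ker, map_sub, orbSum_single, orbSum_single,
        (toOrb_eq_iff (ModularGroup.S • x) x).mpr ⟨1, by rw [zpow_one]⟩, sub_self]
    · funext y
      simp [tComb, Pi.single_apply, smul_eq_iff_eq_inv_smul]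
  let K : Subgroup SL(2, ℤ) :=
    { carrier := {g | ∀ x, Pi.single (g • x) a - Pi.single x a ∈ R}
      one_mem' := fun x => by simp
      mul_mem' := fun {g h} hg hh x => by
        have := R.add_mem (hg (h • x)) (hh x)
        rwa [sub_add_sub_cancel, smul_smul] at this
      inv_mem' := fun {g} hg x => by
        have := R.neg_mem (hg (g⁻¹ • x))
        rwa [neg_sub, smul_inv_smul] at this }
  have hUK : elU ∈ K := hU
  have hSK : ModularGroup.S ∈ K := by
    intro x
    have h1 := hU (elU⁻¹ • x)
    have h2 := hU (elU⁻¹ • ModularGroup.S • x)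
    rw [smul_inv_smul] at h1 h2
    have := R.sub_mem (R.add_mem h2 (hS x)) h1
    convert this using 1
    abel
  have hK : K = ⊤ := by
    rw [eq_top_iff, ← _root_.SpecialLinearGroup.SL2Z_generators, Subgroup.closure_le]
    rintro g (rfl | rfl)
    · exact hSK
    · have := K.mul_mem (K.inv_mem hSK) hUK
      rwa [elU, inv_mul_cancel_left] at this
  exact (hK ▸ Subgroup.mem_top g : g ∈ K) x

/-- The values at `S`, `U`. -/
noncomputable def genPair (N : ℕ) [NeZero N] (A : Type*) [AddCommGroup A] :
    goodHoms N A × (CosetSpace N → A) →+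
      (orbSum N ModularGroup.S A).ker × (orbSum N elU A).ker :=
  AddMonoidHom.prod
    (((cocy ModularGroup.S).comp ((goodHoms N A).subtype.prodMap (AddMonoidHom.id _))).codRestrict
      _ fun p => orbSum_cocy p.1.2 p.2 trace_sq_S_pow)
    (((cocy elU).comp ((goodHoms N A).subtype.prodMap (AddMonoidHom.id _))).codRestrict
      _ fun p => orbSum_cocy p.1.2 p.2 trace_sq_elU_pow)

lemma tComb_genPair (p : goodHoms N A × (CosetSpace N → A)) :
    tComb N A (genPair N A p) = cocy ModularGroup.T ((p.1 : Additive (Gamma0 N) →+ A), p.2) := by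
  funext x
  set q : (Additive (Gamma0 N) →+ A) × (CosetSpace N → A) :=
    ((p.1 : Additive (Gamma0 N) →+ A), p.2) with hq
  show cocy ModularGroup.S q (elU • x) + cocy elU q x = cocy ModularGroup.T q x
  have hneg : ModularGroup.S * elU = -1 * ModularGroup.T := by
    rw [elU, ← mul_assoc, S_mul_S]
  have h0 : cocy (-1) q (ModularGroup.T • x) = 0 :=
    cocy_eq_zero_of_smul_eq p.1.2 p.2 (neg_one_smul_coset _)
      (by simp)
  rw [← cocy_mul, hneg, cocy_mul, h0, zero_add]

/-- There are at most `#A ^ (2 g)` good homomorphisms to a finite `A`. -/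
theorem natCard_goodHoms_le (N : ℕ) [NeZero N] (A : Type*) [AddCommGroup A] [Finite A]
    (r : ℕ) (hr : (r : ℚ) = 2 * ModularCurve.genusFormula N) :
    Nat.card (goodHoms N A) ≤ Nat.card A ^ r := by
  classical
  set k := Nat.card A
  have hk : 0 < k := Nat.card_pos
  set oS := Nat.card (OrbSpace N ModularGroup.S)
  set oU := Nat.card (OrbSpace N elU)
  set oT := Nat.card (OrbSpace N ModularGroup.T)
  set μ := Nat.card (CosetSpace N)
  have hfun : ∀ (X : Type) [Finite X], Nat.card (X → A) = k ^ Nat.card X := fun X _ => by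
    rw [Nat.card_fun]
  have hker : ∀ g : SL(2, ℤ),
      Nat.card (orbSum N g A).ker * k ^ Nat.card (OrbSpace N g) = k ^ μ := fun g => by
    have h := (orbSum N g A).ker.card_mul_index
    rwa [AddSubgroup.index_ker, AddMonoidHom.range_eq_top.mpr (orbSum_surjective g),
      Nat.card_congr AddSubgroup.topEquiv.toEquiv, hfun, hfun] at h
  set x₀ : CosetSpace N := ((1 : SL(2, ℤ)) : CosetSpace N)
  set ev : (CosetSpace N → A) →+ A := Pi.evalAddMonoidHom (fun _ => A) x₀
  set Ψ := (orbSum N ModularGroup.T A).comp (tComb N A)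
  -- the gauge-fixed source injects into the kernel of `Ψ`
  have hle : Nat.card (goodHoms N A) * Nat.card ev.ker ≤ Nat.card Ψ.ker := by
    rw [← Nat.card_prod]
    refine Nat.card_le_card_of_injective
      (fun p : goodHoms N A × ev.ker =>
        (⟨genPair N A (p.1, (p.2 : CosetSpace N → A)), ?_⟩ : Ψ.ker)) ?_
    · rw [AddMonoidHom.mem_ker, AddMonoidHom.comp_apply, tComb_genPair]
      exact orbSum_cocy p.1.2 _ trace_sq_T_pow
    · intro p q hpq
      have h0 := sub_eq_zero.mpr (congrArg Subtype.val hpq)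
      rw [← map_sub, Prod.mk_sub_mk] at h0
      obtain ⟨hφ, hu⟩ := cocy_eq_zero
        (congrArg (fun z => (z.1 : CosetSpace N → A)) h0)
        (congrArg (fun z => (z.2 : CosetSpace N → A)) h0)
      refine Prod.ext (sub_eq_zero.mp (Subtype.ext hφ)) (Subtype.ext (funext fun x => ?_))
      have h := hu x x₀
      have hp : (p.2 : CosetSpace N → A) x₀ = 0 := p.2.2
      have hq : (q.2 : CosetSpace N → A) x₀ = 0 := q.2.2
      change (p.2 : CosetSpace N → A) x - (q.2 : CosetSpace N → A) x
        = (p.2 : CosetSpace N → A) x₀ - (q.2 : CosetSpace N → A) x₀ at h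
      rw [hp, hq, sub_self] at h
      exact sub_eq_zero.mp h
  have hev : Nat.card ev.ker * k = k ^ μ := by
    have h := ev.ker.card_mul_index
    rwa [AddSubgroup.index_ker, AddMonoidHom.range_eq_top.mpr
      (fun a => ⟨fun _ => a, rfl⟩ : Function.Surjective ev),
      Nat.card_congr AddSubgroup.topEquiv.toEquiv, hfun] at h
  have hΨ : k ^ oT ≤ Nat.card Ψ.range * k := by
    rw [← hfun (OrbSpace N ModularGroup.T), ← Nat.card_prod]
    refine Nat.card_le_card_of_surjective
      (fun p : Ψ.range × A => (p.1 : _ → A) + Pi.single (toOrb _ x₀) p.2) ?_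
    intro w
    obtain ⟨v, rfl⟩ := orbSum_surjective (N := N) (A := A) ModularGroup.T w
    have hmem : v - Pi.single x₀ (∑ x, v x) ∈ (tComb N A).range := by
      have : v - Pi.single x₀ (∑ x, v x) = ∑ x, (Pi.single x (v x) - Pi.single x₀ (v x)) := by
        rw [Finset.sum_sub_distrib, Finset.univ_sum_single]
        congr 1
        exact (map_sum (AddMonoidHom.single (fun _ => A) x₀) v Finset.univ)
      rw [this]
      refine AddSubgroup.sum_mem _ fun x _ => ?_
      obtain ⟨g, hg⟩ := MulAction.exists_smul_eq SL(2, ℤ) x₀ x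
      have := single_sub_single_mem_range g x₀ (v x)
      rwa [hg] at this
    obtain ⟨q, hq⟩ := hmem
    refine ⟨(⟨Ψ q, ⟨q, rfl⟩⟩, ∑ x, v x), ?_⟩
    simp only [Ψ, AddMonoidHom.comp_apply, hq, map_sub, orbSum_single, sub_add_cancel]
  have hΨk : Nat.card Ψ.ker * Nat.card Ψ.range
      = Nat.card (orbSum N ModularGroup.S A).ker * Nat.card (orbSum N elU A).ker := by
    rw [← Nat.card_prod (orbSum N ModularGroup.S A).ker, ← Ψ.ker.card_mul_index,
      AddSubgroup.index_ker]
  have hS := card_orbSpace (N := N) Nat.prime_two smul_sq_S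
  have hU := card_orbSpace (N := N) Nat.prime_three smul_cube_elU
  rw [card_fixedBy_S, card_cosetSpace] at hS
  rw [show elU = ModularGroup.S * ModularGroup.T from rfl, card_fixedBy_ST, card_cosetSpace] at hU
  have hT : oT = ModularCurve.cuspCount N := card_cuspSpace N
  have hμ : μ = ModularCurve.dedekindPsi N := card_cosetSpace N
  have hexp : μ + oT + oS + oU + r = 2 * μ + 2 := by
    have : ((μ + oT + oS + oU + r : ℕ) : ℚ) = ((2 * μ + 2 : ℕ) : ℚ) := by
      push_cast
      rw [hr, ModularCurve.genusFormula, hT, hμ]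
      have hS' : (2 : ℚ) * oS = (ModularCurve.dedekindPsi N : ℚ) + ModularCurve.nuTwo N := by
        exact_mod_cast (by omega : 2 * oS = ModularCurve.dedekindPsi N + ModularCurve.nuTwo N)
      have hU' : (3 : ℚ) * oU = (ModularCurve.dedekindPsi N : ℚ) + 2 * ModularCurve.nuThree N := by
        exact_mod_cast (by simp only [oU, elU]; omega :
          3 * oU = ModularCurve.dedekindPsi N + 2 * ModularCurve.nuThree N)
      linarith
    exact_mod_cast this
  refine Nat.le_of_mul_le_mul_right (c := k ^ (μ + oT + oS + oU)) ?_ (Nat.pow_pos hk)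
  rw [← pow_add, add_comm r, hexp]
  calc Nat.card (goodHoms N A) * k ^ (μ + oT + oS + oU)
      = Nat.card (goodHoms N A) * (Nat.card ev.ker * k) * k ^ oT * k ^ oS * k ^ oU := by
        rw [hev, pow_add, pow_add, pow_add]; ring
    _ ≤ Nat.card (goodHoms N A) * (Nat.card ev.ker * k) * (Nat.card Ψ.range * k)
          * k ^ oS * k ^ oU := by gcongr
    _ = (Nat.card (goodHoms N A) * Nat.card ev.ker) * Nat.card Ψ.range * k ^ 2
          * k ^ oS * k ^ oU := by ring
    _ ≤ Nat.card Ψ.ker * Nat.card Ψ.range * k ^ 2 * k ^ oS * k ^ oU := by gcongr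
    _ = (Nat.card (orbSum N ModularGroup.S A).ker * k ^ oS)
          * (Nat.card (orbSum N elU A).ker * k ^ oU) * k ^ 2 := by rw [hΨk]; ring
    _ = k ^ (2 * μ + 2) := by rw [hker, hker]; ring

end Fermat.Agent.J0Torsion
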