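import Mathlib.Analysis.Complex.HasPrimitives
import Mathlib.Analysis.Complex.CauchyIntegral
import Mathlib.Analysis.Analytic.IsolatedZeros
import Mathlib.Analysis.Analytic.Uniqueness
import Mathlib.Analysis.Analytic.Order
import Mathlib.Analysis.Complex.UpperHalfPlane.Basic
import Mathlib.Analysis.Complex.Polynomial.Basic
import Mathlib.Analysis.Complex.Convex

/-!
# Holomorphic roots

Holomorphic `n`-th roots on the upper half plane of holomorphic functions all of whose
vanishing orders are divisible by `n`.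
-/

set_option autoImplicit false

noncomputable section

open Metric Set Filter
open scoped Topology

namespace Fermat.Agent.J0Torsion

local notation "ℍo" => UpperHalfPlane.upperHalfPlaneSet

/-- A zero-free holomorphic function on a disc has a holomorphic `n`-th root. -/
lemma exists_pow_eq_ball_of_ne_zero {c : ℂ} {r : ℝ} {u : ℂ → ℂ} {n : ℕ} (hn : n ≠ 0)
    (hu : DifferentiableOn ℂ u (ball c r)) (hne : ∀ z ∈ ball c r, u z ≠ 0) :
    ∃ g : ℂ → ℂ, DifferentiableOn ℂ g (ball c r) ∧ ∀ z ∈ ball c r, g z ^ n = u z := by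
  by_cases hr : r ≤ 0
  · exact ⟨fun _ => 0, differentiableOn_const 0, by simp [ball_eq_empty.mpr hr]⟩
  have hc : c ∈ ball c r := mem_ball_self (lt_of_not_ge hr)
  have hd : DifferentiableOn ℂ (fun z => deriv u z / u z) (ball c r) :=
    (hu.deriv isOpen_ball).div hu hne
  obtain ⟨L, hL⟩ := hd.isExactOn_ball
  set E : ℂ → ℂ := fun z => u z * Complex.exp (-L z)
  have hEd : ∀ z ∈ ball c r, HasDerivAt E 0 z := by
    intro z hz
    have h1 : HasDerivAt u (deriv u z) z :=
      ((hu z hz).differentiableAt (isOpen_ball.mem_nhds hz)).hasDerivAt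
    have h2 : HasDerivAt (fun z => Complex.exp (-L z))
        (Complex.exp (-L z) * -(deriv u z / u z)) z := (hL z hz).neg.cexp
    refine (h1.mul h2).congr_deriv ?_
    field_simp [hne z hz]
    ring
  have hconst : ∀ z ∈ ball c r, E z = E c := fun z hz =>
    IsOpen.is_const_of_deriv_eq_zero isOpen_ball (convex_ball c r).isPreconnected
      (fun w hw => (hEd w hw).differentiableAt.differentiableWithinAt)
      (fun w hw => (hEd w hw).deriv) hz hc
  obtain ⟨a, ha⟩ := IsAlgClosed.exists_pow_nat_eq (E c) (Nat.pos_of_ne_zero hn)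
  refine ⟨fun z => a * Complex.exp (L z / n), ?_, fun z hz => ?_⟩
  · exact ((differentiableOn_const a).mul (fun z hz =>
      ((hL z hz).differentiableAt.div_const _).cexp.differentiableWithinAt))
  · have hL' : Complex.exp (L z / n) ^ n = Complex.exp (L z) := by
      rw [← Complex.exp_nat_mul, mul_div_cancel₀ _ (Nat.cast_ne_zero.mpr hn)]
    rw [mul_pow, hL', ha, ← hconst z hz]
    simp only [E]
    rw [mul_assoc, ← Complex.exp_add, neg_add_cancel, Complex.exp_zero, mul_one]

/-- Splitting off a zero. -/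
lemma exists_eq_sub_pow_mul {U : Set ℂ} (hU : IsOpen U) {f : ℂ → ℂ}
    (hf : DifferentiableOn ℂ f U) {a : ℂ} (ha : a ∈ U) (hfin : analyticOrderAt f a ≠ ⊤) :
    ∃ u : ℂ → ℂ, DifferentiableOn ℂ u U ∧ u a ≠ 0 ∧
      ∀ z, f z = (z - a) ^ analyticOrderNatAt f a * u z := by
  have han : AnalyticAt ℂ f a := hf.analyticAt (hU.mem_nhds ha)
  obtain ⟨g, hg, hga, hfg⟩ := han.analyticOrderAt_ne_top.mp hfin
  set m := analyticOrderNatAt f a
  set u : ℂ → ℂ := Function.update (fun z => f z / (z - a) ^ m) a (g a) with hu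
  have hua : u a = g a := Function.update_self ..
  have hev : u =ᶠ[𝓝 a] g := by
    filter_upwards [hfg] with z hz
    rcases eq_or_ne z a with rfl | hne
    · exact hua
    · rw [hu, Function.update_of_ne hne, hz, smul_eq_mul,
        mul_div_cancel_left₀ _ (pow_ne_zero _ (sub_ne_zero.mpr hne))]
  refine ⟨u, fun z hz => ?_, hua ▸ hga, fun z => ?_⟩
  · rcases eq_or_ne z a with rfl | hne
    · exact (hev.differentiableAt_iff.mpr hg.differentiableAt).differentiableWithinAt
    · have hev' : u =ᶠ[𝓝 z] fun w => f w / (w - a) ^ m := by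
        filter_upwards [isOpen_ne.mem_nhds hne] with w hw
        exact Function.update_of_ne hw ..
      have hd : DifferentiableAt ℂ (fun w => f w / (w - a) ^ m) z :=
        ((hf z hz).differentiableAt (hU.mem_nhds hz)).div
          (by fun_prop) (pow_ne_zero _ (sub_ne_zero.mpr hne))
      exact (hev'.differentiableAt_iff.mpr hd).differentiableWithinAt
  · rcases eq_or_ne z a with rfl | hne
    · rw [hua]
      have := hfg.self_of_nhds
      simpa using this
    · rw [hu, Function.update_of_ne hne, mul_div_cancel₀]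
      exact pow_ne_zero _ (sub_ne_zero.mpr hne)

/-- `n`-th roots on a disc whose closure lies in the domain. -/
lemma exists_pow_eq_ball_of_finite {U : Set ℂ} (hU : IsOpen U) {c : ℂ} {r : ℝ}
    (hBU : ball c r ⊆ U) {n : ℕ} (hn : n ≠ 0) (s : Finset ℂ) :
    ∀ f : ℂ → ℂ, DifferentiableOn ℂ f U → (∀ z ∈ ball c r, f z = 0 → z ∈ s) →
      (∀ z ∈ ball c r, analyticOrderAt f z ≠ ⊤) →
      (∀ z ∈ ball c r, n ∣ analyticOrderNatAt f z) →
      ∃ g : ℂ → ℂ, DifferentiableOn ℂ g (ball c r) ∧ ∀ z ∈ ball c r, g z ^ n = f z := by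
  induction s using Finset.induction with
  | empty =>
    intro f hf hz _ _
    exact exists_pow_eq_ball_of_ne_zero hn (hf.mono hBU)
      (fun z hz' h0 => absurd (hz z hz' h0) (Finset.notMem_empty z))
  | insert a s has ih =>
    intro f hf hz hfin hdvd
    by_cases ha : a ∈ ball c r
    · obtain ⟨u, hu, hua, hfu⟩ := exists_eq_sub_pow_mul hU hf (hBU ha) (hfin a ha)
      set m := analyticOrderNatAt f a
      have hord : ∀ z ∈ ball c r, analyticOrderAt f z
          = m • analyticOrderAt (fun w : ℂ => w - a) z + analyticOrderAt u z := by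
        intro z hz'
        have h1 : AnalyticAt ℂ (fun w : ℂ => w - a) z := analyticAt_id.sub analyticAt_const
        have h2 : AnalyticAt ℂ u z := hu.analyticAt (hU.mem_nhds (hBU hz'))
        have : f = (fun w : ℂ => w - a) ^ m * u := funext fun w => by simpa using hfu w
        conv_lhs => rw [this]
        rw [analyticOrderAt_mul (h1.pow m) h2, analyticOrderAt_pow h1]
      obtain ⟨g, hg, hgu⟩ := ih u hu (fun z hz' h0 => by
        have hf0 : f z = 0 := by rw [hfu, h0, mul_zero]
        rcases Finset.mem_insert.mp (hz z hz' hf0) with rfl | h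
        · exact absurd h0 hua
        · exact h)
        (fun z hz' htop => hfin z hz' (by rw [hord z hz', htop, add_top]))
        (fun z hz' => by
          have h2 : AnalyticAt ℂ u z := hu.analyticAt (hU.mem_nhds (hBU hz'))
          rcases eq_or_ne z a with rfl | hne
          · have : analyticOrderNatAt u z = 0 := by
              simp [analyticOrderNatAt, h2.analyticOrderAt_eq_zero.mpr hua]
            simp [this]
          · have h := hdvd z hz'
            rw [analyticOrderNatAt, hord z hz',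
              analyticOrderAt_id_sub_const_of_ne (c := a) hne] at h
            simpa [analyticOrderNatAt] using h)
      obtain ⟨k, hk⟩ := hdvd a ha
      refine ⟨fun z => (z - a) ^ k * g z, ?_, fun z hz' => ?_⟩
      · exact (by fun_prop : Differentiable ℂ fun z : ℂ => (z - a) ^ k).differentiableOn.mul hg
      · rw [mul_pow, hgu z hz', hfu z, ← pow_mul, mul_comm k n, ← hk]
    · refine ih f hf (fun z hz' h0 => ?_) hfin hdvd
      rcases Finset.mem_insert.mp (hz z hz' h0) with rfl | h
      · exact absurd hz' ha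
      · exact h

lemma finite_zeros_of_isCompact {U K : Set ℂ} (hU : IsOpen U) {f : ℂ → ℂ}
    (hf : DifferentiableOn ℂ f U) (hKU : K ⊆ U) (hK : IsCompact K)
    (hfin : ∀ z ∈ U, analyticOrderAt f z ≠ ⊤) : {z ∈ K | f z = 0}.Finite := by
  have hclosed : IsClosed {z ∈ K | f z = 0} :=
    (hf.continuousOn.mono hKU).preimage_isClosed_of_isClosed hK.isClosed isClosed_singleton
  refine (hK.of_isClosed_subset hclosed fun z hz => hz.1).finite
    (isDiscrete_iff_forall_mem_exists_isOpen.mpr fun z hz => ?_)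
  have han : AnalyticAt ℂ f z := hf.analyticAt (hU.mem_nhds (hKU hz.1))
  rcases han.eventually_eq_zero_or_eventually_ne_zero with h | h
  · exact absurd (analyticOrderAt_eq_top.mpr h) (hfin z (hKU hz.1))
  · rw [eventually_nhdsWithin_iff] at h
    obtain ⟨V, hV, hVo, hzV⟩ := _root_.eventually_nhds_iff.mp h
    refine ⟨V, hVo, ?_⟩
    ext w
    simp only [mem_inter_iff, Set.mem_ofPred_eq, mem_singleton_iff]
    constructor
    · rintro ⟨hwV, -, hw0⟩
      by_contra hne
      exact hV w hwV hne hw0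
    · rintro rfl
      exact ⟨hzV, hz⟩

/-- Two holomorphic `n`-th roots agreeing and nonzero at one point of a preconnected set agree. -/
lemma eqOn_of_pow_eq {U : Set ℂ} (hU : IsOpen U) (hUc : IsPreconnected U) {g h : ℂ → ℂ}
    (hg : DifferentiableOn ℂ g U) (hh : DifferentiableOn ℂ h U) {n : ℕ} (hn : n ≠ 0)
    (hpow : ∀ z ∈ U, g z ^ n = h z ^ n) {z₀ : ℂ} (hz₀ : z₀ ∈ U) (h0 : g z₀ = h z₀)
    (hne : g z₀ ≠ 0) : EqOn g h U := by
  have hga := hg.analyticOnNhd hU
  have hha := hh.analyticOnNhd hU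
  refine hga.eqOn_of_preconnected_of_eventuallyEq hha hUc hz₀ ?_
  have hcont : ContinuousAt (fun z => ∑ i ∈ Finset.range n, g z ^ i * h z ^ (n - 1 - i)) z₀ := by
    have h1 := (hga z₀ hz₀).continuousAt
    have h2 := (hha z₀ hz₀).continuousAt
    fun_prop
  have hval : ∑ i ∈ Finset.range n, g z₀ ^ i * h z₀ ^ (n - 1 - i) ≠ 0 := by
    rw [← h0, geom_sum₂_self]
    exact mul_ne_zero (Nat.cast_ne_zero.mpr hn) (pow_ne_zero _ hne)
  filter_upwards [hcont.eventually_ne hval, hU.mem_nhds hz₀] with z hz hzU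
  have := geom_sum₂_mul (g z) (h z) n
  rw [hpow z hzU, sub_self] at this
  exact sub_eq_zero.mp ((mul_eq_zero.mp this).resolve_left hz)

/-- The exhausting discs. -/
def disc (k : ℕ) : Set ℂ := ball (((k : ℝ) + 1 : ℝ) * Complex.I) ((k : ℝ) + 1 - 1 / ((k : ℝ) + 2))

lemma disc_mono {j k : ℕ} (h : j ≤ k) : disc j ⊆ disc k := by
  refine monotone_nat_of_le_succ (f := disc) (fun m => ?_) h
  refine ball_subset_ball' ?_
  rw [Complex.dist_eq, ← sub_mul, norm_mul, Complex.norm_I, mul_one, ← Complex.ofReal_sub,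
    Complex.norm_real, Real.norm_eq_abs]
  push_cast
  rw [show (m : ℝ) + 1 - ((m : ℝ) + 1 + 1) = -1 by ring, abs_neg, abs_one]
  have : 1 / ((m : ℝ) + 1 + 2) ≤ 1 / ((m : ℝ) + 2) :=
    one_div_le_one_div_of_le (by positivity) (by linarith)
  linarith

lemma closedBall_disc_subset (k : ℕ) :
    closedBall (((k : ℝ) + 1 : ℝ) * Complex.I) ((k : ℝ) + 1 - 1 / ((k : ℝ) + 2)) ⊆ ℍo := by
  intro z hz
  rw [mem_closedBall, Complex.dist_eq] at hz
  have h1 := (Complex.abs_im_le_norm (z - (((k : ℝ) + 1 : ℝ) * Complex.I))).trans hz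
  have h2 : (0 : ℝ) < 1 / ((k : ℝ) + 2) := by positivity
  simp only [Complex.sub_im, Complex.mul_im, Complex.ofReal_re, Complex.I_im, mul_one,
    Complex.ofReal_im, Complex.I_re, mul_zero, add_zero] at h1
  have := (abs_le.mp h1).1
  show 0 < z.im
  linarith

lemma disc_subset (k : ℕ) : disc k ⊆ ℍo :=
  ball_subset_closedBall.trans (closedBall_disc_subset k)

lemma exists_mem_disc {z : ℂ} (hz : z ∈ ℍo) : ∃ k, z ∈ disc k := by
  have hy : 0 < z.im := hz
  obtain ⟨k, hk⟩ := exists_nat_ge ((z.re ^ 2 + z.im ^ 2 + 2) / z.im)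
  refine ⟨k, ?_⟩
  rw [div_le_iff₀ hy] at hk
  set K : ℝ := (k : ℝ) + 1 with hK
  have hk0 : (0 : ℝ) ≤ k := Nat.cast_nonneg k
  have hr : 0 < K - 1 / (K + 1) := by
    have : 1 / (K + 1) ≤ 1 / 2 := one_div_le_one_div_of_le two_pos (by linarith)
    linarith
  rw [disc, mem_ball, Complex.dist_eq, show (k : ℝ) + 2 = K + 1 by ring, ← hK,
    Complex.norm_eq_sqrt_sq_add_sq, Real.sqrt_lt' hr]
  simp only [Complex.sub_re, Complex.mul_re, Complex.ofReal_re, Complex.I_re, mul_zero,
    Complex.ofReal_im, Complex.I_im, mul_one, sub_zero, Complex.sub_im, Complex.mul_im, add_zero]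
  have h1 : K * (1 / (K + 1)) ≤ 1 := by
    rw [mul_one_div, div_le_one (by linarith)]; linarith
  nlinarith [sq_nonneg (1 / (K + 1))]

/-- **Holomorphic `n`-th roots on the upper half plane.** -/
theorem exists_holomorphic_pow_eq {f : ℂ → ℂ} (hf : DifferentiableOn ℂ f ℍo)
    {z₁ : ℂ} (hz₁ : z₁ ∈ ℍo) (hne : f z₁ ≠ 0) {n : ℕ} (hn : n ≠ 0)
    (hdvd : ∀ z ∈ ℍo, n ∣ analyticOrderNatAt f z) :
    ∃ g : ℂ → ℂ, DifferentiableOn ℂ g ℍo ∧ ∀ z ∈ ℍo, g z ^ n = f z := by
  classical
  have hU : IsOpen (ℍo) := UpperHalfPlane.isOpen_upperHalfPlaneSet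
  have hfin : ∀ z ∈ ℍo, analyticOrderAt f z ≠ ⊤ := fun z hz =>
    AnalyticOnNhd.analyticOrderAt_ne_top_of_isPreconnected (hf.analyticOnNhd hU)
      ((convex_halfSpace_im_gt 0).isPreconnected) hz₁ hz
      (by rw [((hf.analyticOnNhd hU) z₁ hz₁).analyticOrderAt_eq_zero.mpr hne]; simp)
  obtain ⟨k₀, hk₀⟩ := exists_mem_disc hz₁
  obtain ⟨a, ha⟩ := IsAlgClosed.exists_pow_nat_eq (f z₁) (Nat.pos_of_ne_zero hn)
  have ha0 : a ≠ 0 := fun h => hne (by rw [← ha, h, zero_pow hn])
  have hex : ∀ k, k₀ ≤ k → ∃ g : ℂ → ℂ, DifferentiableOn ℂ g (disc k) ∧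
      (∀ z ∈ disc k, g z ^ n = f z) ∧ g z₁ = a := by
    intro k hk
    have hfs := finite_zeros_of_isCompact hU hf (closedBall_disc_subset k)
      (isCompact_closedBall _ _) hfin
    obtain ⟨g, hg, hgf⟩ := exists_pow_eq_ball_of_finite hU (disc_subset k) hn hfs.toFinset f hf
      (fun z hz h0 => hfs.mem_toFinset.mpr ⟨ball_subset_closedBall hz, h0⟩)
      (fun z hz => hfin z (disc_subset k hz)) (fun z hz => hdvd z (disc_subset k hz))
    have hz1 : z₁ ∈ disc k := disc_mono hk hk₀
    have hg1 : g z₁ ≠ 0 := fun h => hne (by rw [← hgf z₁ hz1, h, zero_pow hn])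
    refine ⟨fun z => (a / g z₁) * g z, (differentiableOn_const _).mul hg, fun z hz => ?_, ?_⟩
    · rw [mul_pow, div_pow, ha, hgf z₁ hz1, div_self hne, one_mul]
      exact hgf z hz
    · field_simp
  choose G hGd hGp hG1 using hex
  let idx : ℂ → ℕ := fun z => if h : z ∈ ℍo then max k₀ (Nat.find (exists_mem_disc h)) else k₀
  have hidx : ∀ z, k₀ ≤ idx z := fun z => by
    simp only [idx]; split <;> simp
  have hmem : ∀ z ∈ ℍo, z ∈ disc (idx z) := fun z hz => by
    simp only [idx, dif_pos hz]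
    exact disc_mono (le_max_right _ _) (Nat.find_spec (exists_mem_disc hz))
  have hcompat : ∀ j k (hj : k₀ ≤ j) (hjk : j ≤ k),
      EqOn (G j hj) (G k (hj.trans hjk)) (disc j) := fun j k hj hjk =>
    eqOn_of_pow_eq isOpen_ball (convex_ball _ _).isPreconnected (hGd j hj)
      ((hGd k _).mono (disc_mono hjk)) hn
      (fun z hz => by rw [hGp j hj z hz, hGp k _ z (disc_mono hjk hz)])
      (disc_mono hj hk₀) (by rw [hG1, hG1]) (by rw [hG1]; exact ha0)
  refine ⟨fun z => G (idx z) (hidx z) z, fun z hz => ?_, fun z hz => hGp _ _ z (hmem z hz)⟩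
  have hopen : disc (idx z) ∈ 𝓝 z := isOpen_ball.mem_nhds (hmem z hz)
  have hev : (fun w => G (idx w) (hidx w) w) =ᶠ[𝓝 z] G (idx z) (hidx z) := by
    filter_upwards [hopen] with w hw
    rcases le_total (idx w) (idx z) with h | h
    · exact hcompat _ _ (hidx w) h (hmem w (disc_subset _ hw))
    · exact (hcompat _ _ (hidx z) h hw).symm
  exact ((hGd _ _).differentiableAt hopen |> hev.differentiableAt_iff.mpr).differentiableWithinAt

end Fermat.Agent.J0Torsion
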