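import Fermat.Agent.X0Analytic.Embedding
import Fermat.Agent.J0Torsion.HolRoot
import Fermat.Agent.J0Torsion.GoodBound
import Fermat.Agent.EichlerShimura.Core

/-!
# Twisted modular functions

Holomorphic functions on `ℍ` transforming under `Γ₀(N)` by a character and meromorphic at the
cusps, and the character of an `n`-th root of a modular function.
-/

set_option autoImplicit false

noncomputable section

open UpperHalfPlane Filter Topology CongruenceSubgroup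
open scoped Manifold MatrixGroups

namespace Fermat.Agent.J0Torsion

open X0Analytic (modFun perMero qp IsPer ser ser_injective ser_algebraMap)

variable {N : ℕ} [NeZero N]

/-- Functions with multiplier `χ`, holomorphic on `ℍ`, meromorphic at every cusp. -/
def twFun (χ : Gamma0 N →* ℂ) : Submodule ℂ (ℍ → ℂ) where
  carrier := {G | MDiff G ∧ (∀ (γ : Gamma0 N) (τ : ℍ), G ((γ : SL(2, ℤ)) • τ) = χ γ * G τ) ∧
    ∀ g : SL(2, ℤ), ∃ m : ℕ, IsBoundedAtImInfty ((fun τ : ℍ => G (g • τ)) * qp N ^ m)}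
  zero_mem' := ⟨mdifferentiable_const, fun γ τ => by simp, fun g => ⟨0, by
    rw [pow_zero, mul_one]; exact Filter.const_boundedAtFilter _ 0⟩⟩
  add_mem' := fun {F G} hF hG => by
    refine ⟨hF.1.add hG.1, fun γ τ => ?_, fun g => ?_⟩
    · simp only [Pi.add_apply, hF.2.1, hG.2.1, mul_add]
    · obtain ⟨m, hm⟩ := hF.2.2 g
      obtain ⟨k, hk⟩ := hG.2.2 g
      refine ⟨m + k, ?_⟩
      rw [show (fun τ : ℍ => (F + G) (g • τ)) * qp N ^ (m + k)
          = (fun τ : ℍ => F (g • τ)) * qp N ^ (m + k) + (fun τ : ℍ => G (g • τ)) * qp N ^ (m + k)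
        from by rw [← add_mul]; rfl]
      exact Filter.BoundedAtFilter.add (X0Analytic.isBounded_mul_qp_of_le hm (Nat.le_add_right _ _))
        (X0Analytic.isBounded_mul_qp_of_le hk (Nat.le_add_left _ _))
  smul_mem' := fun c G hG => by
    refine ⟨mdifferentiable_const.mul hG.1, fun γ τ => ?_, fun g => ?_⟩
    · simp only [Pi.smul_apply, smul_eq_mul, hG.2.1]; ring
    · obtain ⟨m, hm⟩ := hG.2.2 g
      refine ⟨m, ?_⟩
      rw [show (fun τ : ℍ => (c • G) (g • τ)) * qp N ^ m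
          = c • ((fun τ : ℍ => G (g • τ)) * qp N ^ m) from by
        funext τ; simp [mul_assoc]]
      exact Filter.BoundedAtFilter.smul c hm

variable {χ χ' : Gamma0 N →* ℂ} {G G' : ℍ → ℂ}

lemma twFun_mdiff (hG : G ∈ twFun χ) : MDiff G := hG.1

lemma twFun_smul (hG : G ∈ twFun χ) (γ : Gamma0 N) (τ : ℍ) :
    G ((γ : SL(2, ℤ)) • τ) = χ γ * G τ := hG.2.1 γ τ

lemma mul_mem_twFun (hG : G ∈ twFun χ) (hG' : G' ∈ twFun χ') : G * G' ∈ twFun (χ * χ') := by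
  refine ⟨hG.1.mul hG'.1, fun γ τ => ?_, fun g => ?_⟩
  · simp only [Pi.mul_apply, hG.2.1, hG'.2.1, MonoidHom.mul_apply]; ring
  · obtain ⟨m, hm⟩ := hG.2.2 g
    obtain ⟨k, hk⟩ := hG'.2.2 g
    refine ⟨m + k, ?_⟩
    rw [show (fun τ : ℍ => (G * G') (g • τ)) * qp N ^ (m + k)
        = ((fun τ : ℍ => G (g • τ)) * qp N ^ m) * ((fun τ : ℍ => G' (g • τ)) * qp N ^ k) from by
      funext τ; simp only [Pi.mul_apply, Pi.pow_apply, pow_add]; ring]
    exact Filter.BoundedAtFilter.mul hm hk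

lemma const_mem_twFun (c : ℂ) : (fun _ => c) ∈ twFun (1 : Gamma0 N →* ℂ) :=
  ⟨mdifferentiable_const, fun γ τ => by simp, fun g => ⟨0, by
    rw [pow_zero, mul_one]; exact Filter.const_boundedAtFilter _ c⟩⟩

lemma pow_mem_twFun (hG : G ∈ twFun χ) : ∀ k : ℕ, G ^ k ∈ twFun (χ ^ k)
  | 0 => by rw [pow_zero, pow_zero]; exact const_mem_twFun 1
  | k + 1 => by rw [pow_succ, pow_succ]; exact mul_mem_twFun (pow_mem_twFun hG k) hG

lemma modFun_mem_twFun (b : ↥(modFun N)) : (b : ℍ → ℂ) ∈ twFun (1 : Gamma0 N →* ℂ) :=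
  ⟨b.2.1, fun γ τ => by rw [MonoidHom.one_apply, one_mul]; exact b.2.2.1 γ γ.2 τ,
    fun g => (b.2.2.2 g).2.2⟩

omit [NeZero N] in
lemma isPer_comp_of_invariant {f : ℍ → ℂ} (hf : ∀ γ ∈ Gamma0 N, ∀ τ : ℍ, f (γ • τ) = f τ)
    (g : SL(2, ℤ)) : IsPer N (fun τ : ℍ => f (g • τ)) := by
  intro τ
  have hmem := EichlerShimura.T_pow_conj_mem (N := N) g
  have := hf _ hmem (g • τ)
  rw [mul_smul, mul_smul, inv_smul_smul, UpperHalfPlane.modular_T_zpow_smul] at this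
  simpa using this

lemma mem_modFun_of_twFun_one (hG : G ∈ twFun (1 : Gamma0 N →* ℂ)) : G ∈ modFun N := by
  have hinv : ∀ γ ∈ Gamma0 N, ∀ τ : ℍ, G (γ • τ) = G τ := fun γ hγ τ => by
    have := hG.2.1 ⟨γ, hγ⟩ τ
    simpa using this
  exact ⟨hG.1, hinv, fun g =>
    ⟨hG.1.comp (mdifferentiable_smul (X0Analytic.det_pos_SL g)),
      isPer_comp_of_invariant hinv g, hG.2.2 g⟩⟩

/-- `G ^ n` as a modular function. -/
def powMod {n : ℕ} (hG : G ∈ twFun χ) (hn : χ ^ n = 1) : ↥(modFun N) :=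
  ⟨G ^ n, mem_modFun_of_twFun_one (hn ▸ pow_mem_twFun hG n)⟩

@[simp] lemma coe_powMod {n : ℕ} (hG : G ∈ twFun χ) (hn : χ ^ n = 1) :
    (powMod hG hn : ℍ → ℂ) = G ^ n := rfl

lemma hol_mul_ne_zero {F F' : ℍ → ℂ} (hF : MDiff F) (hF' : MDiff F') (h : F ≠ 0) (h' : F' ≠ 0) :
    F * F' ≠ 0 := fun h0 =>
  ((UpperHalfPlane.mul_eq_zero_iff hF hF').mp h0).elim h h'

/-- Equal powers of nonzero holomorphic functions differ by a constant. -/
lemma exists_const_of_pow_eq {F F' : ℍ → ℂ} (hF : MDiff F) (hF' : MDiff F') {n : ℕ} (hn : n ≠ 0)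
    (hne : F' ≠ 0) (h : ∀ τ, F τ ^ n = F' τ ^ n) : ∃ c : ℂ, c ^ n = 1 ∧ F = c • F' := by
  obtain ⟨τ₀, hτ₀⟩ := Function.ne_iff.mp hne
  rw [Pi.zero_apply] at hτ₀
  have hFτ₀ : F τ₀ ≠ 0 := fun h0 => by
    have := h τ₀
    rw [h0, zero_pow hn] at this
    exact hτ₀ (pow_eq_zero_iff hn |>.mp this.symm)
  set c := F τ₀ / F' τ₀ with hc
  have hcn : c ^ n = 1 := by rw [hc, div_pow, h τ₀, div_self (pow_ne_zero _ hτ₀)]
  refine ⟨c, hcn, ?_⟩
  have heq := eqOn_of_pow_eq (g := ↑ₕF) (h := fun z => c * (↑ₕF') z)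
    isOpen_upperHalfPlaneSet (convex_halfSpace_im_gt 0).isPreconnected
    (UpperHalfPlane.mdifferentiable_iff.mp hF)
    ((UpperHalfPlane.mdifferentiable_iff.mp hF').const_mul c) hn
    (fun z _ => by
      show F (ofComplex z) ^ n = (c * F' (ofComplex z)) ^ n
      rw [mul_pow, hcn, one_mul, h])
    τ₀.im_pos (by
      show F (ofComplex (τ₀ : ℂ)) = c * F' (ofComplex (τ₀ : ℂ))
      rw [ofComplex_apply, hc, div_mul_cancel₀ _ hτ₀])
    (by
      show F (ofComplex (τ₀ : ℂ)) ≠ 0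
      rw [ofComplex_apply]; exact hFτ₀)
  funext τ
  have := heq τ.im_pos
  simpa [ofComplex_apply] using this

/-- The series `f` has an `n`-th root on `ℍ` with multiplier `χ`. -/
def HasChar (N n : ℕ) [NeZero N] (f : LaurentSeries ℂ) (χ : Gamma0 N →* ℂ) : Prop :=
  ∃ (G : ℍ → ℂ) (b a : ↥(modFun N)),
    G ∈ twFun χ ∧ G ≠ 0 ∧ b ≠ 0 ∧ (a : ℍ → ℂ) = G ^ n ∧ f * ser N (b ^ n) = ser N a

variable {n : ℕ} {f f' : LaurentSeries ℂ}

namespace HasChar

theorem pow_eq_one (h : HasChar N n f χ) : χ ^ n = 1 := by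
  obtain ⟨G, b, a, hG, hG0, -, ha, -⟩ := h
  obtain ⟨τ₀, hτ₀⟩ := Function.ne_iff.mp hG0
  refine MonoidHom.ext fun γ => ?_
  have h1 := a.2.2.1 γ γ.2 τ₀
  simp only [ha, Pi.pow_apply, twFun_smul hG, mul_pow] at h1
  rw [MonoidHom.pow_apply, MonoidHom.one_apply]
  exact mul_right_cancel₀ (pow_ne_zero n hτ₀) (h1.trans (one_mul _).symm)

theorem ne_zero (h : HasChar N n f χ) : f ≠ 0 := by
  obtain ⟨G, b, a, hG, hG0, -, ha, hf⟩ := h
  intro h0
  rw [h0, zero_mul] at hf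
  have : a = 0 := ser_injective (by rw [← hf, map_zero])
  obtain ⟨τ₀, hτ₀⟩ := Function.ne_iff.mp hG0
  rw [this] at ha
  exact pow_ne_zero n hτ₀ (congrFun ha τ₀).symm

theorem unique (hn : n ≠ 0) (h : HasChar N n f χ) (h' : HasChar N n f χ') : χ = χ' := by
  obtain ⟨G, b, a, hG, hG0, hb, ha, hf⟩ := h
  obtain ⟨G', b', a', hG', hG'0, hb', ha', hf'⟩ := h'
  have hab : a * b' ^ n = a' * b ^ n := ser_injective (by
    rw [map_mul, map_mul, ← hf, ← hf']; ring)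
  have hpow : ∀ τ, (G * (b' : ℍ → ℂ)) τ ^ n = (G' * (b : ℍ → ℂ)) τ ^ n := fun τ => by
    have := congrFun (congrArg Subtype.val hab) τ
    simp only [MulMemClass.coe_mul, SubmonoidClass.coe_pow, Pi.mul_apply, Pi.pow_apply, ha, ha']
      at this
    simpa only [Pi.mul_apply, mul_pow] using this
  have hb0 : (b : ℍ → ℂ) ≠ 0 := fun h => hb (Subtype.ext h)
  have hb'0 : (b' : ℍ → ℂ) ≠ 0 := fun h => hb' (Subtype.ext h)
  have hne := hol_mul_ne_zero hG'.1 b.2.1 hG'0 hb0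
  obtain ⟨c, -, hc⟩ := exists_const_of_pow_eq (hG.1.mul b'.2.1) (hG'.1.mul b.2.1) hn hne hpow
  obtain ⟨τ₀, hτ₀⟩ := Function.ne_iff.mp (hol_mul_ne_zero hG.1 b'.2.1 hG0 hb'0)
  refine MonoidHom.ext fun γ => ?_
  have h1 := congrFun hc ((γ : SL(2, ℤ)) • τ₀)
  have h0 := congrFun hc τ₀
  simp only [Pi.mul_apply, Pi.smul_apply, smul_eq_mul, twFun_smul hG, twFun_smul hG',
    b.2.2.1 γ γ.2, b'.2.2.1 γ γ.2] at h1 h0
  refine mul_right_cancel₀ hτ₀ ?_
  rw [Pi.mul_apply]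
  linear_combination h1 - χ' γ * h0

theorem mul (h : HasChar N n f χ) (h' : HasChar N n f' χ') :
    HasChar N n (f * f') (χ * χ') := by
  obtain ⟨G, b, a, hG, hG0, hb, ha, hf⟩ := h
  obtain ⟨G', b', a', hG', hG'0, hb', ha', hf'⟩ := h'
  refine ⟨G * G', b * b', a * a', mul_mem_twFun hG hG', hol_mul_ne_zero hG.1 hG'.1 hG0 hG'0,
    fun h0 => ?_, ?_, ?_⟩
  · have := congrArg Subtype.val h0
    exact hol_mul_ne_zero b.2.1 b'.2.1 (fun h => hb (Subtype.ext h))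
      (fun h => hb' (Subtype.ext h)) this
  · rw [MulMemClass.coe_mul, ha, ha', mul_pow]
  · rw [mul_pow, map_mul, map_mul, ← hf, ← hf']; ring

/-- An `n`-th power of a quotient of modular functions has trivial character. -/
theorem of_pow {g : LaurentSeries ℂ} (a b : ↥(modFun N)) (ha : a ≠ 0) (hb : b ≠ 0)
    (hg : g * ser N b = ser N a) : HasChar N n (g ^ n) 1 :=
  ⟨a, b, a ^ n, modFun_mem_twFun a, fun h => ha (Subtype.ext h), hb, rfl, by
    rw [map_pow, map_pow, ← mul_pow, hg]⟩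

theorem inv (hn : n ≠ 0) (h : HasChar N n f χ) : HasChar N n f⁻¹ (χ ^ (n - 1)) := by
  have hf0 := h.ne_zero
  obtain ⟨G, b, a, hG, hG0, hb, ha, hf⟩ := h
  have ha0 : a ≠ 0 := fun h0 => by
    obtain ⟨τ₀, hτ₀⟩ := Function.ne_iff.mp hG0
    rw [h0] at ha
    exact pow_ne_zero n hτ₀ (congrFun ha τ₀).symm
  have hb0 : (b : ℍ → ℂ) ≠ 0 := fun h => hb (Subtype.ext h)
  have hGk : ∀ k : ℕ, G ^ k ≠ 0 := fun k h0 => by
    obtain ⟨τ₀, hτ₀⟩ := Function.ne_iff.mp hG0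
    exact pow_ne_zero k hτ₀ (congrFun h0 τ₀)
  refine ⟨G ^ (n - 1) * (b : ℍ → ℂ), a, a ^ (n - 1) * b ^ n, ?_,
    hol_mul_ne_zero (pow_mem_twFun hG _).1 b.2.1 (hGk _) hb0, ha0, ?_, ?_⟩
  · have := mul_mem_twFun (pow_mem_twFun hG (n - 1)) (modFun_mem_twFun b)
    rwa [mul_one] at this
  · rw [MulMemClass.coe_mul, SubmonoidClass.coe_pow, SubmonoidClass.coe_pow, ha, mul_pow, ← pow_mul,
      ← pow_mul, mul_comm n]
  · have hsucc : n = (n - 1) + 1 := (Nat.succ_pred_eq_of_ne_zero hn).symm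
    rw [inv_mul_eq_iff_eq_mul₀ hf0, map_mul, mul_left_comm, map_pow (ser N) a n, map_pow (ser N) a,
      hf, ← pow_succ, ← hsucc]

/-- Passing from `m * n`-th roots to `n`-th roots. -/
theorem of_mul (m : ℕ) (h : HasChar N (m * n) f χ) : HasChar N n f (χ ^ m) := by
  obtain ⟨G, b, a, hG, hG0, hb, ha, hf⟩ := h
  refine ⟨G ^ m, b ^ m, a, pow_mem_twFun hG m, fun h0 => ?_, fun h0 => ?_, ?_, ?_⟩
  · obtain ⟨τ₀, hτ₀⟩ := Function.ne_iff.mp hG0
    exact pow_ne_zero m hτ₀ (congrFun h0 τ₀)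
  · obtain ⟨τ₀, hτ₀⟩ := Function.ne_iff.mp (fun h => hb (Subtype.ext h) : (b : ℍ → ℂ) ≠ 0)
    exact pow_ne_zero m hτ₀ (congrFun (congrArg Subtype.val h0) τ₀)
  · rw [ha, pow_mul]
  · rw [← pow_mul, hf]

/-- Multiplying by a nonzero constant. -/
theorem algebraMap {c : ℂ} (hc : c ≠ 0) (hn : n ≠ 0) :
    HasChar N n (HahnSeries.single 0 c) (1 : Gamma0 N →* ℂ) := by
  obtain ⟨r, rfl⟩ := IsAlgClosed.exists_pow_nat_eq c (Nat.pos_of_ne_zero hn)
  have hr : r ≠ 0 := fun h => hc (by rw [h, zero_pow hn])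
  refine ⟨fun _ => r, 1, Algebra.algebraMap ℂ _ (r ^ n), const_mem_twFun r,
    fun h => hr (congrFun h UpperHalfPlane.I), one_ne_zero, rfl, ?_⟩
  rw [one_pow, map_one, mul_one, ser_algebraMap]

end HasChar

end Fermat.Agent.J0Torsion

end
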