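import Fermat.Agent.J0Torsion.EisensteinChar
import Fermat.Agent.J0Torsion.SerMem
import Fermat.Agent.J0Torsion.Twist
import Fermat.Agent.X0Analytic.Points

/-!
# Good characters are multipliers

Every good character of finite order is the multiplier of a root: the weight four Eisenstein
series with character, made of weight zero by `E₄ ^ 2 / Δ`.
-/

set_option autoImplicit false

noncomputable section

open UpperHalfPlane CongruenceSubgroup ModularForm
open scoped Manifold MatrixGroups ModularForm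

namespace Fermat.Agent.J0Torsion

open X0Analytic (modFun FLevel ser qp)

local notation "Δ" => ModularForm.discriminant

variable {N : ℕ} [NeZero N]

namespace GoodChar

variable (χ : GoodChar N)

/-- A weight zero function with multiplier `χ`. -/
def zeroWeight (τ : ℍ) : ℂ := χ.eis τ * ModularForm.E₄ τ ^ 2 / Δ τ

omit [NeZero N] in
lemma zeroWeight_smul (g : SL(2, ℤ)) (τ : ℍ) :
    χ.zeroWeight (g • τ) = (χ.eis ∣[(4 : ℤ)] g) τ * ModularForm.E₄ τ ^ 2 / Δ τ := by
  have hd : denom (g : GL (Fin 2) ℝ) (τ : ℂ) ≠ 0 := denom_ne_zero _ τ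
  have hΔ : Δ τ ≠ 0 := ModularForm.discriminant_ne_zero τ
  rw [zeroWeight, X0Analytic.levelOne_smul, X0Analytic.discriminant_smul, SL_slash_apply,
    zpow_neg, div_eq_div_iff (mul_ne_zero (zpow_ne_zero _ hd) hΔ) hΔ]
  field_simp

lemma zeroWeight_mem : χ.zeroWeight ∈ twFun χ.hom := by
  refine ⟨?_, fun γ τ => ?_, fun g => ⟨N, ?_⟩⟩
  · exact UpperHalfPlane.mdifferentiable_iff.mpr
      ((χ.eis_differentiableOn.mul
        ((UpperHalfPlane.mdifferentiable_iff.mp ModularForm.E₄.holo').fun_pow 2)).div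
        (UpperHalfPlane.mdifferentiable_iff.mp CuspForm.discriminant.holo')
        fun _ _ => ModularForm.discriminant_ne_zero _)
  · rw [zeroWeight_smul, χ.eis_slash, zeroWeight, Pi.smul_apply, smul_eq_mul]
    ring
  · have hE := ModularFormClass.bdd_at_infty ModularForm.E₄
    have hE2 : IsBoundedAtImInfty ((ModularForm.E₄ : ℍ → ℂ) ^ 2) :=
      pow_mem (S := boundedAtImInftySubalgebra ℂ) (x := (ModularForm.E₄ : ℍ → ℂ)) hE 2
    have hΔ : IsBoundedAtImInfty (fun τ => qp 1 τ / Δ τ) := by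
      refine (Asymptotics.div_isBoundedUnder_of_isBigO (α := ℍ) ?_).isBigO_one ℝ
      refine Asymptotics.IsBigO.trans (Asymptotics.isBigO_of_le _ fun τ => le_of_eq ?_)
        ModularForm.exp_isBigO_discriminant
      simp [qp, Function.Periodic.qParam, Complex.norm_exp]
    have heq : (fun τ : ℍ => χ.zeroWeight (g • τ)) * qp N ^ N =
        (χ.eis ∣[(4 : ℤ)] g) * (ModularForm.E₄ : ℍ → ℂ) ^ 2 * fun τ => qp 1 τ / Δ τ := by
      funext τ
      simp only [Pi.mul_apply, Pi.pow_apply, zeroWeight_smul, ← X0Analytic.qp_one_eq_pow]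
      ring
    rw [heq]
    exact Filter.BoundedAtFilter.mul (Filter.BoundedAtFilter.mul (χ.eis_bounded g) hE2) hΔ

omit [NeZero N] in
lemma zeroWeight_ne_zero : χ.zeroWeight ≠ 0 := by
  obtain ⟨z, hz⟩ := χ.exists_eis_ne_zero
  intro h
  have hE : MDiff (ModularForm.E₄ : ℍ → ℂ) := ModularForm.E₄.holo'
  have heis : MDiff χ.eis := UpperHalfPlane.mdifferentiable_iff.mpr χ.eis_differentiableOn
  have h0 : χ.eis * ((ModularForm.E₄ : ℍ → ℂ) * (ModularForm.E₄ : ℍ → ℂ)) = 0 := funext fun τ => by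
    have hτ := congrFun h τ
    simp only [zeroWeight, Pi.zero_apply, div_eq_zero_iff,
      ModularForm.discriminant_ne_zero τ, or_false] at hτ
    simp only [Pi.mul_apply, Pi.zero_apply]
    rw [← sq]
    exact hτ
  rcases (UpperHalfPlane.mul_eq_zero_iff heis (hE.mul hE)).mp h0 with h1 | h1
  · exact hz (congrFun h1 z)
  rcases (UpperHalfPlane.mul_eq_zero_iff hE hE).mp h1 with h2 | h2 <;>
  · have h3 := congrFun h2 UpperHalfPlane.I
    exact X0Analytic.E6_ne_zero_of_E4_eq_zero (τ := UpperHalfPlane.I) h3 X0Analytic.E6_I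

/-- **Surjectivity over `ℂ`**: `χ` is the multiplier of an element of the function field. -/
theorem exists_hasChar {n : ℕ} (hχ : χ.hom ^ n = 1) :
    ∃ x : ↥(FLevel ℂ N), HasChar N n (x : LaurentSeries ℂ) χ.hom :=
  ⟨⟨ser N (powMod χ.zeroWeight_mem hχ), ser_mem_FLevel _⟩, χ.zeroWeight, 1,
    powMod χ.zeroWeight_mem hχ, χ.zeroWeight_mem, χ.zeroWeight_ne_zero, one_ne_zero, rfl,
    by rw [one_pow, map_one, mul_one]⟩

end GoodChar

end Fermat.Agent.J0Torsion

end
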