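import Fermat.Agent.J0Torsion.Descent
import Fermat.Agent.J0Torsion.Surj
import Mathlib.Analysis.SpecialFunctions.Complex.CircleAddChar
import Fermat.Agent.Reduction.Instances

/-!
# The torsion of `J₀(N)` as good homomorphisms

`J₀(N)[n]` is the group of homomorphisms `Γ₀(N) → ℤ/n` killing the elements with `trace ^ 2 ≤ 4`.

For a torsion class of a divisor `D` with `n D = div f`, the attached homomorphism `φ` is given by
the multiplier `γ ↦ exp (2πi φ(γ) / n)` of any `n`-th root of `f` on `ℍ`.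
-/

set_option autoImplicit false

noncomputable section

open CongruenceSubgroup AlgebraicCurve
open scoped MatrixGroups

namespace Fermat.Agent.J0Torsion

open X0Analytic (modFun FLevel Hol Mer toMer toModFun exists_div ser merComp)
open scoped Fermat.Agent.Reduction

/-- A fixed embedding `ℚ̄ → ℂ`. -/
def jEmb : AlgebraicClosure ℚ →+* ℂ :=
  letI : Algebra ℚ (AlgebraicClosure ℚ) := AlgebraicClosure.instAlgebra ℚ
  (IsAlgClosed.lift (R := ℚ) (M := ℂ) (S := AlgebraicClosure ℚ)).toRingHom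

local notation "Qb" => AlgebraicClosure ℚ

variable {N : ℕ} [NeZero N] {n : ℕ} [NeZero n]

/-! ### Homomorphisms to `ℤ/n` as characters -/

/-- The character `γ ↦ exp (2πi φ(γ) / n)`. -/
def chiOf (φ : goodHoms N (ZMod n)) : Gamma0 N →* ℂ where
  toFun γ := ZMod.stdAddChar ((φ : Additive (Gamma0 N) →+ ZMod n) (Additive.ofMul γ))
  map_one' := by rw [ofMul_one, map_zero, AddChar.map_zero_eq_one]
  map_mul' γ δ := by rw [ofMul_mul, map_add, AddChar.map_add_eq_mul]

omit [NeZero N] in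
@[simp]
lemma chiOf_apply (φ : goodHoms N (ZMod n)) (γ : Gamma0 N) :
    chiOf φ γ = ZMod.stdAddChar ((φ : Additive (Gamma0 N) →+ ZMod n) (Additive.ofMul γ)) := rfl

omit [NeZero N] in
lemma chiOf_good (φ : goodHoms N (ZMod n)) (γ : Gamma0 N)
    (h : ((γ : SL(2, ℤ)) : Matrix (Fin 2) (Fin 2) ℤ).trace ^ 2 ≤ 4) : chiOf φ γ = 1 := by
  rw [chiOf_apply, φ.2 γ h, AddChar.map_zero_eq_one]

omit [NeZero N] in
lemma chiOf_zero : chiOf (0 : goodHoms N (ZMod n)) = 1 :=
  MonoidHom.ext fun γ => by simp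

omit [NeZero N] in
lemma chiOf_add (φ ψ : goodHoms N (ZMod n)) : chiOf (φ + ψ) = chiOf φ * chiOf ψ :=
  MonoidHom.ext fun γ => by simp [AddChar.map_add_eq_mul]

omit [NeZero N] in
lemma chiOf_injective : Function.Injective (chiOf (N := N) (n := n)) := fun _ _ h =>
  Subtype.ext (AddMonoidHom.ext fun γ =>
    ZMod.injective_stdAddChar (DFunLike.congr_fun h (Additive.toMul γ)))

omit [NeZero N] in
lemma chiOf_pow_eq_one (φ : goodHoms N (ZMod n)) : chiOf φ ^ n = 1 :=
  MonoidHom.ext fun γ => by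
    rw [MonoidHom.pow_apply, chiOf_apply, ← AddChar.map_nsmul_eq_pow, nsmul_eq_mul,
      ZMod.natCast_self, zero_mul, AddChar.map_zero_eq_one, MonoidHom.one_apply]

omit [NeZero N] in
lemma exists_chiOf_eq {χ : Gamma0 N →* ℂ}
    (hgood : ∀ γ : Gamma0 N,
      ((γ : SL(2, ℤ)) : Matrix (Fin 2) (Fin 2) ℤ).trace ^ 2 ≤ 4 → χ γ = 1)
    (hχ : χ ^ n = 1) : ∃ φ : goodHoms N (ZMod n), chiOf φ = χ := by
  have hprim : IsPrimitiveRoot (ZMod.stdAddChar ((1 : ℤ) : ZMod n)) n := by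
    rw [ZMod.stdAddChar_coe, Int.cast_one, mul_one]
    exact Complex.isPrimitiveRoot_exp n (NeZero.ne n)
  have hex : ∀ γ : Gamma0 N, ∃ k : ZMod n, ZMod.stdAddChar k = χ γ := fun γ => by
    have h := DFunLike.congr_fun hχ γ
    rw [MonoidHom.pow_apply, MonoidHom.one_apply] at h
    obtain ⟨i, -, hi⟩ := hprim.eq_pow_of_pow_eq_one h
    exact ⟨i • ((1 : ℤ) : ZMod n), by rw [AddChar.map_nsmul_eq_pow, hi]⟩
  choose k hk using hex
  refine ⟨⟨AddMonoidHom.mk' (fun γ => k (Additive.toMul γ)) fun γ δ =>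
    ZMod.injective_stdAddChar ?_, fun γ hγ => ZMod.injective_stdAddChar ?_⟩, MonoidHom.ext hk⟩
  · rw [AddChar.map_add_eq_mul, hk, hk, hk, toMul_add, map_mul]
  · show ZMod.stdAddChar (k γ) = _
    rw [hk, hgood γ hγ, AddChar.map_zero_eq_one]

/-! ### The homomorphism of a torsion class -/

/-- `φ` is the homomorphism of the torsion class `x`. -/
def TorChar (n : ℕ) [NeZero n] (x : Pic0 Qb ↥(FLevel Qb N)) (φ : goodHoms N (ZMod n)) : Prop :=
  ∃ (D : Divisor.degZero (K := Qb) (F := ↥(FLevel Qb N))) (f : ↥(FLevel Qb N)),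
    Pic0.mk D = x ∧
    (∀ P : Place Qb ↥(FLevel Qb N), (n : ℤ) * (D : Divisor Qb ↥(FLevel Qb N)) P = P.ord f) ∧
    HasChar N n (ModularCurve.coeffMap jEmb (f : LaurentSeries Qb)) (chiOf φ)

omit [NeZero N] [NeZero n] in
lemma exists_div_of_mem_torsion {x : Pic0 Qb ↥(FLevel Qb N)}
    (hx : x ∈ Pic0.torsion Qb ↥(FLevel Qb N) n) :
    ∃ (D : Divisor.degZero (K := Qb) (F := ↥(FLevel Qb N))) (f : ↥(FLevel Qb N)),
      Pic0.mk D = x ∧ f ≠ 0 ∧
      ∀ P : Place Qb ↥(FLevel Qb N), (n : ℤ) * (D : Divisor Qb ↥(FLevel Qb N)) P = P.ord f := by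
  obtain ⟨D, rfl⟩ := Pic0.mk_surjective x
  rw [Pic0.mem_torsion] at hx
  have h : (n : ℤ) • D ∈
      (Divisor.principal (K := Qb) (F := ↥(FLevel Qb N))).addSubgroupOf Divisor.degZero :=
    (QuotientAddGroup.eq_zero_iff _).mp hx
  obtain ⟨f, hf, hD⟩ := AddSubgroup.mem_addSubgroupOf.mp h
  exact ⟨D, f, rfl, hf, fun P => by rw [← hD P]; simp⟩

theorem exists_torChar {x : Pic0 Qb ↥(FLevel Qb N)}
    (hx : x ∈ Pic0.torsion Qb ↥(FLevel Qb N) n) : ∃ φ, TorChar n x φ := by
  obtain ⟨D, f, hD, hf, hdiv⟩ := exists_div_of_mem_torsion hx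
  obtain ⟨χ, hgood, hχ⟩ := exists_char_of_dvd_ord jEmb (NeZero.ne n) hf
    fun P => ⟨_, (hdiv P).symm⟩
  obtain ⟨φ, rfl⟩ := exists_chiOf_eq hgood hχ.pow_eq_one
  exact ⟨φ, D, f, hD, hdiv, hχ⟩

theorem TorChar.add {x y : Pic0 Qb ↥(FLevel Qb N)} {φ ψ : goodHoms N (ZMod n)}
    (hx : TorChar n x φ) (hy : TorChar n y ψ) : TorChar n (x + y) (φ + ψ) := by
  obtain ⟨D, f, rfl, hdiv, hf⟩ := hx
  obtain ⟨D', f', rfl, hdiv', hf'⟩ := hy
  have hf0 : f ≠ 0 := fun h => hf.ne_zero (by rw [h]; simp)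
  have hf'0 : f' ≠ 0 := fun h => hf'.ne_zero (by rw [h]; simp)
  refine ⟨D + D', f * f', Pic0.mk_add D D', fun P => ?_, ?_⟩
  · rw [P.ord_mul hf0 hf'0, ← hdiv, ← hdiv', AddSubgroup.coe_add, Finsupp.add_apply, mul_add]
  · rw [MulMemClass.coe_mul, map_mul, chiOf_add]
    exact hf.mul hf'

theorem TorChar.unique {x : Pic0 Qb ↥(FLevel Qb N)} {φ ψ : goodHoms N (ZMod n)}
    (hx : TorChar n x φ) (hy : TorChar n x ψ) : φ = ψ := by
  obtain ⟨D, f, rfl, hdiv, hf⟩ := hx
  obtain ⟨D', f', hDD', hdiv', hf'⟩ := hy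
  have := isFunctionField_FLevel (N := N) jEmb
  have hf0 : f ≠ 0 := fun h => hf.ne_zero (by rw [h]; simp)
  have hf'0 : f' ≠ 0 := fun h => hf'.ne_zero (by rw [h]; simp)
  have h : -D' + D ∈
      (Divisor.principal (K := Qb) (F := ↥(FLevel Qb N))).addSubgroupOf Divisor.degZero :=
    QuotientAddGroup.eq.mp hDD'
  obtain ⟨g, hg, hgD⟩ := AddSubgroup.mem_addSubgroupOf.mp h
  have hgn : g ^ n ≠ 0 := pow_ne_zero n hg
  have hord : ∀ P : Place Qb ↥(FLevel Qb N), 0 ≤ P.ord (f / (f' * g ^ n)) := fun P => by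
    rw [FunctionFieldRR.ord_div P hf0 (mul_ne_zero hf'0 hgn), P.ord_mul hf'0 hgn,
      FunctionFieldRR.ord_pow, ← hdiv, ← hdiv', ← hgD P, AddSubgroup.coe_add,
      NegMemClass.coe_neg, Finsupp.add_apply, Finsupp.neg_apply]
    exact le_of_eq (by ring)
  obtain ⟨c, hc⟩ := FunctionFieldRR.exists_algebraMap_eq_of_forall_ord_nonneg hord
  rw [div_eq_iff (mul_ne_zero hf'0 hgn)] at hc
  have hc0 : c ≠ 0 := fun h0 => hf0 (by rw [hc, h0, map_zero, zero_mul])
  refine chiOf_injective (hf.unique (NeZero.ne n) ?_)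
  have h1 : HasChar N n (ModularCurve.coeffMap jEmb
      ((algebraMap Qb ↥(FLevel Qb N) c : ↥(FLevel Qb N)) : LaurentSeries Qb)) 1 := by
    rw [show ((algebraMap Qb ↥(FLevel Qb N) c : ↥(FLevel Qb N)) : LaurentSeries Qb) =
      HahnSeries.single 0 c from ModularCurve.algebraMap_laurentSeries_eq_single Qb c,
      ModularCurve.coeffMap_single]
    exact HasChar.algebraMap ((map_ne_zero jEmb).mpr hc0) (NeZero.ne n)
  have h2 := h1.mul (hf'.mul (hasChar_pow jEmb hg))
  rw [one_mul, mul_one, ← map_mul, ← map_mul, ← MulMemClass.coe_mul, ← MulMemClass.coe_mul,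
    ← hc] at h2
  exact h2

/-- An `n`-th root in `ℂ((q))` of a function over `L` comes from the function field over `L`. -/
theorem exists_root_descent {L : Type} [Field L] [Algebra ℚ L] [IsAlgClosed L] (φ : L →+* ℂ)
    {m : ℕ} (hm : m ≠ 0) {f : ↥(FLevel L N)} {g : ↥(FLevel ℂ N)}
    (h : (g : LaurentSeries ℂ) ^ m = ModularCurve.coeffMap φ (f : LaurentSeries L)) :
    ∃ z : ↥(FLevel L N), z ^ m = f := by
  let _ : Algebra L ℂ := φ.toAlgebra
  have : CharZero L := algebraRat.charZero L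
  set p : Polynomial (LaurentSeries ℂ) :=
    Polynomial.X ^ m - Polynomial.C ((g : LaurentSeries ℂ) ^ m)
  have hroots : {y : LaurentSeries ℂ | y ^ m = (g : LaurentSeries ℂ) ^ m}.Finite :=
    (Polynomial.finite_setOfPred_isRoot (p := p)
      (Polynomial.X_pow_sub_C_ne_zero (Nat.pos_of_ne_zero hm) _)).subset fun y hy => by
        simp only [Set.mem_ofPred_eq] at hy
        simp [p, hy]
  have hcoef : ∀ k : ℤ, (g : LaurentSeries ℂ).coeff k ∈ Set.range φ := fun k => by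
    have halg : IsAlgebraic L ((g : LaurentSeries ℂ).coeff k) := by
      refine MWJ0.isAlgebraic_of_finite_orbit
        ((hroots.image fun y => y.coeff k).subset ?_)
      rintro _ ⟨σ, rfl⟩
      refine ⟨ModularCurve.coeffMap (σ : ℂ →+* ℂ) (g : LaurentSeries ℂ), ?_, rfl⟩
      show _ ^ m = _
      rw [← map_pow, h, ModularCurve.coeffMap_coeffMap]
      exact ModularCurve.coeffMap_congr (RingHom.ext fun a => σ.commutes a) _
    obtain ⟨a, ha⟩ := minpoly.mem_range_of_degree_eq_one L _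
      (IsAlgClosed.degree_eq_one_of_irreducible L (minpoly.irreducible halg.isIntegral))
    exact ⟨a, ha⟩
  choose c hc using hcoef
  let z : LaurentSeries L := ⟨c, (g : LaurentSeries ℂ).isPWO_support.mono fun k hk h0 => hk (by
    have h := hc k
    rw [h0] at h
    exact (map_eq_zero φ).mp h)⟩
  have hz : ModularCurve.coeffMap φ z = g := HahnSeries.ext (funext hc)
  refine ⟨⟨z, mem_FLevel_of_coeffMap_mem φ (hz.symm ▸ g.2)⟩, Subtype.ext ?_⟩
  refine X0Analytic.coeffMap_injective φ.injective ?_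
  rw [SubmonoidClass.coe_pow, map_pow, hz, h]

theorem TorChar.eq_zero {x : Pic0 Qb ↥(FLevel Qb N)} (hx : TorChar n x 0) : x = 0 := by
  obtain ⟨D, f, rfl, hdiv, hf⟩ := hx
  rw [chiOf_zero] at hf
  have hf0 : f ≠ 0 := fun h => hf.ne_zero (by rw [h]; simp)
  obtain ⟨a, b, hb, hab⟩ := exists_div Qb N f
  have hmem : ModularCurve.coeffMap jEmb (f : LaurentSeries Qb) ∈ FLevel ℂ N := by
    have hb' : ser N (toModFun jEmb b) ≠ 0 :=
      (map_ne_zero_iff _ X0Analytic.ser_injective).mpr (toModFun_ne_zero hb)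
    rw [eq_div_iff hb' |>.mpr (show ModularCurve.coeffMap jEmb (f : LaurentSeries Qb) *
        ser N (toModFun jEmb b) = ser N (toModFun jEmb a) by
      rw [X0Analytic.ser_toModFun, X0Analytic.ser_toModFun, ← map_mul]
      exact congrArg _ (congrArg (fun z : ↥(FLevel Qb N) => (z : LaurentSeries Qb)) hab))]
    exact div_mem (ser_mem_FLevel _) (ser_mem_FLevel _)
  obtain ⟨g, hg⟩ := exists_pow_eq_of_hasChar_one (f := ⟨_, hmem⟩) hf
  obtain ⟨z, hz⟩ := exists_root_descent jEmb (NeZero.ne n) (f := f) (g := g)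
    (congrArg Subtype.val hg)
  have hz0 : z ≠ 0 := fun h0 => hf0 (by rw [← hz, h0, zero_pow (NeZero.ne n)])
  refine (QuotientAddGroup.eq_zero_iff _).mpr (AddSubgroup.mem_addSubgroupOf.mpr
    ⟨z, hz0, fun P => mul_left_cancel₀ (Int.natCast_ne_zero.mpr (NeZero.ne n)) ?_⟩)
  rw [hdiv P, ← hz, FunctionFieldRR.ord_pow]

theorem exists_torChar_eq (φ : goodHoms N (ZMod n)) :
    ∃ x : Pic0.torsion Qb ↥(FLevel Qb N) n, TorChar n (x : Pic0 Qb ↥(FLevel Qb N)) φ := by
  have := isFunctionField_FLevel (N := N) jEmb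
  have hn : (n : ℤ) ≠ 0 := Int.natCast_ne_zero.mpr (NeZero.ne n)
  let χ : GoodChar N := ⟨chiOf φ, chiOf_good φ, fun γ =>
    Complex.norm_eq_one_of_pow_eq_one (DFunLike.congr_fun (chiOf_pow_eq_one φ) γ)
      (NeZero.ne n)⟩
  obtain ⟨x, hx⟩ := χ.exists_hasChar (n := n) (chiOf_pow_eq_one φ)
  obtain ⟨y, hy⟩ := exists_hasChar_algebraic jEmb (NeZero.ne n) (chiOf_good φ) hx
  have hdvd := dvd_ord_of_hasChar (chiOf_good φ) hy
  set D : Divisor Qb ↥(FLevel Qb N) :=
    (FunctionFieldRR.divisorOf (K := Qb) y).mapRange (fun m => m / (n : ℤ)) (Int.zero_ediv _)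
  have hD : ∀ P, (n : ℤ) * D P = P.ord y := fun P => by
    rw [Finsupp.mapRange_apply, FunctionFieldRR.divisorOf_apply, Int.mul_ediv_cancel' (hdvd P)]
  have hsmul : (n : ℤ) • D = FunctionFieldRR.divisorOf (K := Qb) y :=
    Finsupp.ext fun P => by
      rw [Finsupp.smul_apply, smul_eq_mul, hD, FunctionFieldRR.divisorOf_apply]
  have hdeg : D ∈ Divisor.degZero (K := Qb) (F := ↥(FLevel Qb N)) := by
    have h := FunctionFieldRR.degree_divisorOf (K := Qb) y
    rw [← hsmul, map_zsmul, smul_eq_mul] at h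
    exact Divisor.mem_degZero.mpr ((mul_eq_zero.mp h).resolve_left hn)
  refine ⟨⟨Pic0.mk ⟨D, hdeg⟩, Pic0.mem_torsion.mpr ?_⟩, ⟨D, hdeg⟩, y, rfl, hD, hy⟩
  refine (QuotientAddGroup.eq_zero_iff ((n : ℤ) • (⟨D, hdeg⟩ :
    Divisor.degZero (K := Qb) (F := ↥(FLevel Qb N))))).mpr (AddSubgroup.mem_addSubgroupOf.mpr
    ⟨y, fun h0 => hy.ne_zero (by rw [h0]; simp), fun P => ?_⟩)
  show ((n : ℤ) • D) P = _
  rw [Finsupp.smul_apply, smul_eq_mul, hD]

/-! ### The isomorphism -/

variable (N n)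

/-- The homomorphism of a torsion class. -/
def torsionHom :
    Pic0.torsion Qb (ModularCurve.modularFunctionFieldBar N) n →+ goodHoms N (ZMod n) :=
  AddMonoidHom.mk' (fun x => (exists_torChar x.2).choose) fun x y =>
    (exists_torChar (x + y).2).choose_spec.unique
      ((exists_torChar x.2).choose_spec.add (exists_torChar y.2).choose_spec)

variable {N n}

theorem torChar_torsionHom
    (x : Pic0.torsion Qb (ModularCurve.modularFunctionFieldBar N) n) :
    TorChar n (x : Pic0 Qb ↥(FLevel Qb N)) (torsionHom N n x) :=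
  (exists_torChar x.2).choose_spec

theorem torsionHom_bijective : Function.Bijective (torsionHom N n) := by
  refine ⟨(injective_iff_map_eq_zero _).mpr fun x hx => Subtype.ext ?_, fun φ => ?_⟩
  · exact (hx ▸ torChar_torsionHom x).eq_zero
  · obtain ⟨x, hx⟩ := exists_torChar_eq φ
    exact ⟨x, (torChar_torsionHom x).unique hx⟩

variable (N n) in
/-- **`J₀(N)[n]` is the group of good homomorphisms `Γ₀(N) → ℤ/n`.** -/
def torsionEquiv :
    Pic0.torsion Qb (ModularCurve.modularFunctionFieldBar N) n ≃+ goodHoms N (ZMod n) :=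
  AddEquiv.ofBijective (torsionHom N n) torsionHom_bijective

theorem torChar_torsionEquiv
    (x : Pic0.torsion Qb (ModularCurve.modularFunctionFieldBar N) n) :
    TorChar n (x : Pic0 Qb ↥(FLevel Qb N)) (torsionEquiv N n x) :=
  torChar_torsionHom x

/-- Characterisation by any divisor representative and any root. -/
theorem torsionEquiv_eq {x : Pic0.torsion Qb (ModularCurve.modularFunctionFieldBar N) n}
    {φ : goodHoms N (ZMod n)} (h : TorChar n (x : Pic0 Qb ↥(FLevel Qb N)) φ) :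
    torsionEquiv N n x = φ :=
  (torChar_torsionEquiv x).unique h

/-- `#J₀(N)[n] = n ^ rank N`. -/
theorem natCard_torsion (hP : ParabolicFull N) :
    Nat.card (Pic0.torsion Qb (ModularCurve.modularFunctionFieldBar N) n) = n ^ rank N := by
  rw [Nat.card_congr (torsionEquiv N n).toEquiv, natCard_goodHoms hP]

/-! ### Roots in the field of meromorphic functions -/

/-- Any root on `ℍ` of `f` computes the homomorphism of the class. -/
theorem torsionEquiv_apply_of_root
    {x : Pic0.torsion Qb (ModularCurve.modularFunctionFieldBar N) n}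
    {D : Divisor.degZero (K := Qb) (F := ↥(FLevel Qb N))} {f : ↥(FLevel Qb N)} (hf : f ≠ 0)
    (hD : Pic0.mk D = (x : Pic0 Qb ↥(FLevel Qb N)))
    (hdiv : ∀ P : Place Qb ↥(FLevel Qb N), (n : ℤ) * (D : Divisor Qb ↥(FLevel Qb N)) P = P.ord f)
    {R : Mer} (hR : R ^ n = toMer jEmb f) (γ : Gamma0 N) :
    merComp ((γ : SL(2, ℤ)) : GL (Fin 2) ℝ) (X0Analytic.det_pos_SL _) R =
      algebraMap Hol Mer (algebraMap ℂ Hol (ZMod.stdAddChar
        ((torsionEquiv N n x : Additive (Gamma0 N) →+ ZMod n) (Additive.ofMul γ)))) * R := by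
  obtain ⟨χ, hgood, hχ⟩ := exists_char_of_dvd_ord jEmb (NeZero.ne n) hf
    fun P => ⟨_, (hdiv P).symm⟩
  obtain ⟨φ, rfl⟩ := exists_chiOf_eq hgood hχ.pow_eq_one
  rw [torsionEquiv_eq ⟨D, f, hD, hdiv, hχ⟩, ← chiOf_apply]
  obtain ⟨G, B, A, a, b, hG, hG0, hB, hb, hA, hab, heq⟩ := hasChar_data hχ
  let ι : ↥(modFun N) →+* Mer := (algebraMap Hol Mer).comp (X0Analytic.modToHol N).toRingHom
  have hι : Function.Injective ι :=
    (IsFractionRing.injective Hol Mer).comp X0Analytic.modToHol_injective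
  set G' : Mer := algebraMap Hol Mer ⟨G, hG.1⟩ with hG'
  have hιA : ι A = G' ^ n := by
    rw [hG', ← map_pow]
    exact congrArg (algebraMap Hol Mer) (Subtype.ext hA)
  have hιb : ι (toModFun jEmb b) ≠ 0 :=
    (map_ne_zero_iff ι hι).mpr (toModFun_ne_zero hb)
  have hιB : ι B ≠ 0 := (map_ne_zero_iff ι hι).mpr hB
  have hmer : toMer jEmb f * ι B ^ n = G' ^ n := by
    refine mul_right_cancel₀ hιb ?_
    have h1 := congrArg ι heq
    rw [map_mul, map_mul, map_pow, hιA] at h1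
    rw [← h1]
    have h2 : toMer jEmb f * ι (toModFun jEmb b) = ι (toModFun jEmb a) := by
      have := congrArg (toMer (N := N) jEmb) hab
      rw [map_mul] at this
      rw [X0Analytic.toMer, X0Analytic.fieldHom_algToField, X0Analytic.fieldHom_algToField] at this
      exact this
    rw [← h2]; ring
  have hG'0 : G' ≠ 0 := (map_ne_zero_iff _ (IsFractionRing.injective Hol Mer)).mpr fun h =>
    hG0 (congrArg Subtype.val h)
  have hprim := Complex.isPrimitiveRoot_exp n (NeZero.ne n)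
  have hζ : IsPrimitiveRoot
      ((algebraMap Hol Mer).comp (algebraMap ℂ Hol) (Complex.exp (2 * Real.pi * Complex.I / n))) n :=
    hprim.map_of_injective ((algebraMap Hol Mer).comp (algebraMap ℂ Hol)).injective
  have hpow : (R * ι B / G') ^ n = 1 := by
    rw [div_pow, mul_pow, hR, hmer, div_self (pow_ne_zero n hG'0)]
  obtain ⟨i, -, hi⟩ := hζ.eq_pow_of_pow_eq_one hpow
  rw [← map_pow, eq_div_iff hG'0] at hi
  set u : ℂ := Complex.exp (2 * Real.pi * Complex.I / n) ^ i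
  rw [RingHom.comp_apply] at hi
  have hdet := X0Analytic.det_pos_SL (γ : SL(2, ℤ))
  set M := merComp ((γ : SL(2, ℤ)) : GL (Fin 2) ℝ) hdet
  have hMB : M (ι B) = ι B := by
    show M (algebraMap Hol Mer (X0Analytic.modToHol N B)) = _
    rw [X0Analytic.merComp_algebraMap]
    exact congrArg (algebraMap Hol Mer) (Subtype.ext (funext fun τ => B.2.2.1 γ γ.2 τ))
  have hMG : M G' = algebraMap Hol Mer (algebraMap ℂ Hol (chiOf φ γ)) * G' := by
    rw [hG', X0Analytic.merComp_algebraMap, ← map_mul]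
    exact congrArg (algebraMap Hol Mer) (Subtype.ext (funext fun τ => twFun_smul hG γ τ))
  have hMu : M (algebraMap Hol Mer (algebraMap ℂ Hol u)) = algebraMap Hol Mer (algebraMap ℂ Hol u) := by
    rw [X0Analytic.merComp_algebraMap, AlgHom.commutes]
  have h3 := congrArg M hi
  rw [map_mul, map_mul, hMB, hMG, hMu] at h3
  refine mul_right_cancel₀ hιB ?_
  rw [← h3, mul_assoc _ R, ← hi]
  ring

end Fermat.Agent.J0Torsion

end
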