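import Fermat.Agent.X0Analytic.Embedding
import Mathlib.LinearAlgebra.Dual.Lemmas

/-!
# Descent of coefficients

A series with coefficients in `L` lying in the function field over `ℂ` lies in the one over `L`.
-/

set_option autoImplicit false

noncomputable section

namespace Fermat.Agent.J0Torsion

open X0Analytic (FLevel algGen genSet jL)

variable {L : Type} [Field L] {N : ℕ}

/-- Apply an additive map to all coefficients. -/
def mapCoeff (π : ℂ →+ L) : LaurentSeries ℂ →+ LaurentSeries L where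
  toFun x := x.map π
  map_zero' := by ext k; simp
  map_add' x y := by ext k; simp

@[simp]
lemma mapCoeff_coeff (π : ℂ →+ L) (x : LaurentSeries ℂ) (k : ℤ) :
    (mapCoeff π x).coeff k = π (x.coeff k) := rfl

lemma mapCoeff_coeffMap_mul (φ : L →+* ℂ) (π : ℂ →+ L) (hπ : ∀ a c, π (φ a * c) = a * π c)
    (z : LaurentSeries L) (x : LaurentSeries ℂ) :
    mapCoeff π (ModularCurve.coeffMap φ z * x) = z * mapCoeff π x := by
  ext k
  have hs : (ModularCurve.coeffMap φ z).support ⊆ z.support := fun i hi h0 => hi (by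
    show φ (z.coeff i) = 0
    rw [h0, map_zero])
  have hy : (mapCoeff π x).support ⊆ x.support := fun i hi h0 => hi (by
    show π (x.coeff i) = 0
    rw [h0, map_zero])
  rw [mapCoeff_coeff, HahnSeries.coeff_mul_left' z.isPWO_support hs,
    HahnSeries.coeff_mul_right' x.isPWO_support hy, map_sum]
  exact Finset.sum_congr rfl fun ij _ => hπ _ _

lemma exists_functional (φ : L →+* ℂ) {c : ℂ} (hc : c ≠ 0) :
    ∃ π : ℂ →+ L, (∀ a x, π (φ a * x) = a * π x) ∧ π c ≠ 0 := by
  let _ : Algebra L ℂ := φ.toAlgebra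
  have h : ¬ ∀ f : Module.Dual L ℂ, f c = 0 := fun h =>
    hc ((Module.forall_dual_apply_eq_zero_iff L c).mp h)
  obtain ⟨f, hf⟩ := not_forall.mp h
  refine ⟨f.toAddMonoidHom, fun a x => ?_, hf⟩
  show f (φ a * x) = a * f x
  rw [show φ a * x = a • x from (Algebra.smul_def a x).symm, map_smul, smul_eq_mul]

variable [Algebra ℚ L]

lemma mapCoeff_algGen_mem (φ : L →+* ℂ) (π : ℂ →+ L) (hπ : ∀ a c, π (φ a * c) = a * π c)
    {x : LaurentSeries ℂ} (hx : x ∈ algGen ℂ N) : mapCoeff π x ∈ algGen L N := by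
  rw [← Subalgebra.mem_toSubmodule, algGen, Algebra.adjoin_eq_span] at hx
  induction hx using Submodule.span_induction generalizing π with
  | zero => rw [map_zero]; exact zero_mem _
  | add u v _ _ hu hv => rw [map_add]; exact add_mem (hu π hπ) (hv π hπ)
  | smul c u _ hu =>
    rw [Algebra.smul_def]
    have h : mapCoeff π (algebraMap ℂ (LaurentSeries ℂ) c * u)
        = mapCoeff (π.comp (AddMonoidHom.mulLeft c)) u := by
      ext k
      rw [ModularCurve.algebraMap_laurentSeries_eq_single, mapCoeff_coeff, mapCoeff_coeff,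
        HahnSeries.coeff_single_zero_mul]
      rfl
    rw [h]
    refine hu _ fun a z => ?_
    show π (c * (φ a * z)) = a * π (c * z)
    rw [mul_left_comm, hπ]
  | mem u hu =>
    obtain ⟨v, hv, rfl⟩ : ∃ v ∈ algGen L N, ModularCurve.coeffMap φ v = u := by
      induction hu using Submonoid.closure_induction with
      | one => exact ⟨1, one_mem _, map_one _⟩
      | mul a b _ _ ha hb =>
        obtain ⟨a, ha, rfl⟩ := ha
        obtain ⟨b, hb, rfl⟩ := hb
        exact ⟨a * b, mul_mem ha hb, map_mul _ _ _⟩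
      | mem y hy =>
        obtain ⟨d, hd0, hd, rfl⟩ := hy
        refine ⟨jL L d, Algebra.subset_adjoin ⟨d, hd0, hd, rfl⟩, ?_⟩
        rw [jL, jL, ModularCurve.coeffEmb, ModularCurve.coeffEmb, ModularCurve.coeffMap_coeffMap,
          X0Analytic.phi_comp_algebraMap]
    have h := mapCoeff_coeffMap_mul φ π hπ v 1
    rw [mul_one] at h
    rw [h]
    refine mul_mem hv ?_
    have h1 : mapCoeff π 1 = algebraMap L (LaurentSeries L) (π 1) := by
      ext k
      rw [ModularCurve.algebraMap_laurentSeries_eq_single, mapCoeff_coeff, HahnSeries.coeff_one,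
        HahnSeries.coeff_single, apply_ite π, map_zero]
    rw [h1]
    exact Subalgebra.algebraMap_mem _ _

/-- **Linear disjointness**: coefficient descent into the function field over `L`. -/
theorem mem_FLevel_of_coeffMap_mem [NeZero N] (φ : L →+* ℂ) {z : LaurentSeries L}
    (hz : ModularCurve.coeffMap φ z ∈ FLevel ℂ N) : z ∈ FLevel L N := by
  obtain ⟨a, b, hb, hab⟩ := X0Analytic.exists_div ℂ N ⟨_, hz⟩
  have hab' : ModularCurve.coeffMap φ z * (b : LaurentSeries ℂ) = (a : LaurentSeries ℂ) := by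
    simpa using congrArg (fun w : ↥(FLevel ℂ N) => (w : LaurentSeries ℂ)) hab
  have hb0 : (b : LaurentSeries ℂ) ≠ 0 := fun h => hb (Subtype.ext h)
  obtain ⟨k, hk⟩ : ∃ k, (b : LaurentSeries ℂ).coeff k ≠ 0 :=
    ⟨_, mt HahnSeries.coeff_order_eq_zero.mp hb0⟩
  obtain ⟨π, hπ, hπk⟩ := exists_functional φ hk
  have h : z * mapCoeff π (b : LaurentSeries ℂ) = mapCoeff π (a : LaurentSeries ℂ) := by
    rw [← mapCoeff_coeffMap_mul φ π hπ, hab']
  have hne : mapCoeff π (b : LaurentSeries ℂ) ≠ 0 := fun h0 => hπk (by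
    have := congrArg (fun w : LaurentSeries L => w.coeff k) h0
    simpa using this)
  rw [eq_div_iff hne |>.mpr h]
  exact div_mem (X0Analytic.algGen_le L N (mapCoeff_algGen_mem φ π hπ a.2))
    (X0Analytic.algGen_le L N (mapCoeff_algGen_mem φ π hπ b.2))

end Fermat.Agent.J0Torsion

end
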