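import Mathlib.GroupTheory.Schreier
import Mathlib.LinearAlgebra.FreeModule.PID
import Mathlib.LinearAlgebra.Dimension.Free
import Mathlib.LinearAlgebra.Matrix.FixedDetMatrices
import Fermat.Agent.J0Torsion.GoodBound

/-!
# The lattice of good homomorphisms

The lattice behind the homomorphisms killing parabolic and elliptic elements: a surjection
`Γ₀(N) → ℤ^d` through which all of them factor, `d = 2g`.
-/

set_option autoImplicit false
set_option linter.style.haveILetI false

noncomputable section

open CongruenceSubgroup Matrix ModularCurve.Period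
open scoped MatrixGroups

namespace Fermat.Agent.J0Torsion

variable (N : ℕ) [NeZero N]

local notation "P" => parabolicHoms ℂ (Gamma0 N) ℂ

/-- Evaluation of the parabolic homomorphisms. -/
def evalParabolic : Additive (Gamma0 N) →+ (P → ℂ) where
  toFun γ φ := (φ : Additive (Gamma0 N) →+ ℂ) γ
  map_zero' := funext fun _ => map_zero _
  map_add' γ δ := funext fun _ => map_add _ γ δ

lemma group_fg_Gamma0 : Group.FG (Gamma0 N) := by
  haveI : Group.FG SL(2, ℤ) :=
    ⟨⟨{ModularGroup.S, ModularGroup.T}, by
      rw [Finset.coe_insert, Finset.coe_singleton, _root_.SpecialLinearGroup.SL2Z_generators]⟩⟩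
  infer_instance

/-- The image of `Γ₀(N)` under evaluation, a lattice. -/
def evalImage : Submodule ℤ (P → ℂ) := (evalParabolic N).range.toIntSubmodule

lemma evalImage_fg : (evalImage N).FG := by
  haveI := group_fg_Gamma0 N
  obtain ⟨s, hs⟩ := Group.fg_def.mp ‹Group.FG (Gamma0 N)›
  classical
  refine ⟨s.image fun γ => evalParabolic N (Additive.ofMul γ), ?_⟩
  refine le_antisymm (Submodule.span_le.mpr ?_) ?_
  · intro v hv
    obtain ⟨γ, -, rfl⟩ := Finset.mem_image.mp hv
    exact ⟨_, rfl⟩
  · rintro v ⟨γ, rfl⟩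
    set V := Submodule.span ℤ (↑(s.image fun γ => evalParabolic N (Additive.ofMul γ)) : Set (P → ℂ))
    let K : Subgroup (Gamma0 N) :=
      { carrier := {δ | evalParabolic N (Additive.ofMul δ) ∈ V}
        one_mem' := by simp
        mul_mem' := fun {a b} ha hb => by
          simp only [Set.mem_ofPred_eq, ofMul_mul, map_add] at ha hb ⊢
          exact V.add_mem ha hb
        inv_mem' := fun {a} ha => by
          simp only [Set.mem_ofPred_eq, ofMul_inv, map_neg] at ha ⊢
          exact V.neg_mem ha }
    have hK : K = ⊤ := by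
      rw [eq_top_iff, ← hs, Subgroup.closure_le]
      intro δ hδ
      exact Submodule.subset_span (Finset.mem_image_of_mem _ hδ)
    exact (hK ▸ Subgroup.mem_top _ : Additive.toMul γ ∈ K)

instance moduleFinite_evalImage : Module.Finite ℤ (evalImage N) :=
  Module.Finite.iff_fg.mpr (evalImage_fg N)

instance moduleFree_evalImage : Module.Free ℤ (evalImage N) := inferInstance

/-- The rank of the lattice; equal to twice the genus. -/
def rank : ℕ := Module.finrank ℤ (evalImage N)

/-- Evaluation, with values in the lattice. -/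
def toImage : Additive (Gamma0 N) →+ evalImage N where
  toFun γ := ⟨evalParabolic N γ, γ, rfl⟩
  map_zero' := Subtype.ext (map_zero _)
  map_add' γ δ := Subtype.ext (map_add _ γ δ)

omit [NeZero N] in
lemma toImage_surjective : Function.Surjective (toImage N) := by
  rintro ⟨w, γ, rfl⟩
  exact ⟨γ, rfl⟩

lemma nonempty_latticeEquiv : Nonempty (evalImage N ≃+ (Fin (rank N) → ℤ)) :=
  ⟨(Module.finBasis ℤ (evalImage N)).equivFun.toAddEquiv⟩

/-- A chosen basis of the lattice. -/
def latticeEquiv : evalImage N ≃+ (Fin (rank N) → ℤ) := (nonempty_latticeEquiv N).some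

/-- Evaluation at one parabolic homomorphism, on the lattice. -/
def evalAt (φ : P) : evalImage N →+ ℂ where
  toFun w := (w : P → ℂ) φ
  map_zero' := rfl
  map_add' _ _ := rfl

/-- The universal good homomorphism `Γ₀(N) → ℤ^d`. -/
def proj : Additive (Gamma0 N) →+ (Fin (rank N) → ℤ) :=
  (latticeEquiv N).toAddMonoidHom.comp (toImage N)

theorem proj_surjective : Function.Surjective (proj N) := by
  intro v
  obtain ⟨w, rfl⟩ := (latticeEquiv N).surjective v
  obtain ⟨γ, rfl⟩ := toImage_surjective N w
  exact ⟨γ, rfl⟩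

omit [NeZero N] in
lemma parabolic_apply_eq_zero {φ : Additive (Gamma0 N) →+ ℂ} (hφ : φ ∈ P) {γ : Gamma0 N}
    (hγ : ((γ : SL(2, ℤ)) : Matrix (Fin 2) (Fin 2) ℤ).trace ^ 2 ≤ 4) :
    φ (Additive.ofMul γ) = 0 := by
  rw [mem_parabolicHoms_iff] at hφ
  set g : SL(2, ℤ) := (γ : SL(2, ℤ))
  set t := (g : Matrix (Fin 2) (Fin 2) ℤ).trace with ht
  have hCH : ∀ i j, (g * g : SL(2, ℤ)) i j
      = t * g i j - (1 : Matrix (Fin 2) (Fin 2) ℤ) i j := by
    have hd : g 0 0 * g 1 1 - g 0 1 * g 1 0 = 1 := by
      have := g.det_coe; rwa [Matrix.det_fin_two] at this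
    rw [ht, Matrix.trace_fin_two]
    intro i j
    rw [Matrix.SpecialLinearGroup.coe_mul, Matrix.mul_apply, Fin.sum_univ_two]
    fin_cases i <;> fin_cases j <;> simp <;>
      first | ring1 | linear_combination -hd
  have key : ∀ k : ℕ, k ≠ 0 →
      ((g ^ k : SL(2, ℤ)) : Matrix (Fin 2) (Fin 2) ℤ).trace ^ 2 = 4 →
      φ (Additive.ofMul γ) = 0 := by
    intro k hk htr
    have h := hφ (γ ^ k) (by rwa [SubmonoidClass.coe_pow])
    rw [ofMul_pow, map_nsmul, smul_eq_zero] at h
    exact h.resolve_left hk
  have ht2 : -2 ≤ t ∧ t ≤ 2 := ⟨by nlinarith, by nlinarith⟩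
  have hsq : ((g * g : SL(2, ℤ)) : Matrix (Fin 2) (Fin 2) ℤ).trace = t ^ 2 - 2 := by
    rw [Matrix.trace_fin_two, hCH, hCH, ht, Matrix.trace_fin_two]
    simp; ring
  have hcube : ((g * g * g : SL(2, ℤ)) : Matrix (Fin 2) (Fin 2) ℤ).trace = t ^ 3 - 3 * t := by
    rw [Matrix.SpecialLinearGroup.coe_mul, Matrix.trace_fin_two, Matrix.mul_apply,
      Matrix.mul_apply, Fin.sum_univ_two, Fin.sum_univ_two, hCH, hCH, hCH, hCH]
    simp only [Matrix.one_apply_eq, ne_eq, zero_ne_one, one_ne_zero, not_false_eq_true,
      Matrix.one_apply_ne]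
    have hd : g 0 0 * g 1 1 - g 0 1 * g 1 0 = 1 := by
      have := g.det_coe; rwa [Matrix.det_fin_two] at this
    rw [ht, Matrix.trace_fin_two]
    linear_combination (-2 * (g 0 0 + g 1 1)) * hd
  obtain ⟨h1, h2⟩ := ht2
  interval_cases h : t
  · exact hφ γ (by rw [← ht]; norm_num)
  · refine key 3 (by norm_num) ?_
    rw [show g ^ 3 = g * g * g by rw [pow_succ, sq], hcube]; norm_num
  · refine key 2 (by norm_num) ?_
    rw [show g ^ 2 = g * g from sq g, hsq]; norm_num
  · refine key 3 (by norm_num) ?_
    rw [show g ^ 3 = g * g * g by rw [pow_succ, sq], hcube]; norm_num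
  · exact hφ γ (by rw [← ht]; norm_num)

/-- `proj` kills parabolic and elliptic elements. -/
theorem proj_eq_zero {γ : Gamma0 N}
    (hγ : ((γ : SL(2, ℤ)) : Matrix (Fin 2) (Fin 2) ℤ).trace ^ 2 ≤ 4) :
    proj N (Additive.ofMul γ) = 0 := by
  have h : toImage N (Additive.ofMul γ) = 0 :=
    Subtype.ext (funext fun φ => parabolic_apply_eq_zero N φ.2 hγ)
  show latticeEquiv N (toImage N (Additive.ofMul γ)) = 0
  rw [h, map_zero]

/-- An element with projection the `i`-th basis vector. -/
def genElt (i : Fin (rank N)) : Additive (Gamma0 N) := (proj_surjective N (Pi.single i 1)).choose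

lemma proj_genElt (i : Fin (rank N)) : proj N (genElt N i) = Pi.single i 1 :=
  (proj_surjective N (Pi.single i 1)).choose_spec

/-- The coordinates of a parabolic homomorphism in the lattice basis. -/
def coords : P →ₗ[ℂ] (Fin (rank N) → ℂ) where
  toFun φ i := (φ : Additive (Gamma0 N) →+ ℂ) (genElt N i)
  map_add' _ _ := rfl
  map_smul' _ _ := rfl

theorem apply_eq_sum_coords (φ : P) (γ : Additive (Gamma0 N)) :
    (φ : Additive (Gamma0 N) →+ ℂ) γ = ∑ i, (proj N γ i : ℂ) * coords N φ i := by
  have h : toImage N γ = ∑ i, (proj N γ i) • toImage N (genElt N i) := by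
    apply (latticeEquiv N).injective
    rw [map_sum]
    simp only [map_zsmul]
    show proj N γ = ∑ i, proj N γ i • proj N (genElt N i)
    funext j
    simp [proj_genElt, Finset.sum_apply, Pi.single_apply]
  have h' := congrArg (evalAt N φ) h
  rw [map_sum] at h'
  simp only [map_zsmul, zsmul_eq_mul] at h'
  exact h'

theorem coords_injective : Function.Injective (coords N) := by
  intro φ ψ h
  refine Subtype.ext (AddMonoidHom.ext fun γ => ?_)
  rw [apply_eq_sum_coords, apply_eq_sum_coords, h]

instance finiteDimensional_parabolic : FiniteDimensional ℂ P :=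
  FiniteDimensional.of_injective (coords N) (coords_injective N)

theorem finrank_le_rank : Module.finrank ℂ P ≤ rank N :=
  (LinearMap.finrank_le_finrank_of_injective (coords_injective N)).trans
    (Module.finrank_fin_fun ℂ).le

/-- The good homomorphism with given coordinates. -/
def ofCoords (n : ℕ) : (Fin (rank N) → ZMod n) →+ goodHoms N (ZMod n) where
  toFun v := ⟨{ toFun := fun γ => ∑ i, (proj N γ i : ZMod n) * v i
                map_zero' := by simp
                map_add' := fun γ δ => by
                  simp only [map_add, Pi.add_apply, Int.cast_add, add_mul, Finset.sum_add_distrib] },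
    fun γ hγ => by simp [proj_eq_zero N hγ]⟩
  map_zero' := Subtype.ext (AddMonoidHom.ext fun γ => by simp)
  map_add' v w := Subtype.ext (AddMonoidHom.ext fun γ => by
    simp [mul_add, Finset.sum_add_distrib])

@[simp] lemma ofCoords_apply (n : ℕ) (v : Fin (rank N) → ZMod n) (γ : Additive (Gamma0 N)) :
    (ofCoords N n v : Additive (Gamma0 N) →+ ZMod n) γ = ∑ i, (proj N γ i : ZMod n) * v i := rfl

theorem ofCoords_injective (n : ℕ) : Function.Injective (ofCoords N n) := by
  intro v w h
  funext i
  obtain ⟨γ, hγ⟩ := proj_surjective N (Pi.single i 1)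
  have := DFunLike.congr_fun (congrArg Subtype.val h) γ
  simpa [hγ, Pi.single_apply, apply_ite (Int.cast (R := ZMod n))] using this

omit [NeZero N] in
lemma finite_hom_aux (hfg : Group.FG (Gamma0 N)) (A : Type) [AddCommGroup A] [Finite A] :
    Finite (Additive (Gamma0 N) →+ A) := by
  obtain ⟨s, hs⟩ := Group.fg_def.mp hfg
  refine Finite.of_injective
    (fun φ : Additive (Gamma0 N) →+ A => fun g : s => φ (Additive.ofMul g.1)) ?_
  intro φ ψ hφψ
  let K : Subgroup (Gamma0 N) :=
    { carrier := {g | φ (Additive.ofMul g) = ψ (Additive.ofMul g)}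
      one_mem' := by simp
      mul_mem' := fun {a b} ha hb => by
        simp only [Set.mem_ofPred_eq, ofMul_mul, map_add] at ha hb ⊢
        rw [ha, hb]
      inv_mem' := fun {a} ha => by
        simp only [Set.mem_ofPred_eq, ofMul_inv, map_neg] at ha ⊢
        rw [ha] }
  have hK : K = ⊤ := by
    rw [eq_top_iff, ← hs, Subgroup.closure_le]
    exact fun g hg => congrFun hφψ ⟨g, hg⟩
  exact AddMonoidHom.ext fun g => (hK ▸ Subgroup.mem_top _ : Additive.toMul g ∈ K)

lemma finite_hom (A : Type) [AddCommGroup A] [Finite A] : Finite (Additive (Gamma0 N) →+ A) :=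
  finite_hom_aux N (group_fg_Gamma0 N) A

/-- Hypothesis: the parabolic part of `H¹` has full dimension `2g`. -/
def ParabolicFull : Prop :=
  (Module.finrank ℂ P : ℚ) = 2 * ModularCurve.genusFormula N

variable {N} (hP : ParabolicFull N)
include hP

theorem rank_eq : rank N = Module.finrank ℂ P := by
  refine le_antisymm ?_ (finrank_le_rank N)
  have h := natCard_goodHoms_le N (ZMod 2) _ hP
  haveI := finite_hom N (ZMod 2)
  have h2 := (Nat.card_le_card_of_injective _ (ofCoords_injective N 2)).trans h
  simp only [Nat.card_fun, Nat.card_zmod, Nat.card_fin] at h2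
  exact (Nat.pow_le_pow_iff_right one_lt_two).mp h2

theorem rank_eq_genus : (rank N : ℚ) = 2 * ModularCurve.genusFormula N := by
  rw [rank_eq hP]; exact hP

theorem ofCoords_bijective (n : ℕ) [NeZero n] : Function.Bijective (ofCoords N n) := by
  haveI := finite_hom N (ZMod n)
  refine (ofCoords_injective N n).bijective_of_nat_card_le ?_
  rw [Nat.card_fun, Nat.card_fin, Nat.card_zmod]
  exact (natCard_goodHoms_le N (ZMod n) (rank N) (rank_eq_genus hP)).trans (by rw [Nat.card_zmod])

/-- Coordinates of good homomorphisms to `ℤ/n`. -/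
def coordsEquiv (n : ℕ) [NeZero n] : goodHoms N (ZMod n) ≃+ (Fin (rank N) → ZMod n) :=
  (AddEquiv.ofBijective (ofCoords N n) (ofCoords_bijective hP n)).symm

theorem coordsEquiv_spec (n : ℕ) [NeZero n] (φ : goodHoms N (ZMod n))
    (γ : Additive (Gamma0 N)) :
    (φ : Additive (Gamma0 N) →+ ZMod n) γ
      = ∑ i, (proj N γ i : ZMod n) * coordsEquiv hP n φ i := by
  conv_lhs => rw [← (coordsEquiv hP n).symm_apply_apply φ]
  rfl

/-- There are `n ^ rank N` good homomorphisms to `ℤ/n`. -/
theorem natCard_goodHoms (n : ℕ) [NeZero n] :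
    Nat.card (goodHoms N (ZMod n)) = n ^ rank N := by
  rw [Nat.card_congr (coordsEquiv hP n).toEquiv, Nat.card_fun, Nat.card_fin, Nat.card_zmod]

end Fermat.Agent.J0Torsion

end
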