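import Fermat.Agent.J0Torsion.Main
import Fermat.Agent.HeckeJ0.ParabolicFull

/-!
# `#J₀(N)[n] = n ^ (2g)`
-/

set_option autoImplicit false

noncomputable section

namespace Fermat.Agent.J0Torsion

variable (N : ℕ) [NeZero N]

/-- The parabolic part of `H¹` has dimension `2g`. -/
theorem parabolicFull : ParabolicFull N :=
  HeckeJ0.parabolicFull N

/-- `#J₀(N)[n] = n ^ (2g)`, with `rank N = 2g` (`rank_eq_genus`). -/
theorem natCard_torsion' (n : ℕ) [NeZero n] :
    Nat.card (AlgebraicCurve.Pic0.torsion (AlgebraicClosure ℚ)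
      (ModularCurve.modularFunctionFieldBar N) n) = n ^ rank N :=
  natCard_torsion (parabolicFull N)

end Fermat.Agent.J0Torsion

end
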