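import Fermat.Agent.J0Torsion.DvdOrd
import Fermat.Agent.J0Torsion.SerMem
import Fermat.Agent.J0Torsion.CoeffDescent
import Fermat.Agent.J0Torsion.GoodLattice
import Fermat.Agent.MWJ0.Aut
import Fermat.Agent.Reduction.Instances

/-!
# Classes of roots are algebraic

Classes of `n`-th roots are algebraic: every good multiplier of an element of the function field
over `ℂ` is the multiplier of an element of the function field over an algebraically closed
subfield.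

In each class modulo `n`-th powers with bounded cuspidal poles there is a unique normalised
element of largest order at `∞`; these form a finite set stable under `Aut(ℂ/ℚ)`.
-/

set_option autoImplicit false

noncomputable section

open CongruenceSubgroup AlgebraicCurve
open scoped MatrixGroups

namespace Fermat.Agent.J0Torsion

open X0Analytic (modFun FLevel toModFun exists_div ser jEl)
open scoped Fermat.Agent.Reduction

variable {N : ℕ} [NeZero N] {n : ℕ}

/-- Powers in the function field have trivial multiplier. -/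
theorem hasChar_pow {L : Type} [Field L] [Algebra ℚ L] (φ : L →+* ℂ) {g : ↥(FLevel L N)}
    (hg : g ≠ 0) :
    HasChar N n (ModularCurve.coeffMap φ ((g ^ n : ↥(FLevel L N)) : LaurentSeries L)) 1 := by
  obtain ⟨a, b, hb, hab⟩ := exists_div L N g
  rw [SubmonoidClass.coe_pow, map_pow]
  refine HasChar.of_pow (toModFun φ a) (toModFun φ b) (toModFun_ne_zero (num_ne_zero hg hb hab))
    (toModFun_ne_zero hb) ?_
  rw [X0Analytic.ser_toModFun, X0Analytic.ser_toModFun, ← map_mul]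
  exact congrArg _ (congrArg (fun z : ↥(FLevel L N) => (z : LaurentSeries L)) hab)

/-- A function over `ℂ` with trivial multiplier is an `n`-th power. -/
theorem exists_pow_eq_of_hasChar_one {f : ↥(FLevel ℂ N)}
    (h : HasChar N n (f : LaurentSeries ℂ) 1) : ∃ g : ↥(FLevel ℂ N), g ^ n = f := by
  obtain ⟨G, B, A, hG, hG0, hB, hA, hf⟩ := h
  have hGm : G ∈ modFun N := mem_modFun_of_twFun_one hG
  have hAG : A = (⟨G, hGm⟩ : ↥(modFun N)) ^ n := Subtype.ext hA
  have hB' : ser N B ≠ 0 := (map_ne_zero_iff _ X0Analytic.ser_injective).mpr hB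
  refine ⟨⟨ser N ⟨G, hGm⟩ / ser N B, div_mem (ser_mem_FLevel _) (ser_mem_FLevel _)⟩,
    Subtype.ext ?_⟩
  rw [SubmonoidClass.coe_pow, div_pow, div_eq_iff (pow_ne_zero n hB'), ← map_pow, ← map_pow, hf,
    hAG]

lemma finite_charPow (N : ℕ) [NeZero N] {n : ℕ} (hn : n ≠ 0) :
    {χ : Gamma0 N →* ℂ | χ ^ n = 1}.Finite := by
  obtain ⟨s, hs⟩ := Group.fg_def.mp (group_fg_Gamma0 N)
  have hroots : {z : ℂ | z ^ n = 1}.Finite :=
    (Polynomial.X ^ n - Polynomial.C 1 : Polynomial ℂ).finite_setOfPred_isRoot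
      (Polynomial.X_pow_sub_C_ne_zero (Nat.pos_of_ne_zero hn) 1) |>.subset fun z hz => by
        simpa [sub_eq_zero] using hz
  have := hroots.to_subtype
  let v : {χ : Gamma0 N →* ℂ | χ ^ n = 1} → (s → {z : ℂ | z ^ n = 1}) := fun χ g =>
    ⟨χ.1 g.1, by
      have h := congrArg (fun ψ : Gamma0 N →* ℂ => ψ g.1) χ.2
      simpa using h⟩
  have hv : Function.Injective v := fun χ χ' h => Subtype.ext
    (MonoidHom.eq_of_eqOn_dense hs fun g hg =>
      congrArg Subtype.val (congrFun h ⟨g, hg⟩))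
  exact Set.finite_coe_iff.mp (Finite.of_injective v hv)

/-- Order at `∞`. -/
def ordInf (f : ↥(FLevel ℂ N)) : ℤ := (f : LaurentSeries ℂ).order

/-- Normalised functions with orders divisible by `n` and bounded poles at the cusps only. -/
def Cand (n B : ℕ) (f : ↥(FLevel ℂ N)) : Prop :=
  f ≠ 0 ∧ (∀ P : Place ℂ ↥(FLevel ℂ N), (n : ℤ) ∣ P.ord f) ∧
    (∀ P : Place ℂ ↥(FLevel ℂ N),
      (0 ≤ P.ord (jEl ℂ N) → 0 ≤ P.ord f) ∧ -(B : ℤ) ≤ P.ord f) ∧
    (f : LaurentSeries ℂ).leadingCoeff = 1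

/-- Same class modulo `n`-th powers. -/
def Rel (n : ℕ) (f f' : ↥(FLevel ℂ N)) : Prop :=
  ∃ g : ↥(FLevel ℂ N), g ≠ 0 ∧ f' = g ^ n * f

omit [NeZero N] in
lemma Rel.trans {f f' f'' : ↥(FLevel ℂ N)} (h : Rel n f f') (h' : Rel n f' f'') :
    Rel n f f'' := by
  obtain ⟨g, hg, rfl⟩ := h
  obtain ⟨g', hg', rfl⟩ := h'
  exact ⟨g' * g, mul_ne_zero hg' hg, by rw [mul_pow, mul_assoc]⟩

/-- The normalised element of largest order at `∞` in its class. -/
def Best (n B : ℕ) (f : ↥(FLevel ℂ N)) : Prop :=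
  Cand n B f ∧ ∀ f' : ↥(FLevel ℂ N), Cand n B f' → Rel n f f' → ordInf f' ≤ ordInf f

omit [NeZero N] in
lemma ordInf_mul {f g : ↥(FLevel ℂ N)} (hf : f ≠ 0) (hg : g ≠ 0) :
    ordInf (f * g) = ordInf f + ordInf g := by
  rw [ordInf, MulMemClass.coe_mul]
  exact HahnSeries.order_mul (fun h => hf (Subtype.ext h)) (fun h => hg (Subtype.ext h))

omit [NeZero N] in
lemma ordInf_pow (g : ↥(FLevel ℂ N)) (k : ℕ) : ordInf (g ^ k) = k * ordInf g := by
  rw [ordInf, SubmonoidClass.coe_pow, HahnSeries.order_pow, nsmul_eq_mul]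
  rfl

lemma leadingCoeff_pow' (x : LaurentSeries ℂ) (k : ℕ) :
    (x ^ k).leadingCoeff = x.leadingCoeff ^ k := by
  induction k with
  | zero => rw [pow_zero, pow_zero, HahnSeries.leadingCoeff_one]
  | succ k ih => rw [pow_succ, pow_succ, HahnSeries.leadingCoeff_mul, ih]

lemma exists_ordInf_le (B : ℕ) :
    ∃ C : ℤ, ∀ f : ↥(FLevel ℂ N), Cand n B f → ordInf f ≤ C := by
  classical
  have := X0Analytic.isFunctionField (N := N) (RingHom.id ℂ)
  obtain ⟨pl, hpl⟩ := X0Analytic.exists_places_infty (N := N) (RingHom.id ℂ)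
  set s : Gamma0Count.CosetSpace N := ((1 : SL(2, ℤ)) : Gamma0Count.CosetSpace N)
  have he : Function.minimalPeriod (X0Analytic.cosetPerm ModularGroup.T) s = 1 :=
    Function.minimalPeriod_eq_one_iff_isFixedPt.mpr (by
      show ModularGroup.T • s = s
      rw [MulAction.Quotient.smul_coe, smul_eq_mul, mul_one, QuotientGroup.eq, mul_one]
      exact inv_mem X0Analytic.T_mem_Gamma0)
  set S := (FunctionFieldRR.finite_ord_neg (K := ℂ) (jEl ℂ N)).toFinset
  refine ⟨B * S.card, fun f hf => ?_⟩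
  set D := FunctionFieldRR.divisorOf (K := ℂ) f with hD
  set P := pl s
  have hord : ordInf f = P.ord f := by
    have h := hpl.2.2.1 s f
    rw [he, X0Analytic.embCusp_one, ModularCurve.coeffMap_id,
      X0Analytic.order_qExpand _ fun h => hf.1 (Subtype.ext h), Nat.cast_one, mul_one] at h
    exact mul_left_cancel₀ (Int.natCast_ne_zero.mpr (NeZero.ne N)) h
  have hdeg : D.sum (fun _ m => m) = 0 := by
    rw [← FunctionFieldRR.degree_eq_sum]; exact FunctionFieldRR.degree_divisorOf f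
  set T := insert P (D.support ∪ S)
  rw [Finsupp.sum_of_support_subset D (s := T)
    (fun w hw => Finset.mem_insert_of_mem (Finset.mem_union_left _ hw)) _ fun _ _ => rfl,
    ← Finset.add_sum_erase T _ (Finset.mem_insert_self P _)] at hdeg
  have hlb : ∀ w ∈ T.erase P, (if w ∈ S then -(B : ℤ) else 0) ≤ D w := fun w _ => by
    rw [hD, FunctionFieldRR.divisorOf_apply]
    split_ifs with hw
    · exact (hf.2.2.1 w).2
    · refine (hf.2.2.1 w).1 (not_lt.mp fun hlt => hw ?_)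
      rwa [Set.Finite.mem_toFinset]
  have hsum := Finset.sum_le_sum hlb
  rw [← Finset.sum_filter, Finset.sum_const, nsmul_eq_mul] at hsum
  have hcard : ((T.erase P).filter fun w => w ∈ S).card ≤ S.card :=
    Finset.card_le_card fun w hw => (Finset.mem_filter.mp hw).2
  have hB : (((T.erase P).filter fun w => w ∈ S).card : ℤ) * B ≤ S.card * B :=
    mul_le_mul_of_nonneg_right (Int.ofNat_le.mpr hcard) (Int.natCast_nonneg B)
  rw [hD, FunctionFieldRR.divisorOf_apply] at hdeg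
  rw [hord]
  rw [mul_comm (B : ℤ)]
  linarith

lemma exists_best {B : ℕ} {f : ↥(FLevel ℂ N)} (hf : Cand n B f) :
    ∃ f', Best n B f' ∧ Rel n f f' := by
  obtain ⟨C, hC⟩ := exists_ordInf_le (N := N) (n := n) B
  have hrefl : Rel n f f := ⟨1, one_ne_zero, by rw [one_pow, one_mul]⟩
  obtain ⟨k, ⟨f', hf', hrel, hk⟩, hmax⟩ :=
    Int.exists_greatest_of_bdd (P := fun k => ∃ f', Cand n B f' ∧ Rel n f f' ∧ ordInf f' = k)
      ⟨C, fun z ⟨f', hf', _, hz⟩ => hz ▸ hC f' hf'⟩ ⟨_, f, hf, hrefl, rfl⟩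
  exact ⟨f', ⟨hf', fun f'' hf'' hrel' => hk ▸ hmax _ ⟨f'', hf'', hrel.trans hrel', rfl⟩⟩, hrel⟩

omit [NeZero N] in
lemma eq_of_best {B : ℕ} (hn : n ≠ 0) {f₁ f₂ : ↥(FLevel ℂ N)} (h₁ : Best n B f₁)
    (h₂ : Best n B f₂) (hrel : Rel n f₂ f₁) : f₁ = f₂ := by
  obtain ⟨g, hg, hfg⟩ := hrel
  have hF₂ : f₂ ≠ 0 := h₂.1.1
  have hback : Rel n f₁ f₂ := ⟨g⁻¹, inv_ne_zero hg, by
    rw [hfg, ← mul_assoc, ← mul_pow, inv_mul_cancel₀ hg, one_pow, one_mul]⟩
  have hordeq : ordInf f₁ = ordInf f₂ :=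
    le_antisymm (h₂.2 f₁ h₁.1 ⟨g, hg, hfg⟩) (h₁.2 f₂ h₂.1 hback)
  have hordg : ordInf g = 0 := by
    rw [hfg, ordInf_mul (pow_ne_zero n hg) hF₂, ordInf_pow] at hordeq
    have : (n : ℤ) * ordInf g = 0 := by linarith
    exact (mul_eq_zero.mp this).resolve_left (Int.natCast_ne_zero.mpr hn)
  set c := (g : LaurentSeries ℂ).leadingCoeff with hcdef
  have hc : c ^ n = 1 := by
    have h := congrArg (fun z : ↥(FLevel ℂ N) => (z : LaurentSeries ℂ).leadingCoeff) hfg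
    simp only [MulMemClass.coe_mul, SubmonoidClass.coe_pow, HahnSeries.leadingCoeff_mul,
      leadingCoeff_pow', h₁.1.2.2.2, h₂.1.2.2.2, mul_one] at h
    exact h.symm
  have hc0 : c ≠ 0 := fun h0 => by rw [h0, zero_pow hn] at hc; exact zero_ne_one hc
  set g' : ↥(FLevel ℂ N) := algebraMap ℂ _ c⁻¹ * g with hg'def
  have hg'n : g' ^ n = g ^ n := by
    rw [hg'def, mul_pow, ← map_pow, inv_pow, hc, inv_one, map_one, one_mul]
  have hg'0 : g' ≠ 0 := fun h0 => hg (pow_eq_zero_iff hn |>.mp (by rw [← hg'n, h0, zero_pow hn]))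
  rw [← hg'n] at hfg
  by_cases h1 : g' = 1
  · rw [hfg, h1, one_pow, one_mul]
  exfalso
  set h := g' - 1 with hhdef
  have hh0 : h ≠ 0 := sub_ne_zero.mpr h1
  set d := (h : LaurentSeries ℂ).leadingCoeff with hddef
  have hd0 : d ≠ 0 := HahnSeries.leadingCoeff_ne_zero.mpr fun h0 => hh0 (Subtype.ext h0)
  set F : ↥(FLevel ℂ N) := (algebraMap ℂ _ d⁻¹ * h) ^ n * f₂ with hFdef
  have hdh : algebraMap ℂ ↥(FLevel ℂ N) d⁻¹ * h ≠ 0 :=
    mul_ne_zero ((map_ne_zero _).mpr (inv_ne_zero hd0)) hh0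
  have hcoe : ∀ e : ℂ, ((algebraMap ℂ ↥(FLevel ℂ N) e : ↥(FLevel ℂ N)) : LaurentSeries ℂ) =
      HahnSeries.single 0 e := fun e => ModularCurve.algebraMap_laurentSeries_eq_single ℂ e
  have hordc : ∀ e : ℂ, e ≠ 0 → ordInf (algebraMap ℂ ↥(FLevel ℂ N) e) = 0 := fun e he => by
    rw [ordInf, hcoe, HahnSeries.order_single he]
  have hg'ord : ordInf g' = 0 := by
    rw [hg'def, ordInf_mul ((map_ne_zero _).mpr (inv_ne_zero hc0)) hg,
      hordc _ (inv_ne_zero hc0), hordg, add_zero]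
  have hg'lead : (g' : LaurentSeries ℂ).leadingCoeff = 1 := by
    rw [hg'def, MulMemClass.coe_mul, HahnSeries.leadingCoeff_mul, hcoe,
      HahnSeries.leadingCoeff_of_single, ← hcdef, inv_mul_cancel₀ hc0]
  have hhpos : 0 < ordInf h := by
    have hne : (h : LaurentSeries ℂ) ≠ 0 := fun h0 => hh0 (Subtype.ext h0)
    by_contra hle
    push Not at hle
    refine mt HahnSeries.coeff_order_eq_zero.mp hne ?_
    have hcoeh : (h : LaurentSeries ℂ) = (g' : LaurentSeries ℂ) - 1 := by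
      rw [hhdef, AddSubgroupClass.coe_sub, OneMemClass.coe_one]
    rw [show (h : LaurentSeries ℂ).order = ordInf h from rfl, hcoeh, HahnSeries.coeff_sub,
      HahnSeries.coeff_one]
    rcases hle.lt_or_eq with hlt | heq
    · rw [HahnSeries.coeff_eq_zero_of_lt_order (show _ < ordInf g' by rw [hg'ord]; exact hlt),
        if_neg hlt.ne, sub_zero]
    · rw [heq, if_pos rfl, ← hg'ord, ← hg'lead, HahnSeries.leadingCoeff_eq]
      exact sub_self _
  have hFord : ∀ w : Place ℂ ↥(FLevel ℂ N), w.ord F = n * w.ord h + w.ord f₂ := fun w => by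
    rw [hFdef, w.ord_mul (pow_ne_zero n hdh) hF₂, FunctionFieldRR.ord_pow,
      w.ord_mul ((map_ne_zero _).mpr (inv_ne_zero hd0)) hh0, FunctionFieldRR.ord_algebraMap,
      zero_add]
  have hge : ∀ w : Place ℂ ↥(FLevel ℂ N), min (w.ord f₁) (w.ord f₂) ≤ w.ord F := fun w => by
    have hhw : min (w.ord g') 0 ≤ w.ord h := by
      rw [hhdef, sub_eq_add_neg]
      refine FunctionFieldRR.le_ord_add (P := w) (by rwa [← sub_eq_add_neg]) (min_le_left _ _) ?_
      rw [FunctionFieldRR.ord_neg, w.ord_one]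
      exact min_le_right _ _
    rw [hFord, hfg, w.ord_mul (pow_ne_zero n hg'0) hF₂, FunctionFieldRR.ord_pow]
    have hn' : (0 : ℤ) ≤ n := Int.natCast_nonneg n
    rcases min_le_iff.mp hhw with hh | hh
    · exact min_le_of_left_le (by nlinarith)
    · exact min_le_of_right_le (by nlinarith)
  have hFcand : Cand n B F := by
    refine ⟨mul_ne_zero (pow_ne_zero n hdh) hF₂, fun w => ?_, fun w => ⟨fun hj => ?_, ?_⟩, ?_⟩
    · rw [hFord]
      exact (dvd_mul_right _ _).add (h₂.1.2.1 w)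
    · exact (le_min ((h₁.1.2.2.1 w).1 hj) ((h₂.1.2.2.1 w).1 hj)).trans (hge w)
    · exact (le_min (h₁.1.2.2.1 w).2 (h₂.1.2.2.1 w).2).trans (hge w)
    · rw [hFdef, MulMemClass.coe_mul, SubmonoidClass.coe_pow, MulMemClass.coe_mul,
        HahnSeries.leadingCoeff_mul, leadingCoeff_pow', HahnSeries.leadingCoeff_mul, hcoe,
        HahnSeries.leadingCoeff_of_single, ← hddef, inv_mul_cancel₀ hd0, one_pow, one_mul,
        h₂.1.2.2.2]
  have hle := h₂.2 F hFcand ⟨_, hdh, hFdef⟩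
  rw [hFdef, ordInf_mul (pow_ne_zero n hdh) hF₂, ordInf_pow,
    ordInf_mul ((map_ne_zero _).mpr (inv_ne_zero hd0)) hh0, hordc _ (inv_ne_zero hd0),
    zero_add] at hle
  have : 0 < (n : ℤ) * ordInf h := mul_pos (Int.natCast_pos.mpr (Nat.pos_of_ne_zero hn)) hhpos
  linarith

lemma finite_best (hn : n ≠ 0) (B : ℕ) : {f : ↥(FLevel ℂ N) | Best n B f}.Finite := by
  have hex : ∀ f : {f : ↥(FLevel ℂ N) | Best n B f}, ∃ χ : Gamma0 N →* ℂ,
      HasChar N n ((f : ↥(FLevel ℂ N)) : LaurentSeries ℂ) χ := fun f => by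
    obtain ⟨χ, -, hχ⟩ := exists_char_of_dvd_ord (RingHom.id ℂ) hn f.2.1.1 f.2.1.2.1
    exact ⟨χ, by rwa [ModularCurve.coeffMap_id] at hχ⟩
  choose χ hχ using hex
  have := (finite_charPow N hn).to_subtype
  refine Set.finite_coe_iff.mp
    (Finite.of_injective (fun f => (⟨χ f, (hχ f).pow_eq_one⟩ : {χ : Gamma0 N →* ℂ | χ ^ n = 1}))
      fun f₁ f₂ h => Subtype.ext (eq_of_best hn f₁.2 f₂.2 ?_))
  have heq : χ f₁ = χ f₂ := congrArg Subtype.val h
  have hq := (hχ f₁).mul ((hχ f₂).inv hn)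
  rw [heq, ← pow_succ', Nat.sub_add_cancel (Nat.pos_of_ne_zero hn), (hχ f₂).pow_eq_one] at hq
  obtain ⟨g, hg⟩ := exists_pow_eq_of_hasChar_one
    (f := (f₁ : ↥(FLevel ℂ N)) * (f₂ : ↥(FLevel ℂ N))⁻¹)
    (by rw [MulMemClass.coe_mul]; exact hq)
  refine ⟨g, fun h0 => ?_, ?_⟩
  · rw [h0, zero_pow hn] at hg
    exact mul_ne_zero f₁.2.1.1 (inv_ne_zero f₂.2.1.1) hg.symm
  · rw [hg, inv_mul_cancel_right₀ f₂.2.1.1]

lemma order_coeffMap {R S : Type*} [Field R] [Field S] (f : R →+* S) (x : LaurentSeries R) :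
    (ModularCurve.coeffMap f x).order = x.order := by
  rcases eq_or_ne x 0 with rfl | hx
  · simp
  have hne : ModularCurve.coeffMap f x ≠ 0 :=
    (map_ne_zero_iff _ (X0Analytic.coeffMap_injective f.injective)).mpr hx
  refine le_antisymm (HahnSeries.order_le_of_coeff_ne_zero (by
    rw [ModularCurve.coeffMap_coeff]
    exact (map_ne_zero f).mpr (mt HahnSeries.coeff_order_eq_zero.mp hx))) ?_
  refine HahnSeries.order_le_of_coeff_ne_zero fun h0 => ?_
  refine mt HahnSeries.coeff_order_eq_zero.mp hne ?_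
  rw [ModularCurve.coeffMap_coeff, h0, map_zero]

variable (N) in
/-- An automorphism of `ℂ` on the coefficients. -/
def galAut (σ : ℂ ≃ₐ[ℚ] ℂ) : ↥(FLevel ℂ N) ≃+* ↥(FLevel ℂ N) :=
  ModularCurve.arithmeticRingAut (ModularCurve.modularFunctionFieldFull N) σ

omit [NeZero N] in
lemma galAut_jEl (σ : ℂ ≃ₐ[ℚ] ℂ) : galAut N σ (jEl ℂ N) = jEl ℂ N :=
  Subtype.ext (ModularCurve.coeffMap_coeffEmb σ _)

omit [NeZero N] in
lemma ord_galAut (σ : ℂ ≃ₐ[ℚ] ℂ) (P : Place ℂ ↥(FLevel ℂ N)) :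
    ∃ v : Place ℂ ↥(FLevel ℂ N), ∀ f, P.ord (galAut N σ f) = v.ord f := by
  refine ⟨(ModularCurve.arithmeticGalois (ModularCurve.modularFunctionFieldFull N) σ)⁻¹ • P,
    fun f => ?_⟩
  have h := AlgebraicCurve.SemilinearAut.ord_smul
    (ModularCurve.arithmeticGalois (ModularCurve.modularFunctionFieldFull N) σ)
    ((ModularCurve.arithmeticGalois (ModularCurve.modularFunctionFieldFull N) σ)⁻¹ • P) f
  rw [smul_inv_smul] at h
  exact h

omit [NeZero N] in
lemma cand_galAut (σ : ℂ ≃ₐ[ℚ] ℂ) {B : ℕ} {f : ↥(FLevel ℂ N)} (hf : Cand n B f) :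
    Cand n B (galAut N σ f) := by
  refine ⟨(map_ne_zero_iff _ (galAut N σ).injective).mpr hf.1, fun P => ?_, fun P => ?_, ?_⟩
  · obtain ⟨v, hv⟩ := ord_galAut σ P
    rw [hv]; exact hf.2.1 v
  · obtain ⟨v, hv⟩ := ord_galAut σ P
    refine ⟨fun hj => ?_, ?_⟩
    · rw [← galAut_jEl σ, hv] at hj
      rw [hv]; exact (hf.2.2.1 v).1 hj
    · rw [hv]; exact (hf.2.2.1 v).2
  · have h := hf.2.2.2
    rw [HahnSeries.leadingCoeff_eq] at h ⊢
    show ((ModularCurve.coeffMap (σ : ℂ →+* ℂ)) (f : LaurentSeries ℂ)).coeff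
      ((ModularCurve.coeffMap (σ : ℂ →+* ℂ)) (f : LaurentSeries ℂ)).order = 1
    rw [order_coeffMap, ModularCurve.coeffMap_coeff, h, map_one]

omit [NeZero N] in
lemma ordInf_galAut (σ : ℂ ≃ₐ[ℚ] ℂ) (f : ↥(FLevel ℂ N)) : ordInf (galAut N σ f) = ordInf f :=
  order_coeffMap _ _

omit [NeZero N] in
lemma best_galAut (σ : ℂ ≃ₐ[ℚ] ℂ) {B : ℕ} {f : ↥(FLevel ℂ N)} (hf : Best n B f) :
    Best n B (galAut N σ f) := by
  refine ⟨cand_galAut σ hf.1, fun f' hf' hrel => ?_⟩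
  obtain ⟨g, hg, rfl⟩ := hrel
  rw [ordInf_galAut, ← ordInf_galAut σ.symm]
  refine hf.2 _ (cand_galAut σ.symm hf') ⟨galAut N σ.symm g,
    (map_ne_zero_iff _ (galAut N σ.symm).injective).mpr hg, ?_⟩
  rw [map_mul, map_pow]
  congr 1
  exact (galAut N σ).symm_apply_apply f

lemma mem_range_of_isAlgebraic {L : Type} [Field L] [Algebra ℚ L] [IsAlgClosed L]
    (φ : L →+* ℂ) {x : ℂ} (hx : IsAlgebraic ℚ x) : x ∈ Set.range φ := by
  let φ' : L →ₐ[ℚ] ℂ := { φ with commutes' := fun r => RingHom.congr_fun (X0Analytic.phi_comp_algebraMap φ) r }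
  have hmem : x ∈ (minpoly ℚ x).rootSet ℂ :=
    Polynomial.mem_rootSet.mpr ⟨minpoly.ne_zero hx.isIntegral, minpoly.aeval ℚ x⟩
  rw [← Polynomial.Splits.image_rootSet
    (IsAlgClosed.splits ((minpoly ℚ x).map (algebraMap ℚ L))) φ'] at hmem
  obtain ⟨y, -, hy⟩ := hmem
  exact ⟨y, hy⟩

/-- Best functions have coefficients in `L`. -/
lemma best_mem_range {L : Type} [Field L] [Algebra ℚ L] [IsAlgClosed L] (φ : L →+* ℂ)
    (hn : n ≠ 0) {B : ℕ} {f : ↥(FLevel ℂ N)} (hf : Best n B f) :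
    ∃ x : ↥(FLevel L N), ModularCurve.coeffMap φ (x : LaurentSeries L) = f := by
  have hcoef : ∀ k : ℤ, (f : LaurentSeries ℂ).coeff k ∈ Set.range φ := fun k =>
    mem_range_of_isAlgebraic φ (MWJ0.isAlgebraic_of_finite_orbit
      (((finite_best hn B).image
        fun g : ↥(FLevel ℂ N) => (g : LaurentSeries ℂ).coeff k).subset (by
        rintro _ ⟨σ, rfl⟩
        exact ⟨galAut N σ f, best_galAut σ hf, rfl⟩)))
  choose c hc using hcoef
  let z : LaurentSeries L := ⟨c, (f : LaurentSeries ℂ).isPWO_support.mono fun k hk h0 => hk (by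
    have h := hc k
    rw [h0] at h
    exact (map_eq_zero φ).mp h)⟩
  have hz : ModularCurve.coeffMap φ z = f := HahnSeries.ext (funext hc)
  exact ⟨⟨z, mem_FLevel_of_coeffMap_mem φ (hz.symm ▸ f.2)⟩, hz⟩

/-- **Descent of classes**: every good multiplier over `ℂ` occurs over `L`. -/
theorem exists_hasChar_algebraic {L : Type} [Field L] [Algebra ℚ L] [IsAlgClosed L]
    (φ : L →+* ℂ) (hn : n ≠ 0) {χ : Gamma0 N →* ℂ}
    (hgood : ∀ γ : Gamma0 N,
      ((γ : SL(2, ℤ)) : Matrix (Fin 2) (Fin 2) ℤ).trace ^ 2 ≤ 4 → χ γ = 1)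
    {x : ↥(FLevel ℂ N)} (hx : HasChar N n (x : LaurentSeries ℂ) χ) :
    ∃ y : ↥(FLevel L N), HasChar N n (ModularCurve.coeffMap φ (y : LaurentSeries L)) χ := by
  classical
  have := X0Analytic.isFunctionField (N := N) (RingHom.id ℂ)
  have hx0 : x ≠ 0 := fun h0 => hx.ne_zero (by rw [h0]; rfl)
  have hdvd : ∀ P : Place ℂ ↥(FLevel ℂ N), (n : ℤ) ∣ P.ord x :=
    dvd_ord_of_hasChar (φ := RingHom.id ℂ) hgood (by rwa [ModularCurve.coeffMap_id])
  -- remove the finite poles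
  set S := ((FunctionFieldRR.finite_ord_neg (K := ℂ) x).toFinset.filter
    fun P => 0 ≤ P.ord (jEl ℂ N))
  have hres : ∀ P : Place ℂ ↥(FLevel ℂ N), 0 ≤ P.ord (jEl ℂ N) →
      ∃ c : ℂ, FunctionFieldRR.VanishesTo P 1 (jEl ℂ N - algebraMap ℂ _ c) := fun P hP =>
    FunctionFieldRR.exists_residue P ((FunctionFieldRR.ord_nonneg_iff P _).mp hP)
  choose! c hc using hres
  have hne : ∀ e : ℂ, jEl ℂ N - algebraMap ℂ ↥(FLevel ℂ N) e ≠ 0 := fun e h0 =>
    X0Analytic.transcendental_jEl (N := N) (RingHom.id ℂ)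
      (sub_eq_zero.mp h0 ▸ isAlgebraic_algebraMap e)
  set g : ↥(FLevel ℂ N) :=
    ∏ P ∈ S, (jEl ℂ N - algebraMap ℂ _ (c P)) ^ (P.ord x).natAbs with hgdef
  have hg0 : g ≠ 0 := Finset.prod_ne_zero_iff.mpr fun P _ => pow_ne_zero _ (hne _)
  have hgnonneg : ∀ w : Place ℂ ↥(FLevel ℂ N), 0 ≤ w.ord (jEl ℂ N) →
      0 ≤ w.ord g ∧ (w ∈ S → ((w.ord x).natAbs : ℤ) ≤ w.ord g) := by
    intro w hw
    have hterm : ∀ P, ∀ e : ℂ, 0 ≤ w.ord ((jEl ℂ N - algebraMap ℂ _ e) ^ P) := fun P e => by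
      rw [FunctionFieldRR.ord_pow]
      refine mul_nonneg (Int.natCast_nonneg P) ?_
      refine (FunctionFieldRR.ord_nonneg_iff w _).mpr (sub_mem
        ((FunctionFieldRR.ord_nonneg_iff w _).mp hw) (w.algebraMap_mem' e))
    have hprod : ∀ T : Finset (Place ℂ ↥(FLevel ℂ N)),
        w.ord (∏ P ∈ T, (jEl ℂ N - algebraMap ℂ _ (c P)) ^ (P.ord x).natAbs)
          = ∑ P ∈ T, w.ord ((jEl ℂ N - algebraMap ℂ _ (c P)) ^ (P.ord x).natAbs) := by
      intro T
      induction T using Finset.induction_on with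
      | empty => simp
      | insert P T hP ih =>
        rw [Finset.prod_insert hP, Finset.sum_insert hP, w.ord_mul (pow_ne_zero _ (hne _))
          (Finset.prod_ne_zero_iff.mpr fun P _ => pow_ne_zero _ (hne _)), ih]
    refine ⟨by rw [hgdef, hprod]; exact Finset.sum_nonneg fun P _ => hterm _ _, fun hwS => ?_⟩
    rw [hgdef, hprod]
    refine le_trans ?_ (Finset.single_le_sum (fun P _ => hterm _ _) hwS)
    rw [FunctionFieldRR.ord_pow]
    exact le_mul_of_one_le_right (Int.natCast_nonneg _) ((hc w hw).resolve_left (hne _))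
  set y₀ : ↥(FLevel ℂ N) := x * g ^ n with hy₀
  have hy₀0 : y₀ ≠ 0 := mul_ne_zero hx0 (pow_ne_zero n hg0)
  set a := (y₀ : LaurentSeries ℂ).leadingCoeff with hadef
  have ha : a ≠ 0 := HahnSeries.leadingCoeff_ne_zero.mpr fun h0 => hy₀0 (Subtype.ext h0)
  set y₁ : ↥(FLevel ℂ N) := algebraMap ℂ _ a⁻¹ * y₀ with hy₁
  have hy₁ord : ∀ w : Place ℂ ↥(FLevel ℂ N), w.ord y₁ = w.ord x + n * w.ord g := fun w => by
    rw [hy₁, w.ord_mul ((map_ne_zero _).mpr (inv_ne_zero ha)) hy₀0,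
      FunctionFieldRR.ord_algebraMap, zero_add, hy₀, w.ord_mul hx0 (pow_ne_zero n hg0),
      FunctionFieldRR.ord_pow]
  set Sn := (FunctionFieldRR.finite_ord_neg (K := ℂ) y₁).toFinset
  set B := ∑ P ∈ Sn, (P.ord y₁).natAbs with hB
  have hn1 : (1 : ℤ) ≤ n := Int.natCast_pos.mpr (Nat.pos_of_ne_zero hn)
  have hcand : Cand n B y₁ := by
    refine ⟨mul_ne_zero ((map_ne_zero _).mpr (inv_ne_zero ha)) hy₀0,
      fun w => by rw [hy₁ord]; exact (hdvd w).add (dvd_mul_right _ _),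
      fun w => ⟨fun hw => ?_, ?_⟩, ?_⟩
    · rw [hy₁ord]
      obtain ⟨h1, h2⟩ := hgnonneg w hw
      by_cases hwS : w ∈ S
      · have := h2 hwS
        have h3 : -((w.ord x).natAbs : ℤ) ≤ w.ord x := by omega
        nlinarith
      · have : 0 ≤ w.ord x := by
          by_contra hlt
          exact hwS (Finset.mem_filter.mpr
            ⟨(Set.Finite.mem_toFinset _).mpr (not_le.mp hlt), hw⟩)
        nlinarith
    · by_cases hlt : w.ord y₁ < 0
      · have hle : (w.ord y₁).natAbs ≤ B :=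
          Finset.single_le_sum (f := fun P : Place ℂ ↥(FLevel ℂ N) => (P.ord y₁).natAbs)
            (fun _ _ => Nat.zero_le _) ((Set.Finite.mem_toFinset _).mpr hlt)
        omega
      · omega
    · rw [hy₁, MulMemClass.coe_mul, HahnSeries.leadingCoeff_mul,
        show ((algebraMap ℂ ↥(FLevel ℂ N) a⁻¹ : ↥(FLevel ℂ N)) : LaurentSeries ℂ) =
          HahnSeries.single 0 a⁻¹ from ModularCurve.algebraMap_laurentSeries_eq_single ℂ _,
        HahnSeries.leadingCoeff_of_single, ← hadef, inv_mul_cancel₀ ha]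
  obtain ⟨f, hf, g', hg'0, rfl⟩ := exists_best hcand
  obtain ⟨z, hz⟩ := best_mem_range φ hn hf
  refine ⟨z, ?_⟩
  rw [hz, MulMemClass.coe_mul, hy₁, MulMemClass.coe_mul, hy₀, MulMemClass.coe_mul]
  have h1 := hasChar_pow (n := n) (RingHom.id ℂ) hg'0
  have h2 := hasChar_pow (n := n) (RingHom.id ℂ) hg0
  rw [ModularCurve.coeffMap_id] at h1 h2
  have h3 : HasChar N n
      ((algebraMap ℂ ↥(FLevel ℂ N) a⁻¹ : ↥(FLevel ℂ N)) : LaurentSeries ℂ) 1 := by
    rw [show ((algebraMap ℂ ↥(FLevel ℂ N) a⁻¹ : ↥(FLevel ℂ N)) : LaurentSeries ℂ) =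
      HahnSeries.single 0 a⁻¹ from ModularCurve.algebraMap_laurentSeries_eq_single ℂ _]
    exact HasChar.algebraMap (inv_ne_zero ha) hn
  have h4 := h1.mul (h3.mul (hx.mul h2))
  rw [one_mul, one_mul, mul_one] at h4
  exact h4

end Fermat.Agent.J0Torsion

end
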