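import Fermat.Agent.J0Torsion.LocalRoot
import Fermat.Agent.X0Analytic.Ramification
import Fermat.Agent.Reduction.Instances

/-!
# Orders of functions with an `n`-th root

If a function has an `n`-th root on `ℍ` with a multiplier killing elliptic and parabolic elements,
all its orders on the modular curve are divisible by `n`.
-/

set_option autoImplicit false

noncomputable section

open UpperHalfPlane CongruenceSubgroup AlgebraicCurve
open scoped Manifold MatrixGroups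

namespace Fermat.Agent.J0Torsion

open X0Analytic (modFun perMero Hol FLevel algGen algToField toModFun exists_div ser ser_injective
  qp qSer rot conj perToHol tayHom psL chart jEl embPoint embCusp FibreData cosetPerm det_pos_SL)
open Gamma0Count (CosetSpace)
open scoped Fermat.Agent.Reduction

variable {N : ℕ} [NeZero N]

/-- A series fixed by the rotation of order `m / i` has order divisible accordingly. -/
lemma dvd_mul_order_of_rot {m i : ℕ} {ζ : ℂ} (hζ : IsPrimitiveRoot ζ m) (hne : ζ ^ i ≠ 0)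
    {F : LaurentSeries ℂ} (hF : F ≠ 0) (h : rot (ζ ^ i) hne F = F) :
    (m : ℤ) ∣ (i : ℤ) * F.order := by
  have h1 := congrArg (fun z : LaurentSeries ℂ => z.coeff F.order) h
  simp only [X0Analytic.rot_coeff] at h1
  have h2 : ζ ^ ((i : ℤ) * F.order) = 1 := by
    rw [zpow_mul, zpow_natCast]
    exact mul_right_cancel₀ (mt HahnSeries.coeff_order_eq_zero.mp hF) (h1.trans (one_mul _).symm)
  exact (hζ.zpow_eq_one_iff_dvd _).mp h2

lemma dvd_ord_core {X TB TG : LaurentSeries ℂ} {m e n : ℕ} {ord : ℤ} (hm : m ≠ 0) (hX : X ≠ 0)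
    (hB0 : TB ≠ 0) (h : X * TB ^ n = TG ^ n) (hk : X.order * e = m * ord)
    (hG : (m : ℤ) ∣ e * TG.order) (hB : (m : ℤ) ∣ e * TB.order) : (n : ℤ) ∣ ord := by
  have h1 := congrArg HahnSeries.order h
  rw [HahnSeries.order_mul hX (pow_ne_zero n hB0), HahnSeries.order_pow, HahnSeries.order_pow,
    nsmul_eq_mul, nsmul_eq_mul] at h1
  obtain ⟨u, hu⟩ := hG
  obtain ⟨v, hv⟩ := hB
  refine ⟨u - v, mul_left_cancel₀ (Int.natCast_ne_zero.mpr hm) ?_⟩
  linear_combination (n : ℤ) * hu - (n : ℤ) * hv + (e : ℤ) * h1 - hk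

lemma trace_inv_conj (g σ : SL(2, ℤ)) :
    ((g⁻¹ * σ⁻¹ * g : SL(2, ℤ)) : Matrix (Fin 2) (Fin 2) ℤ).trace
      = (σ : Matrix (Fin 2) (Fin 2) ℤ).trace := by
  rw [Matrix.SpecialLinearGroup.coe_mul, Matrix.trace_mul_comm,
    ← Matrix.SpecialLinearGroup.coe_mul, mul_inv_cancel_left]
  simp [Matrix.SpecialLinearGroup.coe_inv, Matrix.adjugate_fin_two, Matrix.trace_fin_two]
  ring

variable {χ : Gamma0 N →* ℂ} {G : ℍ → ℂ}

section Good

variable (hgood : ∀ γ : Gamma0 N,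
  ((γ : SL(2, ℤ)) : Matrix (Fin 2) (Fin 2) ℤ).trace ^ 2 ≤ 4 → χ γ = 1)

include hgood

lemma twFun_inv_of_fix (hG : G ∈ twFun χ) {σ g : SL(2, ℤ)}
    (hfix : σ • (g : CosetSpace N) = g) (htr : (σ : Matrix (Fin 2) (Fin 2) ℤ).trace ^ 2 ≤ 4)
    (τ : ℍ) : G (g⁻¹ • σ⁻¹ • τ) = G (g⁻¹ • τ) := by
  rw [MulAction.Quotient.smul_coe, QuotientGroup.eq, smul_eq_mul] at hfix
  have hmem : g⁻¹ * σ⁻¹ * g ∈ Gamma0 N := by
    rwa [mul_inv_rev] at hfix
  have h1 := hG.2.1 ⟨_, hmem⟩ (g⁻¹ • τ)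
  rw [hgood ⟨_, hmem⟩ (by rw [trace_inv_conj]; exact htr), one_mul] at h1
  rw [← h1]
  show G (g⁻¹ • σ⁻¹ • τ) = G ((g⁻¹ * σ⁻¹ * g) • g⁻¹ • τ)
  rw [mul_smul (g⁻¹ * σ⁻¹), smul_inv_smul, mul_smul]

lemma twFun_comp_mem_perMero (hG : G ∈ twFun χ) (g : SL(2, ℤ)) :
    (fun τ : ℍ => G (g • τ)) ∈ perMero N := by
  refine ⟨hG.1.comp (mdifferentiable_smul (det_pos_SL g)), fun τ => ?_, hG.2.2 g⟩
  have hmem := EichlerShimura.T_pow_conj_mem (N := N) g
  have h1 := hG.2.1 ⟨_, hmem⟩ (g • τ)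
  rw [hgood ⟨_, hmem⟩ (by
    show ((g * ModularGroup.T ^ (N : ℤ) * g⁻¹ : SL(2, ℤ)) :
      Matrix (Fin 2) (Fin 2) ℤ).trace ^ 2 ≤ 4
    have h3 := trace_inv_conj g⁻¹ (ModularGroup.T ^ (N : ℤ))⁻¹
    rw [inv_inv, inv_inv] at h3
    rw [h3]
    simp only [Matrix.SpecialLinearGroup.coe_inv, ModularGroup.coe_T_zpow,
      Matrix.adjugate_fin_two, Matrix.trace_fin_two]
    norm_num), one_mul] at h1
  rw [mul_smul, mul_smul, inv_smul_smul, UpperHalfPlane.modular_T_zpow_smul] at h1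
  simpa using h1

end Good

variable {L : Type} [Field L] [Algebra ℚ L] {φ : L →+* ℂ} {n : ℕ}

lemma hasChar_data {x : ↥(FLevel L N)}
    (h : HasChar N n (ModularCurve.coeffMap φ (x : LaurentSeries L)) χ) :
    ∃ (G : ℍ → ℂ) (B A : ↥(modFun N)) (a b : ↥(algGen L N)), G ∈ twFun χ ∧ G ≠ 0 ∧ B ≠ 0 ∧
      b ≠ 0 ∧ (A : ℍ → ℂ) = G ^ n ∧ x * algToField L N b = algToField L N a ∧
      toModFun φ a * B ^ n = A * toModFun φ b := by
  obtain ⟨G, B, A, hG, hG0, hB, hA, hf⟩ := h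
  obtain ⟨a, b, hb, hab⟩ := exists_div L N x
  refine ⟨G, B, A, a, b, hG, hG0, hB, hb, hA, hab, ser_injective ?_⟩
  have h1 : (x : LaurentSeries L) * (b : LaurentSeries L) = a := by
    simpa using congrArg (fun z : ↥(FLevel L N) => (z : LaurentSeries L)) hab
  rw [map_mul, map_mul, X0Analytic.ser_toModFun, X0Analytic.ser_toModFun, ← h1, map_mul, ← hf]
  ring

variable (hgood : ∀ γ : Gamma0 N,
  ((γ : SL(2, ℤ)) : Matrix (Fin 2) (Fin 2) ℤ).trace ^ 2 ≤ 4 → χ γ = 1)

include hgood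

/-- Divisibility at the places over a finite value of `j`. -/
lemma dvd_ord_point {x : ↥(FLevel L N)} (hx : x ≠ 0)
    (h : HasChar N n (ModularCurve.coeffMap φ (x : LaurentSeries L)) χ)
    {τ : ℍ} {y : ↥(FLevel L N)} {m : ℕ} {σ : SL(2, ℤ)} {ζ : ℂ}
    {pl : CosetSpace N → Place L ↥(FLevel L N)} (hm : 0 < m) (hζ : IsPrimitiveRoot ζ m)
    (hrot : ∀ t ∈ Metric.ball (0 : ℂ) 1,
      (σ⁻¹ : SL(2, ℤ)) • ofComplex (chart τ t) = ofComplex (chart τ (ζ * t)))
    (hpl : FibreData (embPoint φ τ) y m (cosetPerm σ) pl)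
    (htr : ∀ s : CosetSpace N,
      ((σ ^ Function.minimalPeriod (cosetPerm σ) s : SL(2, ℤ)) :
        Matrix (Fin 2) (Fin 2) ℤ).trace ^ 2 ≤ 4)
    {P : Place L ↥(FLevel L N)} (hP : 0 < P.ord y) : (n : ℤ) ∣ P.ord x := by
  obtain ⟨s, rfl⟩ := hpl.2.2.2.2 P hP
  obtain ⟨G, B, A, a, b, hG, hG0, hB, hb, hA, hab, heq⟩ := hasChar_data h
  set e := Function.minimalPeriod (cosetPerm σ) s
  obtain ⟨g, rfl⟩ := QuotientGroup.mk_surjective s
  set s : CosetSpace N := (g : CosetSpace N)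
  have hfix : σ ^ e • s = s := by
    rw [← X0Analytic.cosetPerm_iterate]; exact Function.iterate_minimalPeriod
  have hζ0 : ζ ≠ 0 := hζ.ne_zero hm.ne'
  have hζn : ‖ζ‖ = 1 := hζ.norm'_eq_one hm.ne'
  have hrot' : ∀ i : ℕ, ∀ t ∈ Metric.ball (0 : ℂ) 1,
      (σ ^ i)⁻¹ • ofComplex (chart τ t) = ofComplex (chart τ (ζ ^ i * t)) := by
    intro i
    induction i with
    | zero => intro t _; simp
    | succ i ih =>
      intro t ht
      rw [pow_succ, mul_inv_rev, mul_smul, ih t ht, hrot _ (by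
        rw [Metric.mem_ball, dist_zero_right] at ht ⊢
        rw [norm_mul, norm_pow, hζn, one_pow, one_mul]; exact ht), pow_succ', mul_assoc]
  let ψ : ↥(modFun N) →+* Hol := (perToHol N).toRingHom.comp (conj s).toRingHom
  let Θ : Hol →+* LaurentSeries ℂ := psL.comp (tayHom τ)
  let G' : Hol := ⟨fun z => G (g⁻¹ • z), hG.1.comp (mdifferentiable_smul (det_pos_SL g⁻¹))⟩
  have hψA : ψ A = G' ^ n := Subtype.ext (funext fun z => by
    show (conj s A : ℍ → ℂ) z = _
    rw [X0Analytic.conj_mk_apply, hA]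
    rfl)
  have hemb : ∀ c, embPoint φ τ s (algToField L N c) = Θ (ψ (toModFun φ c)) :=
    fun c => X0Analytic.embPoint_algToField φ τ s c
  have hψinj : ∀ {F : ↥(modFun N)}, F ≠ 0 → Θ (ψ F) ≠ 0 := fun hF =>
    (map_ne_zero_iff _ (X0Analytic.pointHom_injective τ s)).mpr hF
  have hG'0 : G' ≠ 0 := fun h0 => hG0 (funext fun z => by
    have := congrFun (congrArg Subtype.val h0) (g • z)
    simpa [G'] using this)
  have hTb := hψinj (toModFun_ne_zero (φ := φ) hb)
  have key : embPoint φ τ s x * Θ (ψ B) ^ n = Θ G' ^ n := by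
    refine mul_right_cancel₀ hTb ?_
    have h1 := congrArg (fun z => Θ (ψ z)) heq
    simp only [map_mul, map_pow, hψA] at h1
    rw [← h1, ← hemb a, ← hab, map_mul, hemb b]
    ring
  have hinv : ∀ {F : Hol}, (∀ z : ℍ, (F : ℍ → ℂ) ((σ ^ e)⁻¹ • z) = (F : ℍ → ℂ) z) →
      rot (ζ ^ e) (pow_ne_zero e hζ0) (Θ F) = Θ F := fun {F} hF =>
    (X0Analytic.rot_psL_coeff (pow_ne_zero e hζ0) fun k =>
      X0Analytic.coeff_tayHom_of_rotate τ F F (ζ ^ e) (by
        filter_upwards [Metric.ball_mem_nhds (0 : ℂ) one_pos] with t ht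
        rw [← hrot' e t ht, hF]) k).symm
  refine dvd_ord_core hm.ne' ((map_ne_zero _).mpr hx) (hψinj hB) key (hpl.2.2.1 s x) ?_ ?_
  · have hΘ : Function.Injective Θ :=
      X0Analytic.psL_injective.comp (X0Analytic.tayHom_injective τ)
    refine dvd_mul_order_of_rot hζ _ ((map_ne_zero_iff Θ hΘ).mpr hG'0) (hinv fun z => ?_)
    exact twFun_inv_of_fix hgood hG hfix (htr _) z
  · refine dvd_mul_order_of_rot hζ _ (hψinj hB) (hinv fun z => ?_)
    show (conj s B : ℍ → ℂ) _ = (conj s B : ℍ → ℂ) z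
    rw [← X0Analytic.conj_smul_apply, hfix]

/-- Divisibility at the places over `j = ∞`. -/
lemma dvd_ord_infty [IsAlgClosed L] {x : ↥(FLevel L N)} (hx : x ≠ 0)
    (h : HasChar N n (ModularCurve.coeffMap φ (x : LaurentSeries L)) χ)
    {P : Place L ↥(FLevel L N)} (hP : P.ord (jEl L N) < 0) : (n : ℤ) ∣ P.ord x := by
  obtain ⟨pl, hpl⟩ := X0Analytic.exists_places_infty (N := N) φ
  obtain ⟨s, rfl⟩ := hpl.2.2.2.2 P (by rw [P.ord_inv]; omega)
  obtain ⟨G, B, A, a, b, hG, hG0, hB, hb, hA, hab, heq⟩ := hasChar_data h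
  set e := Function.minimalPeriod (cosetPerm (N := N) ModularGroup.T) s
  obtain ⟨g, rfl⟩ := QuotientGroup.mk_surjective s
  set s : CosetSpace N := (g : CosetSpace N)
  have hfix : ModularGroup.T ^ e • s = s := by
    rw [← X0Analytic.cosetPerm_iterate]; exact Function.iterate_minimalPeriod
  set ζ : ℂ := Complex.exp (-(2 * Real.pi * Complex.I) / N) with hζdef
  have hζ : IsPrimitiveRoot ζ N := by
    rw [hζdef, neg_div, Complex.exp_neg]
    exact (Complex.isPrimitiveRoot_exp N (NeZero.ne N)).inv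
  have hζ0 : ζ ≠ 0 := Complex.exp_ne_zero _
  let G' : ↥(perMero N) := ⟨fun z => G (g⁻¹ • z), twFun_comp_mem_perMero hgood hG g⁻¹⟩
  have hψA : conj s A = G' ^ n := Subtype.ext (funext fun z => by
    rw [X0Analytic.conj_mk_apply, hA]
    rfl)
  have hψinj : ∀ {F : ↥(modFun N)}, F ≠ 0 → qSer N (conj s F) ≠ 0 := fun hF =>
    (map_ne_zero_iff _ X0Analytic.qSer_injective).mpr
      ((map_ne_zero_iff _ (X0Analytic.conj_injective s)).mpr hF)
  have hG'0 : G' ≠ 0 := fun h0 => hG0 (funext fun z => by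
    have := congrFun (congrArg Subtype.val h0) (g • z)
    simpa [G'] using this)
  have hTb := hψinj (toModFun_ne_zero (φ := φ) hb)
  have key : embCusp φ s x * qSer N (conj s B) ^ n = qSer N G' ^ n := by
    refine mul_right_cancel₀ hTb ?_
    have h1 := congrArg (fun z => qSer N (conj s z)) heq
    simp only [map_mul, map_pow, hψA] at h1
    rw [← h1, ← X0Analytic.embCusp_algToField φ s a, ← hab, map_mul, X0Analytic.embCusp_algToField]
    ring
  have hinv : ∀ {F : ↥(perMero N)},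
      (∀ z : ℍ, (F : ℍ → ℂ) ((ModularGroup.T ^ e)⁻¹ • z) = (F : ℍ → ℂ) z) →
      rot (ζ ^ e) (pow_ne_zero e hζ0) (qSer N F) = qSer N F := by
    intro F hF
    obtain ⟨hm, hs⟩ := X0Analytic.qSer_subst (h' := N) (M := 1) F
      (fun τ : ℍ => (ModularGroup.T ^ e)⁻¹ • τ) (mdifferentiable_smul (det_pos_SL _))
      (ζ ^ e) (pow_ne_zero e hζ0) (fun τ => by
        have hT : (ModularGroup.T ^ e)⁻¹ • τ = ((-(e : ℤ) : ℤ) : ℝ) +ᵥ τ := by
          rw [← UpperHalfPlane.modular_T_zpow_smul, zpow_neg, zpow_natCast]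
        simp only [qp, Function.Periodic.qParam, pow_one, hT, UpperHalfPlane.coe_vadd, hζdef,
          ← Complex.exp_nat_mul, ← Complex.exp_add]
        congr 1
        push_cast
        field_simp)
    rw [ModularCurve.qExpand_one_apply] at hs
    rw [← hs]
    exact congrArg _ (Subtype.ext (funext fun z => hF z))
  refine dvd_ord_core (NeZero.ne N) ((map_ne_zero _).mpr hx) (hψinj hB) key (hpl.2.2.1 s x) ?_ ?_
  · refine dvd_mul_order_of_rot hζ _
      ((map_ne_zero_iff _ X0Analytic.qSer_injective).mpr hG'0) (hinv fun z => ?_)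
    refine twFun_inv_of_fix hgood hG hfix ?_ z
    rw [← zpow_natCast, ModularGroup.coe_T_zpow, Matrix.trace_fin_two]
    norm_num
  · refine dvd_mul_order_of_rot hζ _ (hψinj hB) (hinv fun z => ?_)
    rw [← X0Analytic.conj_smul_apply, hfix]

/-- **A good multiplier forces all orders to be divisible by `n`.** -/
theorem dvd_ord_of_hasChar [IsAlgClosed L] {x : ↥(FLevel L N)}
    (h : HasChar N n (ModularCurve.coeffMap φ (x : LaurentSeries L)) χ)
    (P : Place L ↥(FLevel L N)) : (n : ℤ) ∣ P.ord x := by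
  have hx : x ≠ 0 := fun h0 => h.ne_zero (by rw [h0]; simp)
  have := X0Analytic.isFunctionField (N := N) φ
  rcases lt_or_ge (P.ord (jEl L N)) 0 with hj | hj
  · exact dvd_ord_infty hgood hx h hj
  obtain ⟨c, hc⟩ := FunctionFieldRR.exists_residue P ((FunctionFieldRR.ord_nonneg_iff P _).mp hj)
  have hne : jEl L N - algebraMap L ↥(FLevel L N) c ≠ 0 := fun h0 =>
    X0Analytic.transcendental_jEl φ (sub_eq_zero.mp h0 ▸ isAlgebraic_algebraMap c)
  have hpos : 0 < P.ord (jEl L N - algebraMap L ↥(FLevel L N) c) := by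
    have := hc.resolve_left hne
    omega
  by_cases h0 : c = 0
  · subst h0
    obtain ⟨pl, hpl⟩ := X0Analytic.exists_places_zero (N := N) φ
    refine dvd_ord_point hgood hx h (by norm_num) X0Analytic.rhoPt_primitive
      (fun t ht => X0Analytic.chart_rot_rho ht) hpl (fun s => ?_) hpos
    rcases (Nat.dvd_prime Nat.prime_three).mp
      (X0Analytic.period_dvd X0Analytic.ST_pow_three s) with he | he <;> rw [he]
    · rw [pow_one, Matrix.SpecialLinearGroup.coe_mul, ModularGroup.coe_S, ModularGroup.coe_T]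
      simp
    · rw [X0Analytic.ST_pow_three]; simp
  by_cases h1 : c = 1728
  · subst h1
    obtain ⟨pl, hpl⟩ := X0Analytic.exists_places_1728 (N := N) φ
    refine dvd_ord_point hgood hx h (by norm_num) X0Analytic.I_primitive
      (fun t ht => X0Analytic.chart_rot_I ht) hpl (fun s => ?_) hpos
    rcases (Nat.dvd_prime Nat.prime_two).mp
      (X0Analytic.period_dvd X0Analytic.S_pow_two s) with he | he <;> rw [he]
    · simp [ModularGroup.coe_S]
    · rw [X0Analytic.S_pow_two]; simp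
  obtain ⟨τ, hτ⟩ := X0Analytic.exists_jFun_eq (φ c)
  obtain ⟨pl, hpl⟩ := X0Analytic.exists_places_generic (N := N) φ hτ h0 h1
  refine dvd_ord_point hgood hx h one_pos IsPrimitiveRoot.one
    (fun t _ => by rw [inv_one, one_smul, one_mul]) hpl (fun s => ?_) hpos
  rw [one_pow]
  simp

end Fermat.Agent.J0Torsion

end
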