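import Mathlib.NumberTheory.ModularForms.EisensteinSeries.MDifferentiable
import Mathlib.NumberTheory.ModularForms.EisensteinSeries.IsBoundedAtImInfty
import Mathlib.Analysis.Complex.LocallyUniformLimit
import Mathlib.NumberTheory.ModularForms.CongruenceSubgroups
import Mathlib.Analysis.Normed.Group.Tannery

/-!
# Eisenstein series twisted by a good character

The weight four Eisenstein series of `Γ₀(N)` at the cusp `∞` twisted by a character killing
the parabolic and elliptic elements. Its limit at `∞` is `2`.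
-/

set_option autoImplicit false

noncomputable section

open UpperHalfPlane CongruenceSubgroup ModularForm EisensteinSeries Matrix Filter Complex
open scoped MatrixGroups Topology

namespace Fermat.Agent.J0Torsion

variable {N : ℕ}

/-- A character of `Γ₀(N)` trivial on all elements with `trace ^ 2 ≤ 4`, of absolute value one. -/
structure GoodChar (N : ℕ) where
  /-- the character -/
  hom : Gamma0 N →* ℂ
  eq_one : ∀ γ : Gamma0 N, ((γ : SL(2, ℤ)) : Matrix (Fin 2) (Fin 2) ℤ).trace ^ 2 ≤ 4 → hom γ = 1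
  norm_eq : ∀ γ : Gamma0 N, ‖hom γ‖ = 1

namespace GoodChar

variable (χ : GoodChar N)

lemma hom_ne_zero (γ : Gamma0 N) : χ.hom γ ≠ 0 :=
  norm_ne_zero_iff.mp (by rw [χ.norm_eq]; exact one_ne_zero)

lemma eq_of_row_eq {γ δ : Gamma0 N} (h0 : (γ : SL(2, ℤ)) 1 0 = (δ : SL(2, ℤ)) 1 0)
    (h1 : (γ : SL(2, ℤ)) 1 1 = (δ : SL(2, ℤ)) 1 1) : χ.hom γ = χ.hom δ := by
  have h : χ.hom (γ * δ⁻¹) = 1 := by
    refine χ.eq_one _ (le_of_eq ?_)
    have hγ := (γ : SL(2, ℤ)).det_coe
    have hδ := (δ : SL(2, ℤ)).det_coe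
    rw [Matrix.det_fin_two] at hγ hδ
    rw [Subgroup.coe_mul, Subgroup.coe_inv, Matrix.SpecialLinearGroup.coe_mul,
      Matrix.SpecialLinearGroup.coe_inv, Matrix.adjugate_fin_two, Matrix.trace_fin_two]
    simp only [Matrix.mul_apply, Fin.sum_univ_two, Matrix.of_apply, Matrix.cons_val',
      Matrix.cons_val_zero, Matrix.cons_val_one, Matrix.cons_val_fin_one]
    rw [show (4 : ℤ) = 2 ^ 2 by norm_num]
    congr 1
    rw [h0, h1] at hγ ⊢
    linear_combination hγ + hδ
  rw [map_mul] at h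
  have h' : χ.hom δ⁻¹ * χ.hom δ = 1 := by rw [← map_mul, inv_mul_cancel, map_one]
  calc χ.hom γ = χ.hom γ * (χ.hom δ⁻¹ * χ.hom δ) := by rw [h', mul_one]
    _ = χ.hom δ := by rw [← mul_assoc, h, one_mul]

open scoped Classical in
/-- The coefficient attached to a bottom row. -/
def coeff (v : Fin 2 → ℤ) : ℂ :=
  if h : ∃ γ : Gamma0 N, (γ : SL(2, ℤ)) 1 = v then (χ.hom h.choose)⁻¹ else 0

lemma coeff_row (γ : Gamma0 N) : χ.coeff ((γ : SL(2, ℤ)) 1) = (χ.hom γ)⁻¹ := by
  have h : ∃ δ : Gamma0 N, (δ : SL(2, ℤ)) 1 = (γ : SL(2, ℤ)) 1 := ⟨γ, rfl⟩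
  rw [coeff, dif_pos h,
    χ.eq_of_row_eq (congrFun h.choose_spec 0) (congrFun h.choose_spec 1)]

lemma coeff_eq_zero {v : Fin 2 → ℤ} (h : ∀ γ : Gamma0 N, (γ : SL(2, ℤ)) 1 ≠ v) :
    χ.coeff v = 0 := by
  rw [coeff, dif_neg (not_exists.mpr h)]

lemma norm_coeff_le (v : Fin 2 → ℤ) : ‖χ.coeff v‖ ≤ 1 := by
  unfold coeff
  split_ifs
  · rw [norm_inv, χ.norm_eq, inv_one]
  · rw [norm_zero]; exact zero_le_one

lemma row_vecMul (γ δ : Gamma0 N) :
    ((γ * δ : Gamma0 N) : SL(2, ℤ)) 1 = (γ : SL(2, ℤ)) 1 ᵥ* (δ : SL(2, ℤ)) := by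
  funext i
  simp [Matrix.mul_apply, Matrix.vecMul, dotProduct]

lemma coeff_vecMul (v : Fin 2 → ℤ) (γ : Gamma0 N) :
    χ.coeff (v ᵥ* ((γ : SL(2, ℤ)) : Matrix (Fin 2) (Fin 2) ℤ)) = χ.coeff v * (χ.hom γ)⁻¹ := by
  by_cases h : ∃ δ : Gamma0 N, (δ : SL(2, ℤ)) 1 = v
  · obtain ⟨δ, rfl⟩ := h
    rw [← row_vecMul, coeff_row, coeff_row, map_mul, mul_inv]
  · push Not at h
    rw [χ.coeff_eq_zero h, zero_mul, χ.coeff_eq_zero]
    intro δ hδ
    refine h (δ * γ⁻¹) ?_
    rw [row_vecMul, hδ, Subgroup.coe_inv, Matrix.vecMul_vecMul,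
      ← Matrix.SpecialLinearGroup.coe_mul, mul_inv_cancel, Matrix.SpecialLinearGroup.coe_one,
      Matrix.vecMul_one]

/-- The twisted Eisenstein series. -/
def eis (z : ℍ) : ℂ := ∑' v : Fin 2 → ℤ, χ.coeff v * eisSummand 4 v z

lemma norm_term_le (v : Fin 2 → ℤ) (z : ℍ) :
    ‖χ.coeff v * eisSummand 4 v z‖ ≤ ‖eisSummand 4 v z‖ := by
  rw [norm_mul]
  exact mul_le_of_le_one_left (norm_nonneg _) (χ.norm_coeff_le v)

lemma eis_slash (γ : Gamma0 N) :
    χ.eis ∣[(4 : ℤ)] (γ : SL(2, ℤ)) = χ.hom γ • χ.eis := by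
  funext z
  rw [SL_slash_apply, zpow_neg, mul_inv_eq_iff_eq_mul₀ (zpow_ne_zero _ (denom_ne_zero _ z)),
    Pi.smul_apply, smul_eq_mul]
  simp only [eis, eisSummand_SL2_apply]
  have e : ∀ v : Fin 2 → ℤ,
      χ.coeff v * (denom (γ : SL(2, ℤ)) z ^ (4 : ℤ) *
          eisSummand 4 (v ᵥ* ((γ : SL(2, ℤ)) : Matrix (Fin 2) (Fin 2) ℤ)) z)
        = (χ.hom γ * denom (γ : SL(2, ℤ)) z ^ (4 : ℤ)) *
          (χ.coeff (v ᵥ* ((γ : SL(2, ℤ)) : Matrix (Fin 2) (Fin 2) ℤ)) *
          eisSummand 4 (v ᵥ* ((γ : SL(2, ℤ)) : Matrix (Fin 2) (Fin 2) ℤ)) z) := by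
    intro v
    rw [χ.coeff_vecMul]
    field_simp [χ.hom_ne_zero γ]
  rw [tsum_congr e, tsum_mul_left]
  let eqv : (Fin 2 → ℤ) ≃ (Fin 2 → ℤ) :=
    { toFun := fun v => v ᵥ* ((γ : SL(2, ℤ)) : Matrix (Fin 2) (Fin 2) ℤ)
      invFun := fun v => v ᵥ* (((γ : SL(2, ℤ))⁻¹ : SL(2, ℤ)) : Matrix (Fin 2) (Fin 2) ℤ)
      left_inv := fun v => by
        simp only [Matrix.vecMul_vecMul, ← Matrix.SpecialLinearGroup.coe_mul, mul_inv_cancel,
          Matrix.SpecialLinearGroup.coe_one, Matrix.vecMul_one]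
      right_inv := fun v => by
        simp only [Matrix.vecMul_vecMul, ← Matrix.SpecialLinearGroup.coe_mul, inv_mul_cancel,
          Matrix.SpecialLinearGroup.coe_one, Matrix.vecMul_one] }
  rw [show (∑' v : Fin 2 → ℤ, χ.coeff (v ᵥ* ((γ : SL(2, ℤ)) : Matrix (Fin 2) (Fin 2) ℤ)) *
      eisSummand 4 (v ᵥ* ((γ : SL(2, ℤ)) : Matrix (Fin 2) (Fin 2) ℤ)) z)
    = ∑' v, χ.coeff v * eisSummand 4 v z from
    eqv.tsum_eq (fun v => χ.coeff v * eisSummand 4 v z)]
  ring

lemma eis_bounded (g : SL(2, ℤ)) : IsBoundedAtImInfty (χ.eis ∣[(4 : ℤ)] g) := by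
  rw [UpperHalfPlane.isBoundedAtImInfty_iff]
  refine ⟨∑' v : Fin 2 → ℤ, r ⟨⟨1, 2⟩, two_pos⟩ ^ (-(4 : ℝ)) * ‖v‖ ^ (-(4 : ℝ)), 2, fun z hz => ?_⟩
  set m : ℤ := -⌊z.re⌋ with hm
  set z' : ℍ := (m : ℝ) +ᵥ z with hz'
  have hstrip : z' ∈ verticalStrip 1 2 := by
    refine ⟨?_, ?_⟩
    · rw [hz', UpperHalfPlane.vadd_re, hm, abs_le]
      push_cast
      constructor <;> linarith [Int.floor_le z.re, Int.lt_floor_add_one z.re]
    · rw [hz', UpperHalfPlane.vadd_im]; exact hz
  have hsum := (summable_one_div_norm_rpow (k := 4) (by norm_num)).mul_left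
    (r ⟨⟨1, 2⟩, two_pos⟩ ^ (-(4 : ℝ)))
  -- the full sum of absolute values is invariant under integral translations
  let sh : (Fin 2 → ℤ) ≃ (Fin 2 → ℤ) :=
    { toFun := fun v => ![v 0, v 1 + m * v 0]
      invFun := fun v => ![v 0, v 1 - m * v 0]
      left_inv := fun v => by funext i; fin_cases i <;> simp
      right_inv := fun v => by funext i; fin_cases i <;> simp }
  have hshift : ∀ v, eisSummand 4 (sh v) z = eisSummand 4 v z' := by
    intro v
    simp only [eisSummand, sh, Equiv.coe_fn_mk, Matrix.cons_val_zero, Matrix.cons_val_one,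
      Matrix.cons_val_fin_one, hz', UpperHalfPlane.coe_vadd]
    push_cast
    ring_nf
  calc ‖(χ.eis ∣[(4 : ℤ)] g) z‖
      ≤ ∑' v : Fin 2 → ℤ, ‖eisSummand 4 v z‖ := ?_
    _ = ∑' v : Fin 2 → ℤ, ‖eisSummand 4 v z'‖ := by
        rw [← sh.tsum_eq (fun v => ‖eisSummand 4 v z‖)]
        simp only [hshift]
    _ ≤ _ := by
        refine (summable_norm_eisSummand (by norm_num) z').tsum_le_tsum (fun v => ?_) hsum
        have h := summand_bound_of_mem_verticalStrip (k := 4) (by norm_num) v two_pos hstrip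
        simpa [eisSummand, norm_zpow, Real.rpow_neg, Real.rpow_natCast] using h
  have hval : (χ.eis ∣[(4 : ℤ)] g) z
      = ∑' v : Fin 2 → ℤ, χ.coeff v * eisSummand 4 (v ᵥ* (g : Matrix (Fin 2) (Fin 2) ℤ)) z := by
    rw [SL_slash_apply, eis, zpow_neg,
      mul_inv_eq_iff_eq_mul₀ (zpow_ne_zero _ (denom_ne_zero _ z))]
    simp only [eisSummand_SL2_apply]
    rw [← tsum_mul_right]
    exact tsum_congr fun v => by ring
  let eqv : (Fin 2 → ℤ) ≃ (Fin 2 → ℤ) :=
    { toFun := fun v => v ᵥ* (g : Matrix (Fin 2) (Fin 2) ℤ)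
      invFun := fun v => v ᵥ* ((g⁻¹ : SL(2, ℤ)) : Matrix (Fin 2) (Fin 2) ℤ)
      left_inv := fun v => by
        simp only [Matrix.vecMul_vecMul, ← Matrix.SpecialLinearGroup.coe_mul, mul_inv_cancel,
          Matrix.SpecialLinearGroup.coe_one, Matrix.vecMul_one]
      right_inv := fun v => by
        simp only [Matrix.vecMul_vecMul, ← Matrix.SpecialLinearGroup.coe_mul, inv_mul_cancel,
          Matrix.SpecialLinearGroup.coe_one, Matrix.vecMul_one] }
  have hs := summable_norm_eisSummand (k := 4) (by norm_num) z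
  rw [hval, ← eqv.tsum_eq (fun v => ‖eisSummand 4 v z‖)]
  refine tsum_of_norm_bounded (eqv.summable_iff.mpr hs).hasSum fun v => ?_
  rw [norm_mul]
  exact mul_le_of_le_one_left (norm_nonneg _) (χ.norm_coeff_le v)

lemma eis_differentiableOn :
    DifferentiableOn ℂ (↑ₕχ.eis) upperHalfPlaneSet := by
  intro z hz
  set V : Set ℂ := {w | |w.re| < |z.re| + 1 ∧ z.im / 2 < w.im}
  have hVo : IsOpen V :=
    (isOpen_lt (Complex.continuous_re.abs) continuous_const).inter
      (isOpen_lt continuous_const Complex.continuous_im)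
  have hzim : 0 < z.im := hz
  have hzV : z ∈ V := ⟨by linarith, by linarith⟩
  have hVsub : V ⊆ upperHalfPlaneSet := fun w hw => show 0 < w.im by linarith [hw.2]
  have hd : DifferentiableOn ℂ
      (fun w => ∑' v : Fin 2 → ℤ, χ.coeff v * (↑ₕeisSummand 4 v) w) V := by
    refine differentiableOn_tsum_of_summable_norm
      ((summable_one_div_norm_rpow (k := 4) (by norm_num)).mul_left
        (r ⟨⟨|z.re| + 1, z.im / 2⟩, by positivity⟩ ^ (-(4 : ℝ))))
      (fun v => ((eisSummand_extension_differentiableOn 4 v).mono hVsub).const_mul _) hVo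
      (fun v w hw => ?_)
    set w' : ℍ := ⟨w, hVsub hw⟩
    have hw' : w' ∈ verticalStrip (|z.re| + 1) (z.im / 2) := ⟨hw.1.le, hw.2.le⟩
    have h := summand_bound_of_mem_verticalStrip (k := 4) (by norm_num) v (by positivity) hw'
    show ‖χ.coeff v * eisSummand 4 v (ofComplex (w' : ℂ))‖ ≤ _
    rw [UpperHalfPlane.ofComplex_apply]
    refine (χ.norm_term_le v w').trans ?_
    simpa [eisSummand, norm_zpow, Real.rpow_neg, Real.rpow_natCast] using h
  have : DifferentiableAt ℂ (↑ₕχ.eis) z := by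
    refine (hd.differentiableAt (hVo.mem_nhds hzV)).congr_of_eventuallyEq ?_
    filter_upwards [hVo.mem_nhds hzV] with w hw
    rfl
  exact this.differentiableWithinAt

lemma coeff_zero_row {v : Fin 2 → ℤ} (hv : v 0 = 0) (hne : χ.coeff v ≠ 0) :
    (v 1 = 1 ∨ v 1 = -1) ∧ χ.coeff v = 1 := by
  have hex : ∃ γ : Gamma0 N, (γ : SL(2, ℤ)) 1 = v := by
    by_contra h
    push Not at h
    exact hne (χ.coeff_eq_zero h)
  obtain ⟨γ, rfl⟩ := hex
  have hd := (γ : SL(2, ℤ)).det_coe
  rw [Matrix.det_fin_two, hv, mul_zero, sub_zero] at hd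
  have h1 := Int.eq_one_or_neg_one_of_mul_eq_one hd
  have h1' : (γ : SL(2, ℤ)) 1 1 = 1 ∨ (γ : SL(2, ℤ)) 1 1 = -1 :=
    Int.eq_one_or_neg_one_of_mul_eq_one (by rw [mul_comm]; exact hd)
  refine ⟨h1', ?_⟩
  rw [coeff_row, χ.eq_one γ (le_of_eq ?_), inv_one]
  rw [Matrix.trace_fin_two]
  rcases h1 with h | h <;> rw [h] at hd ⊢ <;> nlinarith

lemma tendsto_eis :
    Tendsto (fun y : ℝ => χ.eis (ofComplex (y * Complex.I))) atTop (𝓝 2) := by
  classical
  have hlim : ∀ v : Fin 2 → ℤ, Tendsto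
      (fun y : ℝ => χ.coeff v * eisSummand 4 v (ofComplex (y * Complex.I))) atTop
      (𝓝 (if v = ![0, 1] ∨ v = ![0, -1] then (1 : ℂ) else 0)) := by
    intro v
    have hrw : ∀ᶠ y : ℝ in atTop, χ.coeff v * eisSummand 4 v (ofComplex (y * Complex.I))
        = χ.coeff v * ((v 0 : ℂ) * (y * Complex.I) + v 1) ^ (-(4 : ℤ)) := by
      filter_upwards [eventually_gt_atTop 0] with y hy
      rw [eisSummand, ofComplex_apply_of_im_pos (by simpa using hy)]
    refine Tendsto.congr' (EventuallyEq.symm hrw) ?_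
    by_cases hv : v 0 = 0
    · by_cases hne : χ.coeff v = 0
      · rw [if_neg, hne]
        · simp
        · intro hor
          have hone : χ.coeff v = 1 := by
            rcases hor with rfl | rfl
            · have h := χ.coeff_row 1
              rw [map_one, inv_one] at h
              rw [← h]; congr 1; funext i; fin_cases i <;> simp
            · have hmem : (-1 : SL(2, ℤ)) ∈ Gamma0 N := by rw [Gamma0_mem]; simp
              have h := χ.coeff_row ⟨-1, hmem⟩
              rw [χ.eq_one ⟨-1, hmem⟩ (by simp), inv_one] at h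
              rw [← h]; congr 1; funext i; fin_cases i <;> simp
          exact one_ne_zero (hone.symm.trans hne)
      · obtain ⟨h1, hc⟩ := χ.coeff_zero_row hv hne
        have : v = ![0, 1] ∨ v = ![0, -1] := by
          rcases h1 with h | h
          · left; funext i; fin_cases i <;> simp [hv, h]
          · right; funext i; fin_cases i <;> simp [hv, h]
        rw [if_pos this, hc]
        rcases h1 with h | h <;> simp [hv, h] <;> norm_num
    · rw [if_neg (by rintro (rfl | rfl) <;> simp at hv)]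
      rw [← mul_zero (χ.coeff v)]
      refine Tendsto.const_mul _ ?_
      have hinv : Tendsto (fun y : ℝ => ((v 0 : ℂ) * (y * Complex.I) + v 1)⁻¹) atTop (𝓝 0) := by
        refine tendsto_inv₀_cobounded.comp ?_
        rw [← tendsto_norm_atTop_iff_cobounded]
        refine tendsto_atTop_mono (fun y => ?_)
          ((tendsto_id.const_mul_atTop
            (show (0 : ℝ) < |(v 0 : ℝ)| by positivity)))
        refine le_trans ?_ (Complex.abs_im_le_norm _)
        simp only [id, Complex.add_im, Complex.mul_im, Complex.intCast_re, Complex.intCast_im,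
          Complex.ofReal_re, Complex.ofReal_im, Complex.I_re, Complex.I_im, mul_one, mul_zero,
          zero_mul, add_zero, abs_mul]
        exact mul_le_mul_of_nonneg_left (le_abs_self y) (abs_nonneg _)
      have := hinv.pow 4
      simpa [zpow_neg] using this
  have hsumlim : (∑' v : Fin 2 → ℤ, if v = ![0, 1] ∨ v = ![0, -1] then (1 : ℂ) else 0) = 2 := by
    have hne : (![0, 1] : Fin 2 → ℤ) ≠ ![0, -1] := fun h => by simpa using congrFun h 1
    rw [tsum_eq_sum (s := {![0, 1], ![0, -1]}) (fun v hv => by simp_all), Finset.sum_pair hne]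
    simp only [true_or, or_true, if_true]
    norm_num
  rw [← hsumlim]
  refine tendsto_tsum_of_dominated_convergence
    ((summable_one_div_norm_rpow (k := 4) (by norm_num)).mul_left
      (r ⟨⟨1, 1⟩, one_pos⟩ ^ (-(4 : ℝ)))) hlim ?_
  filter_upwards [eventually_ge_atTop 1] with y hy v
  have him : 0 < ((y : ℂ) * Complex.I).im := by simp; linarith
  have hmem : ofComplex ((y : ℂ) * Complex.I) ∈ verticalStrip 1 1 := by
    rw [ofComplex_apply_of_im_pos him]
    exact ⟨by simp [UpperHalfPlane.re], by simpa [UpperHalfPlane.im] using hy⟩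
  have h := summand_bound_of_mem_verticalStrip (k := 4) (by norm_num) v one_pos hmem
  refine (χ.norm_term_le v _).trans ?_
  simpa [eisSummand, norm_zpow, Real.rpow_neg, Real.rpow_natCast] using h

/-- The twisted Eisenstein series is not identically zero. -/
lemma exists_eis_ne_zero : ∃ z : ℍ, χ.eis z ≠ 0 := by
  by_contra h
  push Not at h
  have := χ.tendsto_eis
  simp only [h] at this
  exact two_ne_zero (tendsto_nhds_unique tendsto_const_nhds this).symm

end GoodChar

end Fermat.Agent.J0Torsion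

end
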