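import Fermat.Agent.J0Torsion.Root
import Fermat.Agent.X0Analytic.Degree
import Fermat.Agent.FunctionFieldRR.PlaceExists
import Fermat.Agent.Reduction.Instances

/-!
# Local roots

A function with all orders divisible by `n` is, at every valuation-like order function of the
function field, `n` times the order of some function.
-/

set_option autoImplicit false

noncomputable section

open UpperHalfPlane AlgebraicCurve

namespace Fermat.Agent.J0Torsion

section Generic

variable {K F : Type*} [Field K] [Field F] [Algebra K F]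

/-- An additive, ultrametric order function trivial on constants. -/
structure IsOrderFun (K : Type*) {F : Type*} [Field K] [Field F] [Algebra K F] (ν : F → ℤ) : Prop where
  map_mul : ∀ x y : F, x ≠ 0 → y ≠ 0 → ν (x * y) = ν x + ν y
  nonneg_add : ∀ x y : F, x ≠ 0 → y ≠ 0 → x + y ≠ 0 → 0 ≤ ν x → 0 ≤ ν y → 0 ≤ ν (x + y)
  map_const : ∀ c : K, c ≠ 0 → ν (algebraMap K F c) = 0

namespace IsOrderFun

variable {ν : F → ℤ} (hν : IsOrderFun K ν)
include hν

lemma map_one : ν 1 = 0 := by simpa using hν.map_const 1 one_ne_zero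

lemma map_inv {x : F} (hx : x ≠ 0) : ν x⁻¹ = -ν x := by
  have := hν.map_mul x x⁻¹ hx (inv_ne_zero hx)
  rw [mul_inv_cancel₀ hx, hν.map_one] at this
  omega

lemma map_neg {x : F} (hx : x ≠ 0) : ν (-x) = ν x := by
  have h := hν.map_mul (algebraMap K F (-1)) x (by simp) hx
  rw [hν.map_const _ (by simp)] at h
  simpa using h

lemma map_pow {x : F} (hx : x ≠ 0) (i : ℕ) : ν (x ^ i) = i * ν x := by
  induction i with
  | zero => simpa using hν.map_one
  | succ i ih => rw [pow_succ, hν.map_mul _ _ (pow_ne_zero i hx) hx, ih]; push_cast; ring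

lemma map_zpow {x : F} (hx : x ≠ 0) (i : ℤ) : ν (x ^ i) = i * ν x := by
  obtain ⟨k, rfl | rfl⟩ := Int.eq_nat_or_neg i
  · rw [zpow_natCast, hν.map_pow hx]
  · rw [zpow_neg, zpow_natCast, hν.map_inv (pow_ne_zero k hx), hν.map_pow hx]; ring

/-- The ring of elements of nonnegative order. -/
def ring : ValuationSubring F where
  carrier := {x | x = 0 ∨ 0 ≤ ν x}
  zero_mem' := Or.inl rfl
  one_mem' := Or.inr hν.map_one.ge
  mul_mem' := fun {x y} hx hy => by
    rcases eq_or_ne x 0 with rfl | hx0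
    · exact Or.inl (zero_mul _)
    rcases eq_or_ne y 0 with rfl | hy0
    · exact Or.inl (mul_zero _)
    refine Or.inr ?_
    rw [hν.map_mul x y hx0 hy0]
    exact add_nonneg (hx.resolve_left hx0) (hy.resolve_left hy0)
  add_mem' := fun {x y} hx hy => by
    rcases eq_or_ne x 0 with rfl | hx0
    · simpa using hy
    rcases eq_or_ne y 0 with rfl | hy0
    · simpa using hx
    rcases eq_or_ne (x + y) 0 with h | h
    · exact Or.inl h
    exact Or.inr (hν.nonneg_add x y hx0 hy0 h (hx.resolve_left hx0) (hy.resolve_left hy0))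
  neg_mem' := fun {x} hx => by
    rcases eq_or_ne x 0 with rfl | hx0
    · exact Or.inl neg_zero
    refine Or.inr ?_
    rw [hν.map_neg hx0]
    exact hx.resolve_left hx0
  mem_or_inv_mem' := fun x => by
    rcases eq_or_ne x 0 with rfl | hx0
    · exact Or.inl (Or.inl rfl)
    rcases le_total 0 (ν x) with h | h
    · exact Or.inl (Or.inr h)
    · exact Or.inr (Or.inr (by rw [hν.map_inv hx0]; omega))

lemma mem_ring {x : F} (hx : x ≠ 0) : x ∈ hν.ring ↔ 0 ≤ ν x :=
  ⟨fun h => h.resolve_left hx, Or.inr⟩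

/-- **Local roots**: if `n` divides all orders of `f`, then `ν f = n * ν g` for some `g`. -/
theorem exists_eq_mul [IsAlgClosed K] [FunctionFieldRR.IsFunctionField K F] {n : ℕ} {f : F}
    (hf : f ≠ 0) (hdvd : ∀ P : Place K F, (n : ℤ) ∣ P.ord f) :
    ∃ g : F, g ≠ 0 ∧ ν f = n * ν g := by
  by_cases htop : hν.ring = ⊤
  · refine ⟨1, one_ne_zero, ?_⟩
    have h1 := (hν.mem_ring hf).mp (htop ▸ ValuationSubring.mem_top f)
    have h2 := (hν.mem_ring (inv_ne_zero hf)).mp (htop ▸ ValuationSubring.mem_top f⁻¹)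
    rw [hν.map_inv hf] at h2
    rw [hν.map_one, mul_zero]
    omega
  set P : Place K F := FunctionFieldRR.placeOfValuationSubring hν.ring
    (fun a => by
      rcases eq_or_ne a 0 with rfl | ha
      · exact Or.inl (_root_.map_zero _)
      · exact Or.inr (hν.map_const a ha).ge) htop
  obtain ⟨t, ht0, ht⟩ := FunctionFieldRR.exists_ord_eq_one P
  obtain ⟨j, hj⟩ := hdvd P
  have htj : t ^ j ≠ 0 := zpow_ne_zero j ht0
  refine ⟨t ^ j, htj, ?_⟩
  set e := f / (t ^ j) ^ n with he
  have hpn : (t ^ j) ^ n ≠ 0 := pow_ne_zero n htj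
  have he0 : e ≠ 0 := div_ne_zero hf hpn
  have hPe : P.ord e = 0 := by
    rw [he, FunctionFieldRR.ord_div P hf hpn, FunctionFieldRR.ord_pow, P.ord_zpow, ht, hj]; ring
  have h1 : 0 ≤ ν e := (hν.mem_ring he0).mp ((FunctionFieldRR.ord_nonneg_iff P e).mp hPe.ge)
  have h2 : 0 ≤ ν e⁻¹ := (hν.mem_ring (inv_ne_zero he0)).mp
    ((FunctionFieldRR.ord_nonneg_iff P e⁻¹).mp (by rw [P.ord_inv, hPe]; simp))
  rw [hν.map_inv he0] at h2
  have hfe : f = e * (t ^ j) ^ n := by rw [he, div_mul_cancel₀ _ hpn]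
  conv_lhs => rw [hfe]
  rw [hν.map_mul _ _ he0 hpn, hν.map_pow htj]
  omega

end IsOrderFun

end Generic

open X0Analytic (modFun FLevel algGen algToField toModFun exists_div ser qSer compSL)
open scoped Fermat.Agent.Reduction

variable {N : ℕ} [NeZero N] {L : Type} [Field L] [Algebra ℚ L] (φ : L →+* ℂ)

theorem isFunctionField_FLevel [IsAlgClosed L] (φ : L →+* ℂ) :
    FunctionFieldRR.IsFunctionField L ↥(FLevel L N) :=
  haveI := X0Analytic.finiteDimensional_jField (N := N) φ
  FunctionFieldRR.IsFunctionField.of_finiteDimensional (X0Analytic.jEl L N)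
    (X0Analytic.transcendental_jEl φ)

/-- The order of an element of the function field defined through a representative. -/
def ordRep (o : ↥(modFun N) → ℤ) (x : ↥(FLevel L N)) : ℤ :=
  o (toModFun φ (exists_div L N x).choose) - o (toModFun φ (exists_div L N x).choose_spec.choose)

variable {φ}

lemma toModFun_ne_zero {a : ↥(algGen L N)} (ha : a ≠ 0) : toModFun φ a ≠ 0 :=
  (map_ne_zero_iff _ (X0Analytic.toModFun_injective φ)).mpr ha

omit [NeZero N] in
lemma num_ne_zero {x : ↥(FLevel L N)} (hx : x ≠ 0) {a b : ↥(algGen L N)} (hb : b ≠ 0)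
    (h : x * algToField L N b = algToField L N a) : a ≠ 0 := fun ha => by
  rw [ha, map_zero, mul_eq_zero] at h
  exact h.elim hx fun h => hb (X0Analytic.algToField_injective L N (h.trans (map_zero _).symm))

variable {o : ↥(modFun N) → ℤ}

lemma ordRep_eq (hmul : ∀ a b, a ≠ 0 → b ≠ 0 → o (a * b) = o a + o b) {x : ↥(FLevel L N)}
    (hx : x ≠ 0) {a b : ↥(algGen L N)} (hb : b ≠ 0) (h : x * algToField L N b = algToField L N a) :
    ordRep φ o x = o (toModFun φ a) - o (toModFun φ b) := by
  have key : ∀ a' b' : ↥(algGen L N), b' ≠ 0 → x * algToField L N b' = algToField L N a' →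
      o (toModFun φ a') - o (toModFun φ b') = o (toModFun φ a) - o (toModFun φ b) := by
    intro a' b' hb' h'
    have hcross : a' * b = a * b' := X0Analytic.algToField_injective L N (by
      rw [map_mul, map_mul, ← h, ← h']; ring)
    have := congrArg (fun z => o (toModFun φ z)) hcross
    simp only [map_mul] at this
    rw [hmul _ _ (toModFun_ne_zero (num_ne_zero hx hb' h')) (toModFun_ne_zero hb),
      hmul _ _ (toModFun_ne_zero (num_ne_zero hx hb h)) (toModFun_ne_zero hb')] at this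
    omega
  obtain ⟨hb', h'⟩ := (exists_div L N x).choose_spec.choose_spec
  exact key _ _ hb' h'

lemma isOrderFun_ordRep (hmul : ∀ a b, a ≠ 0 → b ≠ 0 → o (a * b) = o a + o b)
    (hadd : ∀ a b, a ≠ 0 → b ≠ 0 → a + b ≠ 0 → min (o a) (o b) ≤ o (a + b))
    (hconst : ∀ c : ℂ, c ≠ 0 → o (algebraMap ℂ _ c) = 0) :
    IsOrderFun L (ordRep φ o (L := L) (N := N)) where
  map_mul x y hx hy := by
    obtain ⟨a, b, hb, h⟩ := exists_div L N x
    obtain ⟨a', b', hb', h'⟩ := exists_div L N y
    rw [ordRep_eq hmul (mul_ne_zero hx hy) (mul_ne_zero hb hb') (a := a * a')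
      (by rw [map_mul, map_mul, ← h, ← h']; ring), ordRep_eq hmul hx hb h, ordRep_eq hmul hy hb' h',
      map_mul, map_mul, hmul _ _ (toModFun_ne_zero (num_ne_zero hx hb h))
        (toModFun_ne_zero (num_ne_zero hy hb' h')),
      hmul _ _ (toModFun_ne_zero hb) (toModFun_ne_zero hb')]
    ring
  nonneg_add x y hx hy hxy h0x h0y := by
    obtain ⟨a, b, hb, h⟩ := exists_div L N x
    obtain ⟨a', b', hb', h'⟩ := exists_div L N y
    have hrep : (x + y) * algToField L N (b * b') = algToField L N (a * b' + a' * b) := by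
      rw [map_add, map_mul, map_mul, map_mul, ← h, ← h']; ring
    have hA := toModFun_ne_zero (φ := φ) (num_ne_zero hx hb h)
    have hA' := toModFun_ne_zero (φ := φ) (num_ne_zero hy hb' h')
    have hB := toModFun_ne_zero (φ := φ) hb
    have hB' := toModFun_ne_zero (φ := φ) hb'
    have hS := toModFun_ne_zero (φ := φ) (num_ne_zero hxy (mul_ne_zero hb hb') hrep)
    rw [map_add, map_mul, map_mul] at hS
    have key := hadd _ _ (modFun_mul_ne_zero hA hB') (modFun_mul_ne_zero hA' hB) hS
    rw [ordRep_eq hmul hxy (mul_ne_zero hb hb') hrep, map_add, map_mul, map_mul, map_mul,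
      hmul _ _ hB hB']
    rw [hmul _ _ hA hB', hmul _ _ hA' hB] at key
    rw [ordRep_eq hmul hx hb h] at h0x
    rw [ordRep_eq hmul hy hb' h'] at h0y
    omega
  map_const c hc := by
    rw [ordRep_eq hmul (by simpa using hc) one_ne_zero (a := algebraMap L _ c)
      (by rw [map_one, mul_one, AlgHom.commutes]), X0Analytic.toModFun_algebraMap, map_one,
      hconst _ ((map_ne_zero φ).mpr hc)]
    have h1 := hmul 1 1 (fun h => one_ne_zero (congrFun (congrArg Subtype.val h) UpperHalfPlane.I))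
      (fun h => one_ne_zero (congrFun (congrArg Subtype.val h) UpperHalfPlane.I))
    rw [mul_one] at h1
    omega

lemma ordH_add_le {a b : ↥(modFun N)} (ha : a ≠ 0) (hb : b ≠ 0) (hab : a + b ≠ 0) (τ : ℍ) :
    min (ordH a τ : ℤ) (ordH b τ) ≤ ordH (a + b : ↥(modFun N)) τ := by
  have h1 := analyticOrderAt_ne_top_of_ne_zero a.2.1 (coe_ne_zero ha) τ
  have h2 := analyticOrderAt_ne_top_of_ne_zero b.2.1 (coe_ne_zero hb) τ
  have h3 := analyticOrderAt_ne_top_of_ne_zero (a + b).2.1 (coe_ne_zero hab) τ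
  have h : min (analyticOrderAt (↑ₕ(a : ℍ → ℂ)) (τ : ℂ)) (analyticOrderAt (↑ₕ(b : ℍ → ℂ)) (τ : ℂ))
      ≤ analyticOrderAt (↑ₕ((a + b : ↥(modFun N)) : ℍ → ℂ)) (τ : ℂ) := le_analyticOrderAt_add
  rw [← Nat.cast_analyticOrderNatAt h1, ← Nat.cast_analyticOrderNatAt h2,
    ← Nat.cast_analyticOrderNatAt h3] at h
  have h' : min (ordH a τ) (ordH b τ) ≤ ordH (a + b : ↥(modFun N)) τ := by
    unfold ordH
    rcases min_le_iff.mp h with h | h <;> rw [ENat.natCast_le_natCast] at h <;>
      [exact (min_le_left _ _).trans h; exact (min_le_right _ _).trans h]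
  exact_mod_cast h'

lemma ordC_add_le {a b : ↥(modFun N)} (hab : a + b ≠ 0) (g : Matrix.SpecialLinearGroup (Fin 2) ℤ) :
    min (ordC g a) (ordC g b) ≤ ordC g (a + b) := by
  have hne := qSer_compSL_ne_zero g hab
  rw [map_add, map_add] at hne
  rw [ordC, ordC, ordC, map_add, map_add]
  exact HahnSeries.min_order_le_order_add hne

/-- The hypothesis of the monodromy lemma, from divisibility of all orders. -/
theorem locDiv_of_dvd_ord [IsAlgClosed L] {n : ℕ} {x : ↥(FLevel L N)} (hx : x ≠ 0)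
    (hdvd : ∀ P : Place L ↥(FLevel L N), (n : ℤ) ∣ P.ord x) {a b : ↥(algGen L N)} (hb : b ≠ 0)
    (h : x * algToField L N b = algToField L N a) :
    LocDiv n (toModFun φ a) (toModFun φ b) := by
  have := isFunctionField_FLevel (N := N) φ
  have hc1 : ∀ c : ℂ, c ≠ 0 → (algebraMap ℂ ↥(modFun N) c) ≠ 0 := fun c hc h =>
    hc (congrFun (congrArg Subtype.val h) UpperHalfPlane.I)
  refine ⟨fun τ => ?_, fun g => ?_⟩
  · let o : ↥(modFun N) → ℤ := fun u => ordH u τ
    have hmul : ∀ u v, u ≠ 0 → v ≠ 0 → o (u * v) = o u + o v := fun u v hu hv => by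
      simp only [o]
      rw [MulMemClass.coe_mul, ordH_mul u.2.1 v.2.1 (coe_ne_zero hu) (coe_ne_zero hv)]
      push_cast; rfl
    have hν := isOrderFun_ordRep (φ := φ) (L := L) hmul
      (fun u v hu hv huv => ordH_add_le hu hv huv τ) (fun c hc => by
        simp only [o, ordH, analyticOrderNatAt]
        rw [(analyticAt_of_mdiff (algebraMap ℂ ↥(modFun N) c).2.1 τ).analyticOrderAt_eq_zero.mpr
          (by show c ≠ 0; exact hc)]
        simp)
    obtain ⟨y, hy, hye⟩ := hν.exists_eq_mul hx hdvd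
    obtain ⟨c, d, hd, hyd⟩ := exists_div L N y
    refine ⟨toModFun φ c, toModFun φ d, toModFun_ne_zero (num_ne_zero hy hd hyd),
      toModFun_ne_zero hd, ?_⟩
    rw [ordRep_eq hmul hx hb h, ordRep_eq hmul hy hd hyd, mul_sub] at hye
    simp only [o] at hye
    omega
  · have hmul : ∀ u v : ↥(modFun N), u ≠ 0 → v ≠ 0 → ordC g (u * v) = ordC g u + ordC g v :=
      fun u v hu hv => ordC_mul g hu hv
    have hν := isOrderFun_ordRep (φ := φ) (L := L) hmul
      (fun u v _ _ huv => ordC_add_le huv g) (fun c hc => by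
        rw [ordC, AlgHom.commutes, X0Analytic.qSer_algebraMap, HahnSeries.order_single hc])
    obtain ⟨y, hy, hye⟩ := hν.exists_eq_mul hx hdvd
    obtain ⟨c, d, hd, hyd⟩ := exists_div L N y
    refine ⟨toModFun φ c, toModFun φ d, toModFun_ne_zero (num_ne_zero hy hd hyd),
      toModFun_ne_zero hd, ?_⟩
    rw [ordRep_eq hmul hx hb h, ordRep_eq hmul hy hd hyd, mul_sub] at hye
    omega

/-- **Monodromy of an element of the function field with orders divisible by `n`.** -/
theorem exists_char_of_dvd_ord [IsAlgClosed L] (φ : L →+* ℂ) {n : ℕ} (hn : n ≠ 0)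
    {x : ↥(FLevel L N)} (hx : x ≠ 0) (hdvd : ∀ P : Place L ↥(FLevel L N), (n : ℤ) ∣ P.ord x) :
    ∃ χ : CongruenceSubgroup.Gamma0 N →* ℂ,
      (∀ γ : CongruenceSubgroup.Gamma0 N,
        ((γ : Matrix.SpecialLinearGroup (Fin 2) ℤ) : Matrix (Fin 2) (Fin 2) ℤ).trace ^ 2 ≤ 4 →
          χ γ = 1) ∧
      HasChar N n (ModularCurve.coeffMap φ (x : LaurentSeries L)) χ := by
  obtain ⟨a, b, hb, h⟩ := exists_div L N x
  refine exists_hasChar hn (toModFun_ne_zero (num_ne_zero hx hb h)) (toModFun_ne_zero hb)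
    (locDiv_of_dvd_ord (φ := φ) hx hdvd hb h) ?_
  rw [X0Analytic.ser_toModFun, X0Analytic.ser_toModFun, ← map_mul]
  exact congrArg _ (congrArg (fun z : ↥(FLevel L N) => (z : LaurentSeries L)) h)

end Fermat.Agent.J0Torsion

end
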