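import Mathlib.Analysis.Complex.UpperHalfPlane.MoebiusAction
import Mathlib.NumberTheory.Modular
import Fermat.Agent.J0Torsion.HolRoot

/-!
# Fixed points in `SL(2, ℤ)`

Fixed points of parabolic and elliptic elements of `SL(2,ℤ)`, and the rotation factor of a
holomorphic semi-invariant function at a fixed point.
-/

set_option autoImplicit false
set_option linter.style.haveILetI false

noncomputable section

open Matrix UpperHalfPlane Filter
open scoped MatrixGroups Topology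

namespace Fermat.Agent.J0Torsion

/-- Parabolic elements (and `±1`) are conjugate to `±T^t`. -/
theorem exists_conj_T_zpow (γ : SL(2, ℤ))
    (hγ : (γ : Matrix (Fin 2) (Fin 2) ℤ).trace ^ 2 = 4) :
    ∃ (g : SL(2, ℤ)) (t : ℤ),
      γ = g * ModularGroup.T ^ t * g⁻¹ ∨ γ = -(g * ModularGroup.T ^ t * g⁻¹) := by
  have hdet := γ.det_coe
  rw [Matrix.det_fin_two] at hdet
  rw [Matrix.trace_fin_two] at hγ
  obtain ⟨ε, hε, htr⟩ : ∃ ε : ℤ, ε * ε = 1 ∧ γ 0 0 + γ 1 1 = 2 * ε := by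
    rcases sq_eq_sq_iff_eq_or_eq_neg.mp (hγ.trans (by norm_num : (4 : ℤ) = 2 ^ 2)) with h | h
    · exact ⟨1, by norm_num, by rw [h]; norm_num⟩
    · exact ⟨-1, by norm_num, by rw [h]; norm_num⟩
  -- a primitive vector `(x, y)` fixed up to `ε`
  obtain ⟨x, y, hxy, h0, h1⟩ : ∃ x y : ℤ, IsCoprime x y ∧
      γ 0 0 * x + γ 0 1 * y = ε * x ∧ γ 1 0 * x + γ 1 1 * y = ε * y := by
    have key : ∀ X Y : ℤ, Int.gcd X Y ≠ 0 →
        γ 0 0 * X + γ 0 1 * Y = ε * X → γ 1 0 * X + γ 1 1 * Y = ε * Y →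
        ∃ x y : ℤ, IsCoprime x y ∧
          γ 0 0 * x + γ 0 1 * y = ε * x ∧ γ 1 0 * x + γ 1 1 * y = ε * y := by
      intro X Y hg hX hY
      obtain ⟨x, y, hgcd, hx, hy⟩ := Int.exists_gcd_one (Nat.pos_of_ne_zero hg)
      have hc : ((Int.gcd X Y : ℕ) : ℤ) ≠ 0 := by exact_mod_cast hg
      refine ⟨x, y, Int.isCoprime_iff_gcd_eq_one.mpr hgcd, mul_right_cancel₀ hc ?_,
        mul_right_cancel₀ hc ?_⟩
      · linear_combination hX + (ε - γ 0 0) * hx - γ 0 1 * hy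
      · linear_combination hY + (ε - γ 1 1) * hy - γ 1 0 * hx
    by_cases hA : Int.gcd (γ 0 0 - ε) (γ 1 0) ≠ 0
    · refine key _ _ hA ?_ ?_
      · linear_combination (γ 0 0) * htr - hdet + hε
      · linear_combination (γ 1 0) * htr
    · push Not at hA
      rw [Int.gcd_eq_zero_iff, sub_eq_zero] at hA
      refine key 1 0 (by simp) ?_ ?_
      · linear_combination hA.1
      · linear_combination hA.2
  obtain ⟨g, hg0, hg1⟩ := hxy.exists_SL2_col 0
  refine ⟨g, ?_⟩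
  set δ := g⁻¹ * γ * g with hδ
  have hgdet := g.det_coe
  rw [Matrix.det_fin_two] at hgdet
  have hδent : ∀ i j, δ i j =
      ((g⁻¹ : SL(2, ℤ)) i 0 * γ 0 0 + (g⁻¹ : SL(2, ℤ)) i 1 * γ 1 0) * g 0 j +
      ((g⁻¹ : SL(2, ℤ)) i 0 * γ 0 1 + (g⁻¹ : SL(2, ℤ)) i 1 * γ 1 1) * g 1 j := fun i j => by
    simp [hδ, Matrix.mul_apply, Fin.sum_univ_two]
  have hinv : (g⁻¹ : SL(2, ℤ)) 1 0 = -g 1 0 ∧ (g⁻¹ : SL(2, ℤ)) 1 1 = g 0 0 ∧
      (g⁻¹ : SL(2, ℤ)) 0 0 = g 1 1 ∧ (g⁻¹ : SL(2, ℤ)) 0 1 = -g 0 1 := by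
    simp [Matrix.SpecialLinearGroup.coe_inv, Matrix.adjugate_fin_two]
  have h10 : δ 1 0 = 0 := by
    rw [hδent, hinv.1, hinv.2.1, hg0, hg1]
    linear_combination (-y) * h0 + x * h1
  have h00 : δ 0 0 = ε := by
    rw [hδent, hinv.2.2.1, hinv.2.2.2, hg0, hg1]
    rw [hg0, hg1] at hgdet
    linear_combination (g 1 1) * h0 - (g 0 1) * h1 + ε * hgdet
  have h11 : δ 1 1 = ε := by
    have hd := δ.det_coe
    rw [Matrix.det_fin_two, h10, h00, mul_zero, sub_zero] at hd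
    linear_combination ε * hd - δ 1 1 * hε
  have hγe : γ = g * δ * g⁻¹ := by rw [hδ]; group
  obtain ⟨t, ht⟩ : ∃ t, δ 0 1 = ε * t :=
    ⟨ε * δ 0 1, by rw [← mul_assoc, hε, one_mul]⟩
  refine ⟨t, ?_⟩
  rcases Int.eq_one_or_neg_one_of_mul_eq_one hε with rfl | rfl
  · left
    conv_lhs => rw [hγe]
    congr 2
    apply Matrix.SpecialLinearGroup.ext
    intro i j
    rw [ModularGroup.coe_T_zpow]
    fin_cases i <;> fin_cases j <;> simp [h00, h10, h11, ht]
  · right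
    conv_lhs => rw [hγe]
    rw [show δ = -(ModularGroup.T ^ t) from ?_, mul_neg, neg_mul]
    apply Matrix.SpecialLinearGroup.ext
    intro i j
    rw [Matrix.SpecialLinearGroup.coe_neg, ModularGroup.coe_T_zpow]
    fin_cases i <;> fin_cases j <;> simp [h00, h10, h11, ht]

/-- Elliptic elements have a fixed point in `ℍ`. -/
theorem exists_fixedPoint (γ : SL(2, ℤ))
    (hγ : (γ : Matrix (Fin 2) (Fin 2) ℤ).trace ^ 2 < 4) : ∃ τ : ℍ, γ • τ = τ := by
  have hdet := γ.det_coe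
  rw [Matrix.det_fin_two] at hdet
  rw [Matrix.trace_fin_two] at hγ
  set a : ℝ := ((γ 0 0 : ℤ) : ℝ) with ha
  set b : ℝ := ((γ 0 1 : ℤ) : ℝ) with hb
  set c : ℝ := ((γ 1 0 : ℤ) : ℝ) with hc
  set d : ℝ := ((γ 1 1 : ℤ) : ℝ) with hd
  have hdetR : a * d - b * c = 1 := by
    rw [ha, hb, hc, hd]; exact_mod_cast hdet
  have htrR : (a + d) ^ 2 < 4 := by
    rw [ha, hd]; exact_mod_cast hγ
  have hc0 : c ≠ 0 := by
    intro h
    rw [h, mul_zero, sub_zero] at hdetR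
    nlinarith [sq_nonneg (a - d)]
  set s := Real.sqrt (4 - (a + d) ^ 2) with hs
  have hs2 : s ^ 2 = 4 - (a + d) ^ 2 := Real.sq_sqrt (by linarith)
  have hspos : 0 < s := Real.sqrt_pos.mpr (by linarith)
  let z : ℂ := ⟨(a - d) / (2 * c), s / (2 * |c|)⟩
  have hz : 0 < z.im := div_pos hspos (by positivity)
  refine ⟨⟨z, hz⟩, ?_⟩
  apply UpperHalfPlane.ext
  rw [UpperHalfPlane.specialLinearGroup_apply]
  simp only [algebraMap_int_eq, eq_intCast]
  show ((γ 0 0 : ℝ) * z + (γ 0 1 : ℝ) : ℂ) / ((γ 1 0 : ℝ) * z + (γ 1 1 : ℝ)) = z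
  rw [← ha, ← hb, ← hc, ← hd]
  have hne : (c : ℂ) * z + d ≠ 0 := by
    intro h
    have := congrArg Complex.im h
    simp only [Complex.add_im, Complex.mul_im, Complex.ofReal_re, Complex.ofReal_im, zero_mul,
      add_zero, Complex.zero_im] at this
    exact mul_ne_zero hc0 hz.ne' this
  rw [div_eq_iff hne]
  apply Complex.ext
  · simp only [Complex.add_re, Complex.mul_re, Complex.ofReal_re, Complex.ofReal_im, zero_mul,
      sub_zero, Complex.add_im, Complex.mul_im, add_zero, z]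
    have habs : |c| ^ 2 = c ^ 2 := sq_abs c
    field_simp
    ring_nf
    nlinarith [hdetR, hs2, habs]
  · simp only [Complex.add_re, Complex.mul_re, Complex.ofReal_re, Complex.ofReal_im, zero_mul,
      sub_zero, Complex.add_im, Complex.mul_im, add_zero, z]
    field_simp
    ring

/-- A holomorphic function multiplied by `ζ` by `γ` has `ζ` determined by its order at a fixed
point of `γ`. -/
theorem eq_denom_pow_of_fixed {G : ℂ → ℂ} (hG : DifferentiableOn ℂ G upperHalfPlaneSet)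
    {γ : SL(2, ℤ)} {τ : ℍ} (hfix : γ • τ = τ) {ζ : ℂ}
    (hζ : ∀ z : ℍ, G (γ • z : ℍ) = ζ * G z) (hfin : analyticOrderAt G (τ : ℂ) ≠ ⊤) :
    ζ = (denom γ τ ^ 2)⁻¹ ^ analyticOrderNatAt G (τ : ℂ) := by
  obtain ⟨u, hu, hu0, hGu⟩ := exists_eq_sub_pow_mul isOpen_upperHalfPlaneSet hG τ.im_pos hfin
  set m := analyticOrderNatAt G (τ : ℂ)
  have key : ∀ z : ℍ, z ≠ τ →
      ζ * u z = ((denom γ z * denom γ τ) ^ m)⁻¹ * u (γ • z : ℍ) := by
    intro z hz
    have hzτ : ((z : ℂ) - τ) ≠ 0 := sub_ne_zero.mpr (fun h => hz (UpperHalfPlane.ext h))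
    have hsub : ((γ • z : ℍ) : ℂ) - τ = ((z : ℂ) - τ) / (denom γ z * denom γ τ) := by
      conv_lhs => rw [← hfix]
      have hz0 : denom γ z ≠ 0 := denom_ne_zero _ _
      have hτ0 : denom γ τ ≠ 0 := denom_ne_zero _ _
      rw [UpperHalfPlane.coe_specialLinearGroup_apply, UpperHalfPlane.coe_specialLinearGroup_apply]
      simp only [algebraMap_int_eq, eq_intCast, denom] at hz0 hτ0 ⊢
      have hdet : (γ 0 0 : ℂ) * γ 1 1 - γ 0 1 * γ 1 0 = 1 := by
        have := γ.det_coe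
        rw [Matrix.det_fin_two] at this
        exact_mod_cast this
      simp only [Matrix.SpecialLinearGroup.coe_GL_coe_matrix, Matrix.SpecialLinearGroup.map_apply_coe,
        RingHom.mapMatrix_apply, Int.coe_castRingHom, Matrix.map_apply, Complex.ofReal_intCast]
        at hz0 hτ0 ⊢
      rw [div_sub_div _ _ hz0 hτ0]
      congr 1
      linear_combination ((z : ℂ) - τ) * hdet
    have h := hζ z
    rw [hGu, hGu, hsub, div_pow] at h
    have hd : (denom γ z * denom γ τ) ^ m ≠ 0 :=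
      pow_ne_zero _ (mul_ne_zero (denom_ne_zero _ _) (denom_ne_zero _ _))
    field_simp at h ⊢
    linear_combination -h
  have hcont : ∀ z : ℍ, ContinuousAt u (z : ℂ) := fun z =>
    (hu.differentiableAt (isOpen_upperHalfPlaneSet.mem_nhds z.im_pos)).continuousAt
  have h1 : Tendsto (fun z : ℍ => ζ * u z) (𝓝[≠] τ) (𝓝 (ζ * u τ)) :=
    (((hcont τ).comp UpperHalfPlane.continuous_coe.continuousAt).const_mul ζ).tendsto.mono_left
      nhdsWithin_le_nhds
  have hdc : Continuous fun z : ℍ => denom γ z := by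
    simp only [denom]
    fun_prop
  have h2 : Tendsto (fun z : ℍ => ((denom γ z * denom γ τ) ^ m)⁻¹ * u (γ • z : ℍ))
      (𝓝[≠] τ) (𝓝 (((denom γ τ * denom γ τ) ^ m)⁻¹ * u (γ • τ : ℍ))) := by
    refine Tendsto.mono_left ?_ nhdsWithin_le_nhds
    refine ContinuousAt.tendsto (f := fun z : ℍ => ((denom γ z * denom γ τ) ^ m)⁻¹ * u (γ • z : ℍ)) ?_
    refine ((((hdc.continuousAt).mul continuousAt_const).pow m).inv₀
      (pow_ne_zero _ (mul_ne_zero (denom_ne_zero _ _) (denom_ne_zero _ _)))).mul ?_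
    have hsm : Continuous fun z : ℍ => ((γ • z : ℍ) : ℂ) := by
      simp only [UpperHalfPlane.coe_specialLinearGroup_apply]
      refine Continuous.div (by fun_prop) (by fun_prop) fun z => ?_
      have := denom_ne_zero (γ : GL (Fin 2) ℝ) z
      simpa [denom] using this
    exact ContinuousAt.comp (x := τ) (f := fun z : ℍ => ((γ • z : ℍ) : ℂ)) (hcont (γ • τ))
      hsm.continuousAt
  haveI hbot : (𝓝[≠] τ).NeBot := by
    rw [← mem_closure_iff_nhdsWithin_neBot, UpperHalfPlane.isEmbedding_coe.closure_eq_preimage_closure_image]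
    have hcl : (τ : ℂ) ∈ closure ({(τ : ℂ)}ᶜ) :=
      (dense_compl_singleton (τ : ℂ)) _
    rw [Set.mem_preimage]
    have hsub : ((↑) : ℍ → ℂ) '' {τ}ᶜ = upperHalfPlaneSet ∩ {(τ : ℂ)}ᶜ := by
      ext w
      constructor
      · rintro ⟨z, hz, rfl⟩
        exact ⟨z.im_pos, fun h => hz (UpperHalfPlane.ext h)⟩
      · rintro ⟨hw, hne⟩
        exact ⟨⟨w, hw⟩, fun h => hne (by rw [← h]; rfl), rfl⟩
    rw [hsub]
    exact isOpen_upperHalfPlaneSet.inter_closure ⟨τ.im_pos, hcl⟩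
  have heq := @tendsto_nhds_unique _ _ _ _ _ _ _ _ hbot
    (h1.congr' (eventually_nhdsWithin_of_forall key)) h2
  rw [hfix] at heq
  rw [← sq] at heq
  rw [inv_pow]
  exact mul_right_cancel₀ hu0 heq

end Fermat.Agent.J0Torsion

end
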