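import Fermat.Agent.J0Torsion.Twist
import Fermat.Agent.J0Torsion.SL2Fix
import Mathlib.Analysis.SpecialFunctions.Pow.Deriv

/-!
# Roots of quotients of modular functions

`n`-th roots on `ℍ` of quotients of modular functions all of whose orders are locally divisible
by `n`: their multiplier kills the parabolic and elliptic elements.
-/

set_option autoImplicit false

noncomputable section

open UpperHalfPlane Filter Topology CongruenceSubgroup
open scoped Manifold MatrixGroups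

namespace Fermat.Agent.J0Torsion

open X0Analytic (modFun perMero qp IsPer qSer compSL ser qp_ne_zero)

variable {N : ℕ} [NeZero N]

/-- The order of vanishing at a point of `ℍ`. -/
def ordH (f : ℍ → ℂ) (τ : ℍ) : ℕ := analyticOrderNatAt (↑ₕf) (τ : ℂ)

lemma analyticAt_of_mdiff {f : ℍ → ℂ} (hf : MDiff f) (τ : ℍ) : AnalyticAt ℂ (↑ₕf) (τ : ℂ) :=
  (UpperHalfPlane.mdifferentiable_iff.mp hf).analyticAt
    (isOpen_upperHalfPlaneSet.mem_nhds τ.im_pos)

lemma analyticOrderAt_ne_top_of_ne_zero {f : ℍ → ℂ} (hf : MDiff f) (hne : f ≠ 0) (τ : ℍ) :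
    analyticOrderAt (↑ₕf) (τ : ℂ) ≠ ⊤ := by
  obtain ⟨τ₀, hτ₀⟩ := Function.ne_iff.mp hne
  rw [Pi.zero_apply] at hτ₀
  have han : AnalyticOnNhd ℂ (↑ₕf) upperHalfPlaneSet :=
    (UpperHalfPlane.mdifferentiable_iff.mp hf).analyticOnNhd isOpen_upperHalfPlaneSet
  refine han.analyticOrderAt_ne_top_of_isPreconnected
    (convex_halfSpace_im_gt 0).isPreconnected τ₀.im_pos τ.im_pos ?_
  rw [(han τ₀ τ₀.im_pos).analyticOrderAt_eq_zero.mpr (by
    show f (ofComplex (τ₀ : ℂ)) ≠ 0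
    rw [ofComplex_apply]; exact hτ₀)]
  simp

lemma ordH_mul {f g : ℍ → ℂ} (hf : MDiff f) (hg : MDiff g) (hf0 : f ≠ 0) (hg0 : g ≠ 0) (τ : ℍ) :
    ordH (f * g) τ = ordH f τ + ordH g τ := by
  show analyticOrderNatAt ((↑ₕf) * (↑ₕg)) (τ : ℂ) = _
  exact analyticOrderNatAt_mul (analyticAt_of_mdiff hf τ) (analyticAt_of_mdiff hg τ)
    (analyticOrderAt_ne_top_of_ne_zero hf hf0 τ) (analyticOrderAt_ne_top_of_ne_zero hg hg0 τ)

lemma ordH_pow {f : ℍ → ℂ} (hf : MDiff f) (τ : ℍ) (k : ℕ) :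
    ordH (f ^ k) τ = k * ordH f τ := by
  show analyticOrderNatAt ((↑ₕf) ^ k) (τ : ℂ) = _
  rw [analyticOrderNatAt_pow (analyticAt_of_mdiff hf τ), smul_eq_mul]
  rfl

lemma coe_ne_zero {b : ↥(modFun N)} (hb : b ≠ 0) : (b : ℍ → ℂ) ≠ 0 := fun h => hb (Subtype.ext h)

/-- The order at the cusp `g ∞`, in `q ^ (1/N)`. -/
def ordC (g : SL(2, ℤ)) (a : ↥(modFun N)) : ℤ := (qSer N (compSL g a)).order

lemma compSL_ne_zero (g : SL(2, ℤ)) {a : ↥(modFun N)} (ha : a ≠ 0) : compSL g a ≠ 0 := fun h => by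
  refine ha (Subtype.ext (funext fun τ => ?_))
  have := congrFun (congrArg Subtype.val h) (g⁻¹ • τ)
  simpa using this

lemma qSer_compSL_ne_zero (g : SL(2, ℤ)) {a : ↥(modFun N)} (ha : a ≠ 0) :
    qSer N (compSL g a) ≠ 0 :=
  (map_ne_zero_iff _ X0Analytic.qSer_injective).mpr (compSL_ne_zero g ha)

lemma ordC_mul (g : SL(2, ℤ)) {a b : ↥(modFun N)} (ha : a ≠ 0) (hb : b ≠ 0) :
    ordC g (a * b) = ordC g a + ordC g b := by
  rw [ordC, map_mul, map_mul, HahnSeries.order_mul (qSer_compSL_ne_zero g ha)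
    (qSer_compSL_ne_zero g hb)]
  rfl

lemma modFun_mul_ne_zero {a b : ↥(modFun N)} (ha : a ≠ 0) (hb : b ≠ 0) : a * b ≠ 0 := fun h =>
  hol_mul_ne_zero a.2.1 b.2.1 (coe_ne_zero ha) (coe_ne_zero hb) (congrArg Subtype.val h)

lemma modFun_pow_ne_zero {a : ↥(modFun N)} (ha : a ≠ 0) : ∀ k : ℕ, a ^ k ≠ 0
  | 0 => by rw [pow_zero]; exact fun h => one_ne_zero (congrFun (congrArg Subtype.val h) I)
  | k + 1 => by rw [pow_succ]; exact modFun_mul_ne_zero (modFun_pow_ne_zero ha k) ha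

lemma ordC_pow (g : SL(2, ℤ)) {a : ↥(modFun N)} (ha : a ≠ 0) :
    ∀ k : ℕ, ordC g (a ^ k) = k * ordC g a
  | 0 => by rw [pow_zero, ordC, map_one, map_one, HahnSeries.order_one]; simp
  | k + 1 => by
    rw [pow_succ, ordC_mul g (modFun_pow_ne_zero ha k) ha, ordC_pow g ha k]
    push_cast; ring

/-- `a / b` has all its orders locally `n` times the order of a modular function. -/
def LocDiv (n : ℕ) (a b : ↥(modFun N)) : Prop :=
  (∀ τ : ℍ, ∃ u v : ↥(modFun N), u ≠ 0 ∧ v ≠ 0 ∧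
    ordH a τ + n * ordH v τ = ordH b τ + n * ordH u τ) ∧
  ∀ g : SL(2, ℤ), ∃ u v : ↥(modFun N), u ≠ 0 ∧ v ≠ 0 ∧
    ordC g a + n * ordC g v = ordC g b + n * ordC g u

/-- Powers of `q ^ (1/h)` as periodic functions. -/
lemma exists_qMonomial (h : ℕ) [NeZero h] (j : ℤ) :
    ∃ m : ↥(perMero h), (∀ τ, (m : ℍ → ℂ) τ = qp h τ ^ j) ∧
      qSer h m = HahnSeries.single j 1 := by
  have hqi : (fun τ => (qp h τ)⁻¹) ∈ perMero h := by
    refine ⟨?_, fun τ => by simp [X0Analytic.qp_vadd], 1, ?_⟩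
    · refine UpperHalfPlane.mdifferentiable_iff.mpr ?_
      exact (UpperHalfPlane.mdifferentiable_iff.mp (X0Analytic.qp_mdiff h)).inv
        fun z _ => qp_ne_zero h _
    · rw [show (fun τ => (qp h τ)⁻¹) * qp h ^ 1 = fun _ => 1 from by
        funext τ; simp [qp_ne_zero]]
      exact Filter.const_boundedAtFilter _ 1
  have hsi : qSer h ⟨_, hqi⟩ = HahnSeries.single (-1) 1 := by
    rw [X0Analytic.qSer_eq _ (m := 1) (by
      rw [show (fun τ => (qp h τ)⁻¹) * qp h ^ 1 = fun _ => 1 from by funext τ; simp [qp_ne_zero]]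
      exact Filter.const_boundedAtFilter _ 1), X0Analytic.qSerAux]
    rw [show ((⟨_, hqi⟩ : ↥(perMero h)) : ℍ → ℂ) * qp h ^ 1 = 1 from by
      funext τ; simp [qp_ne_zero]]
    simp [UpperHalfPlane.qExpansion_one]
  have hq : qp h ∈ perMero h :=
    ⟨X0Analytic.qp_mdiff h, fun τ => X0Analytic.qp_vadd h τ, 0, by
      rw [pow_zero, mul_one]; exact X0Analytic.qp_isBounded h⟩
  have hsq : qSer h ⟨_, hq⟩ = HahnSeries.single 1 1 := by
    have h1 : (⟨_, hq⟩ : ↥(perMero h)) * ⟨_, hqi⟩ = 1 :=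
      Subtype.ext (funext fun τ => by simp [qp_ne_zero])
    have h2 := congrArg (qSer h) h1
    rw [map_mul, map_one, hsi] at h2
    have hne : (HahnSeries.single (-1 : ℤ) (1 : ℂ) : LaurentSeries ℂ) ≠ 0 := by simp
    refine mul_right_cancel₀ hne (h2.trans ?_)
    rw [HahnSeries.single_mul_single]
    simp
  rcases Int.eq_nat_or_neg j with ⟨k, rfl | rfl⟩
  · exact ⟨⟨_, hq⟩ ^ k, fun τ => by simp, by rw [map_pow, hsq, HahnSeries.single_pow]; simp⟩
  · exact ⟨⟨_, hqi⟩ ^ k, fun τ => by simp [zpow_neg, inv_pow],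
      by rw [map_pow, hsi, HahnSeries.single_pow]; simp⟩

/-- A periodic function divided by its leading monomial tends to the leading coefficient. -/
lemma tendsto_leading {h : ℕ} [NeZero h] {f : ↥(perMero h)} (hf : f ≠ 0) :
    ∃ c : ℂ, c ≠ 0 ∧ Tendsto (fun τ => (f : ℍ → ℂ) τ * qp h τ ^ (-(qSer h f).order)) atImInfty
      (𝓝 c) := by
  obtain ⟨m, hm, hms⟩ := exists_qMonomial h (-(qSer h f).order)
  have hne : qSer h f ≠ 0 := (map_ne_zero_iff _ X0Analytic.qSer_injective).mpr hf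
  refine ⟨(qSer h f).coeff (qSer h f).order, mt HahnSeries.coeff_order_eq_zero.mp hne, ?_⟩
  have hc : ∀ k, (qSer h (f * m)).coeff k = (qSer h f).coeff (k + (qSer h f).order) := fun k => by
    rw [map_mul, hms, mul_comm, HahnSeries.coeff_single_mul, one_mul, sub_neg_eq_add]
  have hb := (X0Analytic.isBoundedAtImInfty_iff_coeff (f * m)).mpr fun k hk => by
    rw [hc]; exact HahnSeries.coeff_eq_zero_of_lt_order (by omega)
  have ht := X0Analytic.tendsto_atImInfty_coeff_zero (f * m) hb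
  rw [hc, zero_add] at ht
  exact ht.congr fun τ => by rw [MulMemClass.coe_mul, Pi.mul_apply, hm]

/-- The rotation of `q ^ (1/N)` by an integral translation. -/
def transRot (N : ℕ) (t : ℤ) : ℂ := Complex.exp (2 * Real.pi * Complex.I * t / N)

lemma transRot_ne_zero (N : ℕ) (t : ℤ) : transRot N t ≠ 0 := Complex.exp_ne_zero _

omit [NeZero N] in
lemma qp_T_zpow_smul (t : ℤ) (τ : ℍ) :
    qp N (ModularGroup.T ^ t • τ) = transRot N t * qp N τ := by
  simp only [qp, Function.Periodic.qParam, transRot, UpperHalfPlane.modular_T_zpow_smul,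
    UpperHalfPlane.coe_vadd, ← Complex.exp_add]
  congr 1
  push_cast
  ring

/-- A series fixed by translation by `t` has its order killed by the rotation. -/
lemma transRot_zpow_order {f : ↥(perMero N)} (hf : f ≠ 0) {t : ℤ}
    (hper : ∀ τ : ℍ, (f : ℍ → ℂ) (ModularGroup.T ^ t • τ) = (f : ℍ → ℂ) τ) :
    transRot N t ^ (qSer N f).order = 1 := by
  obtain ⟨hm, hs⟩ := X0Analytic.qSer_subst (h' := N) (M := 1) f (fun τ => ModularGroup.T ^ t • τ)
    (mdifferentiable_smul (X0Analytic.det_pos_SL _)) (transRot N t) (transRot_ne_zero N t)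
    (fun τ => by rw [pow_one]; exact qp_T_zpow_smul t τ)
  rw [ModularCurve.qExpand_one_apply, show (⟨_, hm⟩ : ↥(perMero N)) = f from
    Subtype.ext (funext hper)] at hs
  have hc := congrArg (fun s : LaurentSeries ℂ => s.coeff (qSer N f).order) hs
  simp only [X0Analytic.rot_coeff] at hc
  have hne : qSer N f ≠ 0 := (map_ne_zero_iff _ X0Analytic.qSer_injective).mpr hf
  exact mul_right_cancel₀ (mt HahnSeries.coeff_order_eq_zero.mp hne)
    (hc.symm.trans (one_mul _).symm)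

lemma bounded_of_pow_bounded {n : ℕ} (hn : n ≠ 0) {H : ℍ → ℂ}
    (h : IsBoundedAtImInfty (H ^ n)) : IsBoundedAtImInfty H := by
  rw [isBoundedAtImInfty_iff] at h ⊢
  obtain ⟨C, A, hC⟩ := h
  refine ⟨max 1 C, A, fun τ hτ => ?_⟩
  rcases le_or_gt ‖H τ‖ 1 with h1 | h1
  · exact h1.trans (le_max_left _ _)
  · refine (le_trans ?_ (hC τ hτ)).trans (le_max_right _ _)
    rw [Pi.pow_apply, norm_pow]
    exact le_self_pow₀ h1.le hn

/-- At a cusp, the multiplier of an `n`-th root is trivial when the order is suitably divisible. -/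
lemma eq_one_of_translation {n : ℕ} (hn : n ≠ 0) {H : ℍ → ℂ} (hH : MDiff H)
    {A : ↥(perMero N)} (hA : A ≠ 0) (hpow : ∀ τ, H τ ^ n = (A : ℍ → ℂ) τ) {t : ℤ} {χ : ℂ}
    (htr : ∀ τ : ℍ, H (ModularGroup.T ^ t • τ) = χ * H τ) {K : ℤ}
    (hK : (qSer N A).order = n * K) (hμ : transRot N t ^ K = 1) : χ = 1 := by
  obtain ⟨c, hc, hlim⟩ := tendsto_leading hA
  rw [hK] at hlim
  set H' : ℍ → ℂ := fun τ => H τ * qp N τ ^ (-K) with hH'
  have hpow' : ∀ τ, H' τ ^ n = (A : ℍ → ℂ) τ * qp N τ ^ (-((n : ℤ) * K)) := fun τ => by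
    rw [hH', mul_pow, hpow, ← zpow_natCast (qp N τ ^ (-K)) n, ← zpow_mul]
    congr 2; ring
  have hev := hlim.eventually (Metric.ball_mem_nhds c (norm_pos_iff.mpr hc))
  rw [Filter.Eventually, atImInfty_mem] at hev
  obtain ⟨y₀, hy₀⟩ := hev
  set y := max y₀ 1
  set S : Set ℂ := {z | y < z.im}
  have hSsub : S ⊆ upperHalfPlaneSet := fun z (hz : y < z.im) =>
    show 0 < z.im from lt_trans (lt_of_lt_of_le one_pos (le_max_right y₀ 1)) hz
  have hball : ∀ τ : ℍ, y < τ.im → (H' τ ^ n) / c ∈ Complex.slitPlane := by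
    intro τ hτ
    have h := hy₀ τ ((le_max_left y₀ 1).trans hτ.le)
    simp only [Set.mem_ofPred_eq, ← hpow', dist_eq_norm] at h
    refine Complex.mem_slitPlane_iff.mpr (Or.inl ?_)
    have h2 : ‖H' τ ^ n / c - 1‖ < 1 := by
      rw [div_sub_one hc, norm_div, div_lt_one (norm_pos_iff.mpr hc)]
      exact h
    have := (abs_lt.mp ((Complex.abs_re_le_norm _).trans_lt h2)).1
    simp only [Complex.sub_re, Complex.one_re] at this
    linarith
  have hH'd : DifferentiableOn ℂ (↑ₕH') upperHalfPlaneSet := by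
    have := (UpperHalfPlane.mdifferentiable_iff.mp hH).mul
      ((UpperHalfPlane.mdifferentiable_iff.mp (X0Analytic.qp_mdiff N)).zpow (m := -K)
        (Or.inl fun z _ => qp_ne_zero N _))
    exact this
  set R : ℍ → ℂ := fun τ => ((H' τ ^ n) / c) ^ ((n : ℂ)⁻¹) with hR
  have hRd : DifferentiableOn ℂ (↑ₕR) S := by
    refine (((hH'd.mono hSsub).fun_pow n).div_const c).cpow (differentiableOn_const _) fun z hz => ?_
    refine hball (ofComplex z) ?_
    show y < (ofComplex z).im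
    rw [ofComplex_apply_of_im_pos (hSsub hz)]
    exact hz
  let τ₁ : ℍ := ⟨⟨0, y + 1⟩, by
    show (0 : ℝ) < y + 1
    linarith [le_max_right y₀ (1 : ℝ)]⟩
  have hτ₁ : y < τ₁.im := by show y < y + 1; linarith
  have hH'0 : ∀ τ : ℍ, y < τ.im → H' τ ≠ 0 := fun τ hτ h0 => by
    have := Complex.slitPlane_ne_zero (hball τ hτ)
    rw [h0, zero_pow hn, zero_div] at this
    exact this rfl
  set r := H' τ₁ / R τ₁
  have hR0 : ∀ τ : ℍ, y < τ.im → R τ ^ n = H' τ ^ n / c := fun τ _ =>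
    Complex.cpow_nat_inv_pow _ hn
  have hRne : R τ₁ ≠ 0 := fun h => by
    have := hR0 τ₁ hτ₁
    rw [h, zero_pow hn, eq_comm, div_eq_zero_iff] at this
    exact this.elim (fun h => hH'0 τ₁ hτ₁ ((pow_eq_zero_iff hn).mp h)) hc
  have hr : r ^ n = c := by
    rw [show r ^ n = H' τ₁ ^ n / R τ₁ ^ n from div_pow _ _ _, hR0 τ₁ hτ₁]
    field_simp [hH'0 τ₁ hτ₁]
  have heq := eqOn_of_pow_eq (g := ↑ₕH') (h := fun z => r * (↑ₕR) z)
    (isOpen_lt continuous_const Complex.continuous_im) (convex_halfSpace_im_gt y).isPreconnected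
    (hH'd.mono hSsub) (hRd.const_mul r) hn (fun z hz => by
      show H' (ofComplex z) ^ n = (r * R (ofComplex z)) ^ n
      rw [mul_pow r, hr, hR0 _ (by rw [ofComplex_apply_of_im_pos (hSsub hz)]; exact hz),
        mul_div_cancel₀ _ hc])
    (z₀ := (τ₁ : ℂ)) hτ₁ (by
      show H' (ofComplex (τ₁ : ℂ)) = r * R (ofComplex (τ₁ : ℂ))
      rw [ofComplex_apply, div_mul_cancel₀ _ hRne])
    (by show H' (ofComplex (τ₁ : ℂ)) ≠ 0; rw [ofComplex_apply]; exact hH'0 τ₁ hτ₁)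
  -- translate
  set τ₂ := ModularGroup.T ^ t • τ₁
  have hτ₂ : y < τ₂.im := by
    rw [show τ₂ = (t : ℝ) +ᵥ τ₁ from UpperHalfPlane.modular_T_zpow_smul τ₁ t,
      UpperHalfPlane.vadd_im]
    exact hτ₁
  have hHr : ∀ τ : ℍ, y < τ.im → H' τ = r * R τ := fun τ hτ => by
    have := heq (x := (τ : ℂ)) hτ
    simpa [ofComplex_apply] using this
  have hμ' : transRot N t ^ (-K) = 1 := by rw [zpow_neg, hμ, inv_one]
  have h2 : H' τ₂ = χ * H' τ₁ := by
    simp only [hH', τ₂, htr, qp_T_zpow_smul, mul_zpow, hμ', one_mul, mul_assoc]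
  have hinvA : H' τ₂ ^ n = H' τ₁ ^ n := by
    have hχn : χ ^ n = 1 := by
      have hm := transRot_zpow_order hA (t := t)
      obtain ⟨τ₀, hτ₀⟩ := Function.ne_iff.mp (fun h => hA (Subtype.ext h) : (A : ℍ → ℂ) ≠ 0)
      rw [Pi.zero_apply] at hτ₀
      -- `A` has the `q`-rotation of an `n`-th power
      obtain ⟨hm', hs⟩ := X0Analytic.qSer_subst (h' := N) (M := 1) A
        (fun τ => ModularGroup.T ^ t • τ) (mdifferentiable_smul (X0Analytic.det_pos_SL _))
        (transRot N t) (transRot_ne_zero N t) (fun τ => by rw [pow_one]; exact qp_T_zpow_smul t τ)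
      have hfun : (⟨_, hm'⟩ : ↥(perMero N)) = algebraMap ℂ _ (χ ^ n) * A :=
        Subtype.ext (funext fun τ => by
          show (A : ℍ → ℂ) (ModularGroup.T ^ t • τ) = χ ^ n * (A : ℍ → ℂ) τ
          rw [← hpow, ← hpow, htr, mul_pow])
      rw [hfun, map_mul, X0Analytic.qSer_algebraMap, ModularCurve.qExpand_one_apply] at hs
      have hco := congrArg (fun s : LaurentSeries ℂ => s.coeff (qSer N A).order) hs
      simp only [HahnSeries.coeff_single_mul, sub_zero, X0Analytic.rot_coeff] at hco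
      have hne : qSer N A ≠ 0 := (map_ne_zero_iff _ X0Analytic.qSer_injective).mpr hA
      rw [hK, mul_comm (n : ℤ) K, zpow_mul, hμ, one_zpow, one_mul] at hco
      have hcc : (qSer N A).coeff (K * n) ≠ 0 := by
        have := mt HahnSeries.coeff_order_eq_zero.mp hne
        rwa [hK, mul_comm] at this
      exact mul_right_cancel₀ hcc (hco.trans (one_mul _).symm)
    rw [h2, mul_pow, hχn, one_mul]
  have hRR : R τ₂ = R τ₁ := by simp only [hR, hinvA]
  have : χ * H' τ₁ = 1 * H' τ₁ := by rw [← h2, hHr τ₂ hτ₂, hRR, ← hHr τ₁ hτ₁, one_mul]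
  exact mul_right_cancel₀ (hH'0 τ₁ hτ₁) this

lemma eq_one_of_fixed {G : ℍ → ℂ} (hG : MDiff G) (hG0 : G ≠ 0) {γ : SL(2, ℤ)} {τ : ℍ}
    (hfix : γ • τ = τ) {ζ : ℂ} (hζ : ∀ z : ℍ, G (γ • z) = ζ * G z) :
    ζ = (denom γ τ ^ 2)⁻¹ ^ ordH G τ :=
  eq_denom_pow_of_fixed (UpperHalfPlane.mdifferentiable_iff.mp hG) hfix
    (fun z => by
      show G (ofComplex ((γ • z : ℍ) : ℂ)) = ζ * G (ofComplex (z : ℂ))
      rw [ofComplex_apply, ofComplex_apply, hζ])
    (analyticOrderAt_ne_top_of_ne_zero hG hG0 τ)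

/-- **The monodromy character.** -/
theorem exists_hasChar {n : ℕ} (hn : n ≠ 0) {a b : ↥(modFun N)} (ha : a ≠ 0) (hb : b ≠ 0)
    (hloc : LocDiv n a b) {f : LaurentSeries ℂ} (hf : f * ser N b = ser N a) :
    ∃ χ : Gamma0 N →* ℂ,
      (∀ γ : Gamma0 N, ((γ : SL(2, ℤ)) : Matrix (Fin 2) (Fin 2) ℤ).trace ^ 2 ≤ 4 → χ γ = 1) ∧
      HasChar N n f χ := by
  classical
  set P : ↥(modFun N) := a * b ^ (n - 1) with hP
  have hb' := modFun_pow_ne_zero hb (n - 1)
  have hP0 : P ≠ 0 := modFun_mul_ne_zero ha hb'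
  have hsucc : n = (n - 1) + 1 := (Nat.succ_pred_eq_of_ne_zero hn).symm
  have hordP : ∀ τ : ℍ, ordH P τ = ordH a τ + (n - 1) * ordH b τ := fun τ => by
    rw [show (P : ℍ → ℂ) = (a : ℍ → ℂ) * ((b ^ (n - 1) : ↥(modFun N)) : ℍ → ℂ) from rfl,
      ordH_mul a.2.1 (b ^ (n - 1)).2.1 (coe_ne_zero ha) (coe_ne_zero hb') τ,
      SubmonoidClass.coe_pow, ordH_pow b.2.1]
  have hdvd : ∀ z ∈ upperHalfPlaneSet, n ∣ analyticOrderNatAt (↑ₕ(P : ℍ → ℂ)) z := by
    intro z hz
    lift z to ℍ using hz with τ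
    obtain ⟨u, v, hu, hv, he⟩ := hloc.1 τ
    show n ∣ ordH P τ
    rw [hordP]
    refine (Nat.dvd_add_left (dvd_mul_right n (ordH v τ))).mp ⟨ordH b τ + ordH u τ, ?_⟩
    calc ordH a τ + (n - 1) * ordH b τ + n * ordH v τ
        = ((n - 1) + 1) * ordH b τ + n * ordH u τ := by rw [Nat.add_mul, one_mul]; omega
      _ = n * (ordH b τ + ordH u τ) := by rw [← hsucc, mul_add]
  obtain ⟨τ₀, hτ₀⟩ := Function.ne_iff.mp (coe_ne_zero hP0)
  obtain ⟨g, hgd, hgp⟩ := exists_holomorphic_pow_eq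
    (UpperHalfPlane.mdifferentiable_iff.mp P.2.1) (z₁ := (τ₀ : ℂ)) τ₀.im_pos
    (by show (P : ℍ → ℂ) (ofComplex (τ₀ : ℂ)) ≠ 0; rw [ofComplex_apply]; exact hτ₀) hn hdvd
  set G : ℍ → ℂ := fun τ => g τ with hGdef
  have hGp : ∀ τ, G τ ^ n = (P : ℍ → ℂ) τ := fun τ => by
    rw [hGdef]
    exact (hgp τ τ.im_pos).trans (by simp [ofComplex_apply])
  have hGd : MDiff G := UpperHalfPlane.mdifferentiable_iff.mpr (hgd.congr fun z hz => by
    simp only [Function.comp_apply, hGdef, ofComplex_apply_of_im_pos hz])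
  have hG0 : G ≠ 0 := fun h => hτ₀ (by
    rw [Pi.zero_apply, ← hGp, h, Pi.zero_apply, zero_pow hn])
  have hex : ∀ γ : Gamma0 N, ∃ c : ℂ, ∀ z, G ((γ : SL(2, ℤ)) • z) = c * G z := fun γ => by
    obtain ⟨c, -, hc⟩ := exists_const_of_pow_eq
      (hGd.comp (mdifferentiable_smul (X0Analytic.det_pos_SL (γ : SL(2, ℤ))))) hGd hn hG0
      (fun τ => by
        show G ((γ : SL(2, ℤ)) • τ) ^ n = G τ ^ n
        rw [hGp, hGp]; exact P.2.2.1 γ γ.2 τ)
    exact ⟨c, fun z => congrFun hc z⟩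
  choose c hc using hex
  obtain ⟨τ₁, hτ₁⟩ := Function.ne_iff.mp hG0
  rw [Pi.zero_apply] at hτ₁
  let χ : Gamma0 N →* ℂ :=
    { toFun := c
      map_one' := mul_right_cancel₀ hτ₁ (by rw [one_mul, ← hc, Subgroup.coe_one, one_smul])
      map_mul' := fun γ δ => mul_right_cancel₀ hτ₁ (by
        rw [← hc, Subgroup.coe_mul, mul_smul, hc, hc, mul_assoc]) }
  have hG : G ∈ twFun χ := ⟨hGd, hc, fun s => by
    obtain ⟨m, hm⟩ := (P.2.2.2 s).2.2
    refine ⟨m, bounded_of_pow_bounded hn ?_⟩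
    rw [show ((fun τ : ℍ => G (s • τ)) * qp N ^ m) ^ n
        = ((fun τ : ℍ => (P : ℍ → ℂ) (s • τ)) * qp N ^ m) * qp N ^ (m * (n - 1)) from by
      funext τ
      simp only [Pi.mul_apply, Pi.pow_apply, mul_pow, hGp, mul_assoc, ← pow_add, ← pow_mul]
      congr 2
      conv_lhs => rw [hsucc]
      rw [mul_add, mul_one, add_comm]]
    exact Filter.BoundedAtFilter.mul hm (X0Analytic.qp_pow_isBounded N _)⟩
  refine ⟨χ, fun γ hγ => ?_, G, b, P, hG, hG0, hb, (funext fun τ => (hGp τ).symm), ?_⟩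
  · rcases lt_or_eq_of_le hγ with hlt | heq
    · obtain ⟨τ, hfix⟩ := exists_fixedPoint _ hlt
      have h1 := eq_one_of_fixed hGd hG0 hfix (hc γ)
      set w := (denom (γ : SL(2, ℤ)) τ ^ 2)⁻¹
      have hmod : ∀ u : ↥(modFun N), u ≠ 0 → w ^ ordH u τ = 1 := fun u hu =>
        (eq_one_of_fixed u.2.1 (coe_ne_zero hu) hfix
          (fun z => by rw [one_mul]; exact u.2.2.1 γ γ.2 z)).symm
      obtain ⟨u, v, hu, hv, he⟩ := hloc.1 τ
      have hG' : n * ordH G τ = ordH P τ := by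
        rw [← ordH_pow hGd, show G ^ n = (P : ℍ → ℂ) from funext hGp]
      have hk : ordH G τ + ordH v τ = ordH b τ + ordH u τ := by
        refine Nat.eq_of_mul_eq_mul_left (Nat.pos_of_ne_zero hn) ?_
        rw [mul_add, hG', hordP, mul_add]
        calc ordH a τ + (n - 1) * ordH b τ + n * ordH v τ
            = ((n - 1) + 1) * ordH b τ + n * ordH u τ := by rw [Nat.add_mul, one_mul]; omega
          _ = _ := by rw [← hsucc]
      have := congrArg (w ^ ·) hk
      simp only [pow_add, hmod v hv, hmod b hb, hmod u hu, mul_one] at this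
      exact h1.trans this
    · obtain ⟨s, t, hst⟩ := exists_conj_T_zpow _ heq
      have hact : ∀ z : ℍ, (γ : SL(2, ℤ)) • z = (s * ModularGroup.T ^ t * s⁻¹) • z := fun z => by
        rcases hst with h | h <;> rw [h]
        rw [ModularGroup.SL_neg_smul]
      have htr : ∀ (F : ℍ → ℂ) (z : ℂ), (∀ x : ℍ, F ((γ : SL(2, ℤ)) • x) = z * F x) →
          ∀ τ : ℍ, F (s • (ModularGroup.T ^ t • τ)) = z * F (s • τ) := fun F z hF τ => by
        rw [← hF (s • τ), hact, mul_smul, mul_smul, inv_smul_smul]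
      have hmod : ∀ u : ↥(modFun N), u ≠ 0 → transRot N t ^ ordC s u = 1 := fun u hu =>
        transRot_zpow_order (compSL_ne_zero s hu) (fun τ => by
          show (u : ℍ → ℂ) (s • (ModularGroup.T ^ t • τ)) = (u : ℍ → ℂ) (s • τ)
          simpa using htr u 1 (fun z => by rw [one_mul]; exact u.2.2.1 γ γ.2 z) τ)
      obtain ⟨u, v, hu, hv, he⟩ := hloc.2 s
      refine eq_one_of_translation (N := N) hn
        (H := fun τ => G (s • τ)) (hGd.comp (mdifferentiable_smul (X0Analytic.det_pos_SL s)))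
        (compSL_ne_zero s hP0) (fun τ => hGp _) (htr G _ (hc γ))
        (K := ordC s b + ordC s u - ordC s v) ?_ ?_
      · show ordC s P = _
        rw [hP, ordC_mul s ha hb', ordC_pow s hb, Nat.cast_sub (Nat.pos_of_ne_zero hn)]
        push_cast
        linear_combination he
      · rw [zpow_sub₀ (transRot_ne_zero N t), zpow_add₀ (transRot_ne_zero N t), hmod b hb,
          hmod u hu, hmod v hv]
        norm_num
  · have hbn : b ^ n = b * b ^ (n - 1) := by conv_lhs => rw [hsucc, pow_succ']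
    rw [hP, hbn, map_mul, map_mul, ← mul_assoc, hf]

end Fermat.Agent.J0Torsion

end
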